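import Fermat.Agent.FFG.Lift
import Fermat.Agent.Flat.Dvr
import Fermat.Agent.Flat.Local2

/-!
# The strictly henselian base ring
-/

set_option autoImplicit false
set_option linter.unusedSectionVars false
set_option linter.style.haveILetI false

noncomputable section

namespace Fermat.Agent.FFG

open Fermat.Agent.Flat Fermat.Agent.Places

local notation "Ω" => AlgebraicClosure ℚ

variable (A : ValuationSubring (AlgebraicClosure ℚ))

variable {A} in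
/-- automorphisms over `R0` as automorphisms over `ℚ` -/
def rq (γ : Ω ≃ₐ[R0 A] Ω) : Ω ≃ₐ[ℚ] Ω :=
  AlgEquiv.ofRingEquiv (f := γ.toRingEquiv) (fun r => by
    rw [eq_ratCast]
    exact map_ratCast γ.toRingEquiv r)

variable {A} in
@[simp] theorem rq_apply (γ : Ω ≃ₐ[R0 A] Ω) (x : Ω) : rq γ x = γ x := rfl

theorem fix_K0 (γ : Ω ≃ₐ[R0 A] Ω) {x : Ω} (hx : x ∈ K0 A) : γ x = x := by
  rcases A.mem_or_inv_mem x with h | h
  · exact γ.commutes ⟨x, h, hx⟩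
  · have h1 : γ x⁻¹ = x⁻¹ := γ.commutes ⟨x⁻¹, h, (K0 A).inv_mem hx⟩
    rw [map_inv₀] at h1
    exact inv_injective h1

variable {A} in
theorem rq_mem (γ : Ω ≃ₐ[R0 A] Ω) : rq γ ∈ A.inertiaSubgroupIn ℚ :=
  mem_inertia_of_fixing A fun x hx => fix_K0 A γ hx

/-- elements of inertia as automorphisms over `R0` -/
def ofInertia (σ : Ω ≃ₐ[ℚ] Ω) (hσ : σ ∈ A.inertiaSubgroupIn ℚ) : Ω ≃ₐ[R0 A] Ω :=
  AlgEquiv.ofRingEquiv (f := σ.toRingEquiv) (fun r => by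
    have h1 : (r : Ω) ∈ K0 A := r.2.2
    exact h1 ⟨σ, hσ⟩)

theorem ofInertia_apply (σ : Ω ≃ₐ[ℚ] Ω) (hσ : σ ∈ A.inertiaSubgroupIn ℚ) (x : Ω) :
    ofInertia A σ hσ x = σ x := rfl

theorem rq_ofInertia (σ : Ω ≃ₐ[ℚ] Ω) (hσ : σ ∈ A.inertiaSubgroupIn ℚ) :
    rq (ofInertia A σ hσ) = σ := AlgEquiv.ext fun _ => rfl

/-- automorphisms over `K0` as automorphisms over `R0` -/
def ofK0 (σ : Ω ≃ₐ[K0 A] Ω) : Ω ≃ₐ[R0 A] Ω :=
  AlgEquiv.ofRingEquiv (f := σ.toRingEquiv) (fun r => σ.commutes ⟨(r : Ω), r.2.2⟩)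

theorem ofK0_apply (σ : Ω ≃ₐ[K0 A] Ω) (x : Ω) : ofK0 A σ x = σ x := rfl

theorem mem_K0_of_fix {x : Ω} (h : ∀ σ : Ω ≃ₐ[R0 A] Ω, σ x = x) : x ∈ K0 A :=
  mem_K0_of_fixed A fun σ => h (ofK0 A σ)

instance fixBase : FixBase (R0 A) Ω where
  inj := Subtype.val_injective
  fix x h := by
    have hx := mem_K0_of_fix A h
    rcases A.mem_or_inv_mem x with h1 | h1
    · exact ⟨⟨x, h1, hx⟩, 1, one_ne_zero, by rw [map_one, one_mul]; rfl⟩
    · by_cases hx0 : x = 0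
      · exact ⟨0, 1, one_ne_zero, by rw [hx0, mul_zero, map_zero]⟩
      · refine ⟨1, ⟨x⁻¹, h1, (K0 A).inv_mem hx⟩, ?_, ?_⟩
        · intro h2
          exact inv_ne_zero hx0 (congrArg Subtype.val h2)
        · rw [map_one]
          exact inv_mul_cancel₀ hx0

theorem isOver : IsOver (R0 A) (algebraMap A Ω).range where
  fix := by
    rintro _ ⟨x, rfl⟩ h
    exact ⟨⟨x, x.2, mem_K0_of_fix A h⟩, rfl⟩

theorem aut_A (γ : Ω ≃ₐ[R0 A] Ω) (a : A) : ∃ a' : A, algebraMap A Ω a' = γ (algebraMap A Ω a) := by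
  have h1 : γ a - a ∈ A.nonunits := (mem_inertia_iff A _).1 (rq_mem γ) a a.2
  have h2 : γ (a : Ω) ∈ A := by
    have h3 := A.add_mem _ _ (mem_of_mem_nonunits A h1) a.2
    rwa [sub_add_cancel] at h3
  exact ⟨⟨_, h2⟩, rfl⟩

theorem res_aut (γ : Ω ≃ₐ[R0 A] Ω) {a a' : A} (h : algebraMap A Ω a' = γ (algebraMap A Ω a)) :
    IsLocalRing.residue A a' = IsLocalRing.residue A a := by
  have h1 : γ a - a ∈ A.nonunits := (mem_inertia_iff A _).1 (rq_mem γ) a a.2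
  have h2 : ((a' - a : A) : Ω) ∈ A.nonunits := by
    have h3 : (a' : Ω) = γ (a : Ω) := h
    push_cast
    rw [h3]; exact h1
  rw [mem_nonunits_iff_residue (a' - a).2] at h2
  have h3 : IsLocalRing.residue A (a' - a) = 0 := h2
  rw [map_sub, sub_eq_zero] at h3
  exact h3

theorem R0_to_A (r : R0 A) : ∃ a : A, algebraMap A Ω a = algebraMap (R0 A) Ω r :=
  ⟨⟨r, r.2.1⟩, rfl⟩

variable {A} {p : ℕ} [Fact p.Prime] (hA : A.LiesOverPrime p)

include hA in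
theorem isPrincipalIdealRing_R0 : IsPrincipalIdealRing (R0 A) := by
  haveI := isDVR hA
  infer_instance

/-- the fixed scalars -/
def fixScal (A : ValuationSubring (AlgebraicClosure ℚ)) : Set A := {a | (a : Ω) ∈ K0 A}

include hA in
theorem exists_fixScal (c : IsLocalRing.ResidueField A) :
    ∃ a ∈ fixScal A, algebraMap A (IsLocalRing.ResidueField A) a = c := by
  obtain ⟨a, rfl⟩ := IsLocalRing.residue_surjective c
  obtain ⟨y, hy, hya⟩ := exists_R0_sub_mem hA a.2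
  refine ⟨⟨y, hy.1⟩, hy.2, ?_⟩
  have h2 : (((⟨y, hy.1⟩ : A) - a : A) : Ω) ∈ A.nonunits := hya
  rw [mem_nonunits_iff_residue (((⟨y, hy.1⟩ : A) - a : A)).2] at h2
  have h3 : IsLocalRing.residue A ((⟨y, hy.1⟩ : A) - a) = 0 := h2
  rw [map_sub, sub_eq_zero] at h3
  exact h3

end Fermat.Agent.FFG
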