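import Fermat.Agent.FFG.Laurent
import Fermat.Agent.KumG.Action

/-!
# Kummer classes as divisor classes
-/

set_option autoImplicit false
set_option linter.unusedSectionVars false
set_option linter.style.haveILetI false

open UpperHalfPlane ModularForm Matrix.SpecialLinearGroup
open scoped MatrixGroups Manifold

noncomputable section

namespace Fermat.Agent.FFG

open AlgebraicCurve Fermat.Agent.RR Fermat.Agent.Curve
open ModularCurve

section divm

variable {K F : Type*} [Field K] [IsAlgClosed K] [Field F] [Algebra K F] [FunField K F] {m : ℕ}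
  [NeZero m]

/-- `div(x) / m` -/
def divm (m : ℕ) (x : F) : Divisor K F := (divisor K x).mapRange (· / (m : ℤ)) (Int.zero_ediv _)

theorem divm_apply (x : F) (v : Place K F) : divm (K := K) m x v = v.ord x / m := by
  rw [divm, Finsupp.mapRange_apply, divisor_apply]

/-- the divisor of `x` is divisible by `m` -/
def DM (K : Type*) {F : Type*} [Field K] [Field F] [Algebra K F] (m : ℕ) (x : F) : Prop :=
  x ≠ 0 ∧ ∀ v : Place K F, (m : ℤ) ∣ v.ord x

theorem DM.mul_divm {x : F} (hx : DM K m x) (v : Place K F) :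
    (m : ℤ) * divm (K := K) m x v = v.ord x := by
  rw [divm_apply]
  exact Int.mul_ediv_cancel' (hx.2 v)

theorem DM.eq_divm {x : F} (hx : DM K m x) {D : Divisor K F}
    (hD : ∀ v, (m : ℤ) * D v = v.ord x) : D = divm (K := K) m x := by
  ext v
  apply mul_left_cancel₀ (a := (m : ℤ)) (by exact_mod_cast NeZero.ne m)
  rw [hD, hx.mul_divm]

theorem DM.degree {x : F} (hx : DM K m x) : Divisor.degree (divm (K := K) m x) = 0 := by
  have h1 : m • divm (K := K) m x = divisor K x := by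
    ext v
    rw [Finsupp.smul_apply, nsmul_eq_mul, hx.mul_divm, divisor_apply]
  have h2 := congrArg Divisor.degree h1
  rw [map_nsmul, degree_divisor, nsmul_eq_mul] at h2
  rcases mul_eq_zero.1 h2 with h3 | h3
  · exact absurd h3 (by exact_mod_cast NeZero.ne m)
  · exact h3

theorem DM.mul {x y : F} (hx : DM K m x) (hy : DM K m y) : DM K m (x * y) :=
  ⟨mul_ne_zero hx.1 hy.1, fun v => by
    rw [v.ord_mul hx.1 hy.1]; exact dvd_add (hx.2 v) (hy.2 v)⟩

theorem DM.divm_mul {x y : F} (hx : DM K m x) (hy : DM K m y) :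
    divm (K := K) m (x * y) = divm (K := K) m x + divm (K := K) m y := by
  symm
  apply (hx.mul hy).eq_divm
  intro v
  rw [Finsupp.add_apply, mul_add, hx.mul_divm, hy.mul_divm, v.ord_mul hx.1 hy.1]

theorem DM.pow_self {z : F} (hz : z ≠ 0) : DM K m (z ^ m) :=
  ⟨pow_ne_zero _ hz, fun v => by rw [ord_pow]; exact dvd_mul_right _ _⟩

theorem divm_pow {z : F} (hz : z ≠ 0) : divm (K := K) m (z ^ m) = divisor K z := by
  symm
  apply (DM.pow_self hz).eq_divm
  intro v
  rw [divisor_apply, ord_pow]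

/-- the divisor class of `div(x) / m` -/
def clm {x : F} (hx : DM K m x) : Pic0 K F := Pic0.mk ⟨divm (K := K) m x, hx.degree⟩

theorem clm_mul {x y : F} (hx : DM K m x) (hy : DM K m y) (hxy : DM K m (x * y)) :
    clm hxy = clm hx + clm hy := by
  rw [clm, clm, clm, ← Pic0.mk_add]
  congr 1
  exact Subtype.ext (hx.divm_mul hy)

theorem clm_pow {z : F} (hz : z ≠ 0) (h : DM K m (z ^ m)) : clm h = 0 := by
  rw [clm]
  apply (QuotientAddGroup.eq_zero_iff _).2
  rw [AddSubgroup.mem_addSubgroupOf]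
  refine ⟨z, hz, fun v => ?_⟩
  change divm (K := K) m (z ^ m) v = _
  rw [divm_pow hz, divisor_apply]

theorem exists_pow_of_clm {x : F} (hx : DM K m x) (h : clm hx = 0) : ∃ z : F, x = z ^ m := by
  rw [clm] at h
  have h1 := (QuotientAddGroup.eq_zero_iff _).1 h
  rw [AddSubgroup.mem_addSubgroupOf] at h1
  obtain ⟨z, hz, hzv⟩ := h1
  change ∀ v, divm (K := K) m x v = v.ord z at hzv
  have h2 : ∀ v : Place K F, v.ord (x * (z ^ m)⁻¹) = 0 := by
    intro v
    rw [v.ord_mul hx.1 (inv_ne_zero (pow_ne_zero _ hz)), v.ord_inv, ord_pow, ← hzv,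
      hx.mul_divm, add_neg_cancel]
  obtain ⟨c, hc⟩ := const_of_no_pole (K := K) (f := x * (z ^ m)⁻¹) (fun v => (h2 v).ge)
  obtain ⟨d, hd⟩ := IsAlgClosed.exists_pow_nat_eq c (NeZero.pos m)
  refine ⟨algebraMap K F d * z, ?_⟩
  rw [mul_pow, ← map_pow, hd, hc, mul_assoc, inv_mul_cancel₀ (pow_ne_zero _ hz), mul_one]

theorem DM.smul {x : F} (hx : DM K m x) (g : SemilinearAut K F) : DM K m (g • x) := by
  refine ⟨by simpa using hx.1, fun v => ?_⟩
  have h := SemilinearAut.ord_smul g (g⁻¹ • v) x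
  rw [smul_inv_smul] at h
  rw [h]
  exact hx.2 _

theorem clm_smul {x : F} (hx : DM K m x) (g : SemilinearAut K F) (hgx : DM K m (g • x)) :
    clm hgx = g • clm hx := by
  rw [clm, clm, SemilinearAut.pic0_smul_mk]
  congr 1
  apply Subtype.ext
  change divm (K := K) m (g • x) = g • divm (K := K) m x
  symm
  apply hgx.eq_divm
  intro v
  have h := SemilinearAut.ord_smul g (g⁻¹ • v) x
  rw [smul_inv_smul] at h
  rw [SemilinearAut.divisor_smul_apply, hx.mul_divm, h]

theorem clm_congr {x y : F} (hx : DM K m x) (hy : DM K m y) (h : x = y) : clm hx = clm hy := by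
  subst h
  rfl

/-- the class is killed by `m` -/
theorem nsmul_clm {x : F} (hx : DM K m x) : m • clm hx = 0 := by
  have h : m • clm hx = Pic0.mk (m • (⟨divm (K := K) m x, hx.degree⟩ : Divisor.degZero)) := by
    rw [clm]; rfl
  rw [h]
  apply (QuotientAddGroup.eq_zero_iff _).2
  rw [AddSubgroup.mem_addSubgroupOf]
  refine ⟨x, hx.1, fun v => ?_⟩
  change (m • divm (K := K) m x) v = _
  rw [Finsupp.smul_apply, nsmul_eq_mul, hx.mul_divm]

end divm

section level

open Fermat.Agent.KumG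

variable {Γ : Subgroup SL(2, ℤ)} [LvlG Γ] [RatG Γ] {m : ℕ} [NeZero m]
  {K : Type*} [Field K] [Algebra ℚ K] [IsAlgClosed K] [CharZero K] (ι : K →+* ℂ)
  [Nonempty (K →+* ℂ)]

theorem dm_of_good {x : FG Γ K} (hx : Good m x) : DM K m x :=
  ⟨hx.1, (KD.of_dvd (Dvd.intro _ rfl) hx).2⟩

theorem clm_eq_of_cls_eq {x y : FG Γ K} (hx : Good m x) (hy : Good m y)
    (h : cls ι m x = cls ι m y) : clm (dm_of_good hx) = clm (dm_of_good hy) := by
  obtain ⟨z, hz⟩ := exists_mul_pow_of_cls_eq ι hx hy h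
  have hz0 : z ≠ 0 := by
    rintro rfl
    rw [zero_pow (NeZero.ne m), mul_zero] at hz
    exact hy.1 hz
  have h1 := DM.pow_self (K := K) (m := m) hz0
  rw [clm_congr (dm_of_good hy) ((dm_of_good hx).mul h1) hz, clm_mul (dm_of_good hx) h1,
    clm_pow hz0, add_zero]

/-- Kummer classes are divisor classes -/
def xToPic (m : ℕ) [NeZero m] :
    XL Γ m →+ Pic0 K (FG Γ K) :=
  AddMonoidHom.mk' (fun ξ => clm (dm_of_good (exists_cls_eq' (K := K) ι ξ).choose_spec.1))
    (fun ξ ξ' => by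
      have h := (exists_cls_eq' (K := K) ι ξ).choose_spec
      have h' := (exists_cls_eq' (K := K) ι ξ').choose_spec
      have h'' := (exists_cls_eq' (K := K) ι (ξ + ξ')).choose_spec
      rw [← clm_mul _ _ (dm_of_good (KD.mul h.1 h'.1))]
      refine clm_eq_of_cls_eq ι h''.1 (KD.mul h.1 h'.1) ?_
      rw [h''.2, cls_mul ι h.1 h'.1, h.2, h'.2])

theorem xToPic_cls {x : FG Γ K} (hx : Good m x) :
    xToPic ι m (cls ι m x) = clm (dm_of_good hx) := by
  have h := (exists_cls_eq' (K := K) ι (cls ι m x)).choose_spec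
  exact clm_eq_of_cls_eq ι h.1 hx h.2

theorem xToPic_injective : Function.Injective (xToPic (Γ := Γ) ι m) := by
  rw [injective_iff_map_eq_zero]
  intro ξ hξ
  obtain ⟨x, hx, rfl⟩ := exists_cls_eq' (K := K) ι ξ
  rw [xToPic_cls ι hx] at hξ
  obtain ⟨z, rfl⟩ := exists_pow_of_clm _ hξ
  exact cls_eq_zero_of_pow ι hx

theorem xToPic_smul (σ : K ≃ₐ[ℚ] K) (ξ : XL Γ m) :
    xToPic ι m (rhoF ι m σ ξ) = arithmeticGalois (FQG Γ) σ • xToPic ι m ξ := by
  obtain ⟨x, hx, rfl⟩ := exists_cls_eq' (K := K) ι ξ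
  rw [rhoF_cls ι σ hx, xToPic_cls ι hx, xToPic_cls ι (KD.gal σ hx)]
  exact clm_smul _ (arithmeticGalois (FQG Γ) σ) _

end level

end Fermat.Agent.FFG
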