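import Fermat.Agent.FFG.Rep

/-!
# Products, subgroups and quotients of finite flat group schemes, in terms of function rings
-/

set_option autoImplicit false
set_option linter.unusedSectionVars false
set_option linter.style.haveILetI false

noncomputable section

open scoped TensorProduct

namespace Fermat.Agent.FFG

variable {R Ω : Type} [CommRing R] [IsDomain R] [Field Ω] [Algebra R Ω] [FixBase R Ω]

section restrict

variable {V S : Type} {act : (Ω ≃ₐ[R] Ω) → V → V} {actS : (Ω ≃ₐ[R] Ω) → S → S}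
  {H : Subalgebra R (V → Ω)}

/-- the restriction of a ring of functions -/
def resH (H : Subalgebra R (V → Ω)) (i : S → V) : Subalgebra R (S → Ω) := H.map (pull i)

omit [IsDomain R] [FixBase R Ω] in
theorem mem_resH {i : S → V} {f : S → Ω} : f ∈ resH H i ↔ ∃ x ∈ H, (fun s => x (i s)) = f :=
  Iff.rfl

omit [IsDomain R] [FixBase R Ω] in
theorem IsFn.restrict (hH : IsFn act H) {i : S → V} (hi : Function.Injective i)
    (h : ∀ σ s, i (actS σ s) = act σ (i s)) : IsFn actS (resH H i) where
  int := by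
    rintro _ ⟨x, hx, rfl⟩ s
    exact hH.int x hx (i s)
  equiv := by
    rintro _ ⟨x, hx, rfl⟩ σ s
    change x (i (actS σ s)) = σ (x (i s))
    rw [h, hH.equiv x hx]
  sep := fun s t hst => hi (hH.sep _ _ fun x hx => hst _ ⟨x, hx, rfl⟩)

end restrict

section hopf

variable {V S W : Type} [AddCommGroup V] [AddCommGroup S] [AddCommGroup W]
  {act : (Ω ≃ₐ[R] Ω) → V → V} {actS : (Ω ≃ₐ[R] Ω) → S → S} {actW : (Ω ≃ₐ[R] Ω) → W → W}
  {H : Subalgebra R (V → Ω)}

omit [IsDomain R] [FixBase R Ω] in
/-- subgroups -/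
theorem IsHopfFn.restrict (hH : IsHopfFn act H) {i : S →+ V} (hi : Function.Injective i)
    (h : ∀ σ s, i (actS σ s) = act σ (i s)) : IsHopfFn actS (resH H i) where
  toIsFn := hH.toIsFn.restrict hi h
  act_zero := fun σ => hi (by rw [h, map_zero, hH.act_zero])
  comul := by
    rintro _ ⟨x, hx, rfl⟩
    have h1 := hH.comul x hx
    have h2 : ∀ f ∈ Submodule.span R {f : V × V → Ω | ∃ y ∈ H, ∃ z ∈ H, f = fun p => y p.1 * z p.2},
        (fun p : S × S => f (i p.1, i p.2)) ∈ Submodule.span R
          {f : S × S → Ω | ∃ y ∈ resH H i, ∃ z ∈ resH H i, f = fun p => y p.1 * z p.2} := by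
      intro f hf
      induction hf using Submodule.span_induction with
      | mem f hf =>
        obtain ⟨y, hy, z, hz, rfl⟩ := hf
        exact Submodule.subset_span ⟨_, ⟨y, hy, rfl⟩, _, ⟨z, hz, rfl⟩, rfl⟩
      | zero => exact Submodule.zero_mem _
      | add f g _ _ hf hg => exact Submodule.add_mem _ hf hg
      | smul r f _ hf => exact Submodule.smul_mem _ r hf
    have h3 := h2 _ h1
    have h4 : (fun p : S × S => (fun s => x (i s)) (p.1 + p.2)) =
        fun p : S × S => x (i p.1 + i p.2) := by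
      funext p
      simp only [map_add]
    change (fun p : S × S => (fun s => x (i s)) (p.1 + p.2)) ∈ _
    rw [h4]
    exact h3

end hopf

section pi

variable {J : Type} [Fintype J] {V : J → Type} [∀ j, AddCommGroup (V j)]
  {act : ∀ j, (Ω ≃ₐ[R] Ω) → V j → V j} {H : ∀ j, Subalgebra R (V j → Ω)}

/-- the ring of functions of a product -/
def piH (H : ∀ j, Subalgebra R (V j → Ω)) : Subalgebra R ((∀ j, V j) → Ω) :=
  Algebra.adjoin R {f | ∃ j, ∃ x ∈ H j, f = fun P => x (P j)}

omit [IsDomain R] [FixBase R Ω] [Fintype J] in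
/-- products -/
theorem IsHopfFn.pi (hH : ∀ j, IsHopfFn (act j) (H j)) :
    IsHopfFn (fun σ (P : ∀ j, V j) j => act j σ (P j)) (piH H) where
  int := by
    intro f hf P
    induction hf using Algebra.adjoin_induction with
    | mem f hf =>
      obtain ⟨j, x, hx, rfl⟩ := hf
      exact (hH j).int x hx _
    | algebraMap r => exact isIntegral_algebraMap
    | add f g _ _ hf hg => exact hf.add hg
    | mul f g _ _ hf hg => exact hf.mul hg
  equiv := by
    intro f hf σ P
    induction hf using Algebra.adjoin_induction with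
    | mem f hf =>
      obtain ⟨j, x, hx, rfl⟩ := hf
      exact (hH j).equiv x hx σ _
    | algebraMap r => exact (σ.commutes r).symm
    | add f g _ _ hf hg => rw [Pi.add_apply, Pi.add_apply, map_add, hf, hg]
    | mul f g _ _ hf hg => rw [Pi.mul_apply, Pi.mul_apply, map_mul, hf, hg]
  sep := by
    intro P Q h
    funext j
    exact (hH j).sep _ _ fun x hx => h _ (Algebra.subset_adjoin ⟨j, x, hx, rfl⟩)
  act_zero := fun σ => funext fun j => (hH j).act_zero σ
  comul := by
    have hle : piH H ≤ comulSub (piH H) := by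
      refine Algebra.adjoin_le ?_
      rintro _ ⟨j, x, hx, rfl⟩
      have h1 := (hH j).comul x hx
      change (fun p : (∀ j, V j) × (∀ j, V j) => x ((p.1 + p.2) j)) ∈ Submodule.span R _
      have h2 : ∀ f ∈ Submodule.span R {f : V j × V j → Ω | ∃ y ∈ H j, ∃ z ∈ H j,
          f = fun p => y p.1 * z p.2},
          (fun p : (∀ j, V j) × (∀ j, V j) => f (p.1 j, p.2 j)) ∈ Submodule.span R
            (prodSet (piH H : Set ((∀ j, V j) → Ω))) := by
        intro f hf
        induction hf using Submodule.span_induction with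
        | mem f hf =>
          obtain ⟨y, hy, z, hz, rfl⟩ := hf
          exact Submodule.subset_span ⟨_, Algebra.subset_adjoin ⟨j, y, hy, rfl⟩, _,
            Algebra.subset_adjoin ⟨j, z, hz, rfl⟩, rfl⟩
        | zero => exact Submodule.zero_mem _
        | add f g _ _ hf hg => exact Submodule.add_mem _ hf hg
        | smul r f _ hf => exact Submodule.smul_mem _ r hf
      exact h2 _ h1
    intro x hx
    exact hle hx

end pi

section quot

variable {V W : Type} [AddCommGroup V] [AddCommGroup W] [Finite V]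
  {act : (Ω ≃ₐ[R] Ω) → V → V} {actW : (Ω ≃ₐ[R] Ω) → W → W}
  {H : Subalgebra R (V → Ω)}

/-- the ring of functions of a quotient -/
def quoH (H : Subalgebra R (V → Ω)) (π : V → W) : Subalgebra R (W → Ω) := H.comap (pull π)

omit [IsDomain R] [FixBase R Ω] [AddCommGroup V] [AddCommGroup W] [Finite V] in
theorem mem_quoH {π : V → W} {f : W → Ω} : f ∈ quoH H π ↔ (fun v => f (π v)) ∈ H := Iff.rfl

/-- invariant functions descend -/
theorem exists_quoH {π : V →+ W} (hπ : Function.Surjective π) {x : V → Ω} (hx : x ∈ H)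
    (hinv : ∀ T, π T = 0 → ∀ P, x (P + T) = x P) : ∃ f ∈ quoH H π, ∀ P, f (π P) = x P := by
  choose s hs using hπ
  have h1 : ∀ P, x (s (π P)) = x P := by
    intro P
    have h2 : π (s (π P) - P) = 0 := by rw [map_sub, hs, sub_self]
    have h3 := hinv _ h2 P
    rw [add_sub_cancel] at h3
    exact h3
  refine ⟨fun w => x (s w), ?_, h1⟩
  rw [mem_quoH]
  have h4 : (fun v => x (s (π v))) = x := funext h1
  rw [h4]
  exact hx

variable [IsPrincipalIdealRing R]

/-- traces -/
theorem exists_trace (hH : IsHopfFn act H) {π : V →+ W}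
    (hact : ∀ σ P, π (act σ P) = actW σ (π P)) (h0 : ∀ σ, actW σ 0 = 0)
    [Fintype (AddMonoidHom.ker π)] {x : V → Ω} (hx : x ∈ H) :
    (fun P => ∑ T : AddMonoidHom.ker π, x (P + T)) ∈ H := by
  classical
  let actN : (Ω ≃ₐ[R] Ω) → AddMonoidHom.ker π → AddMonoidHom.ker π := fun σ T =>
    ⟨act σ T, by rw [AddMonoidHom.mem_ker, hact, (AddMonoidHom.mem_ker).1 T.2, h0]⟩
  have hN : IsFn actN (resH H (Subtype.val : AddMonoidHom.ker π → V)) :=
    hH.toIsFn.restrict Subtype.val_injective fun σ s => rfl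
  have htr : ∀ y ∈ H, ∃ r : R, algebraMap R Ω r = ∑ T : AddMonoidHom.ker π, y T := by
    intro y hy
    obtain ⟨r, hr⟩ := hN.sum_mul_mem (x := fun T => y T) (y := 1) ⟨y, hy, rfl⟩ (one_mem _)
    refine ⟨r, hr.trans (Finset.sum_congr rfl fun T _ => ?_)⟩
    rw [Pi.one_apply, mul_one]
  have h1 := hH.comul x hx
  have h2 : ∀ f ∈ Submodule.span R {f : V × V → Ω | ∃ y ∈ H, ∃ z ∈ H, f = fun p => y p.1 * z p.2},
      (fun P => ∑ T : AddMonoidHom.ker π, f (P, T)) ∈ H := by
    intro f hf
    induction hf using Submodule.span_induction with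
    | mem f hf =>
      obtain ⟨y, hy, z, hz, rfl⟩ := hf
      obtain ⟨r, hr⟩ := htr z hz
      have h3 : (fun P => ∑ T : AddMonoidHom.ker π, (fun p : V × V => y p.1 * z p.2) (P, (T : V))) =
          r • y := by
        funext P
        simp only [← Finset.mul_sum, ← hr, Pi.smul_apply, Algebra.smul_def]
        rw [mul_comm]
      rw [h3]
      exact H.smul_mem hy r
    | zero =>
      have h3 : (fun P => ∑ T : AddMonoidHom.ker π, (0 : V × V → Ω) (P, (T : V))) = 0 := by
        funext P; simp
      rw [h3]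
      exact zero_mem _
    | add f g _ _ hf hg =>
      have h3 : (fun P => ∑ T : AddMonoidHom.ker π, (f + g) (P, (T : V))) =
          (fun P => ∑ T : AddMonoidHom.ker π, f (P, (T : V))) +
          fun P => ∑ T : AddMonoidHom.ker π, g (P, (T : V)) := by
        funext P; simp [Finset.sum_add_distrib]
      rw [h3]
      exact add_mem hf hg
    | smul r f _ hf =>
      have h3 : (fun P => ∑ T : AddMonoidHom.ker π, (r • f) (P, (T : V))) =
          r • (fun P => ∑ T : AddMonoidHom.ker π, f (P, (T : V))) := by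
        funext P; simp [Finset.smul_sum]
      rw [h3]
      exact H.smul_mem hf r
  exact h2 _ h1

/-- quotients: separation -/
theorem IsHopfFn.quot_isFn (hH : IsHopfFn act H) {π : V →+ W} (hπ : Function.Surjective π)
    (hact : ∀ σ P, π (act σ P) = actW σ (π P)) : IsFn actW (quoH H π) := by
  classical
  haveI := Fintype.ofFinite V
  haveI : Fintype (AddMonoidHom.ker π) := Fintype.ofFinite _
  have h0 : ∀ σ, actW σ 0 = 0 := fun σ => by
    have := hact σ 0
    rwa [hH.act_zero, map_zero, eq_comm] at this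
  refine ⟨fun f hf w => ?_, fun f hf σ w => ?_, ?_⟩
  · obtain ⟨v, rfl⟩ := hπ w
    exact hH.int _ hf v
  · obtain ⟨v, rfl⟩ := hπ w
    rw [← hact]
    exact hH.equiv _ hf σ v
  · intro w w' h
    obtain ⟨P, rfl⟩ := hπ w
    obtain ⟨P', rfl⟩ := hπ w'
    have h1 : ∀ x ∈ H, ∑ T : AddMonoidHom.ker π, x (P + T) = ∑ T : AddMonoidHom.ker π, x (P' + T) := by
      intro x hx
      obtain ⟨f, hf, hfP⟩ := exists_quoH hπ (exists_trace hH hact h0 hx) (fun T hT Q => by
        have h3 : ∀ T' : AddMonoidHom.ker π, Q + T + (T' : V) =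
            Q + ((⟨T, hT⟩ + T' : AddMonoidHom.ker π) : V) := fun T' => by
          rw [AddSubgroup.coe_add]; exact add_assoc _ _ _
        simp only [h3]
        exact Equiv.sum_comp (Equiv.addLeft (⟨T, hT⟩ : AddMonoidHom.ker π))
          (fun T' : AddMonoidHom.ker π => x (Q + T')))
      rw [← hfP P, ← hfP P', h f hf]
    have h2 : ∀ x : V → Ω, ∑ T : AddMonoidHom.ker π, x (P + T) =
        ∑ T : AddMonoidHom.ker π, x (P' + T) := by
      intro x
      have hx : x ∈ Submodule.span Ω (H : Set (V → Ω)) := by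
        rw [hH.toIsFn.span_eq_top]; trivial
      induction hx using Submodule.span_induction with
      | mem x hx => exact h1 x hx
      | zero => simp
      | add x y _ _ hx hy =>
        simp only [Pi.add_apply, Finset.sum_add_distrib]
        rw [hx, hy]
      | smul a x _ hx =>
        simp only [Pi.smul_apply, smul_eq_mul, ← Finset.mul_sum]
        rw [hx]
    have h3 := h2 (Pi.single P (1 : Ω))
    have h4 : ∑ T : AddMonoidHom.ker π, (Pi.single P (1 : Ω) : V → Ω) (P + T) = 1 := by
      rw [Finset.sum_eq_single 0]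
      · simp
      · intro T _ hT
        rw [Pi.single_eq_of_ne]
        intro h
        apply hT
        apply Subtype.ext
        exact left_eq_add.1 h.symm
      · intro h; exact absurd (Finset.mem_univ _) h
    rw [h4] at h3
    by_contra hne
    have h5 : ∑ T : AddMonoidHom.ker π, (Pi.single P (1 : Ω) : V → Ω) (P' + T) = 0 := by
      refine Finset.sum_eq_zero fun T _ => ?_
      rw [Pi.single_eq_of_ne]
      intro h
      apply hne
      rw [← h, map_add, (AddMonoidHom.mem_ker).1 T.2, add_zero]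
    rw [h5] at h3
    exact one_ne_zero h3

/-- **Quotients of finite flat group schemes.** -/
theorem IsHopfFn.quot (hH : IsHopfFn act H) {π : V →+ W} (hπ : Function.Surjective π)
    (hact : ∀ σ P, π (act σ P) = actW σ (π P)) : IsHopfFn actW (quoH H π) := by
  classical
  have hW := hH.quot_isFn hπ hact
  haveI : Finite W := Finite.of_surjective π hπ
  have h0 : ∀ σ, actW σ 0 = 0 := fun σ => by
    have := hact σ 0
    rwa [hH.act_zero, map_zero, eq_comm] at this
  refine ⟨hW, h0, fun f hf => ?_⟩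
  obtain ⟨ι, _, b, hb⟩ := hH.toIsFn.oInj
  obtain ⟨κ, _, c, hc⟩ := hW.oInj
  -- the comultiplication in `H`
  have h1 := hH.comul _ hf
  have h2 : ∀ g ∈ Submodule.span R {f : V × V → Ω | ∃ y ∈ H, ∃ z ∈ H, f = fun p => y p.1 * z p.2},
      ∃ z : ι → H, ∀ P Q, g (P, Q) = ∑ j, (z j : V → Ω) P * (b j : V → Ω) Q := by
    intro g hg
    induction hg using Submodule.span_induction with
    | mem g hg =>
      obtain ⟨y, hy, x, hx, rfl⟩ := hg
      refine ⟨fun j => b.repr ⟨x, hx⟩ j • ⟨y, hy⟩, fun P Q => ?_⟩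
      have h3 := congrArg (fun s : H => (s : V → Ω) Q) (b.sum_repr ⟨x, hx⟩)
      simp only [AddSubmonoidClass.coe_finsetSum, Finset.sum_apply] at h3
      change y P * x Q = _
      change _ = x Q at h3
      rw [← h3, Finset.mul_sum]
      refine Finset.sum_congr rfl fun j _ => ?_
      change y P * (b.repr ⟨x, hx⟩ j • (b j : V → Ω) Q) = (b.repr ⟨x, hx⟩ j • y P) * (b j : V → Ω) Q
      rw [mul_smul_comm, smul_mul_assoc]
    | zero => exact ⟨0, fun P Q => by simp⟩
    | add g g' _ _ hg hg' =>
      obtain ⟨z, hz⟩ := hg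
      obtain ⟨z', hz'⟩ := hg'
      refine ⟨z + z', fun P Q => ?_⟩
      rw [Pi.add_apply, hz, hz', ← Finset.sum_add_distrib]
      exact Finset.sum_congr rfl fun j _ => (add_mul _ _ _).symm
    | smul r g _ hg =>
      obtain ⟨z, hz⟩ := hg
      refine ⟨r • z, fun P Q => ?_⟩
      rw [Pi.smul_apply, hz, Finset.smul_sum]
      exact Finset.sum_congr rfl fun j _ => (smul_mul_assoc _ _ _).symm
  obtain ⟨z, hz⟩ := h2 _ h1
  change ∀ P Q, f (π (P + Q)) = _ at hz
  -- invariance in the first variable
  have hzinv : ∀ j, ∀ T, π T = 0 → ∀ P, (z j : V → Ω) (P + T) = (z j : V → Ω) P := by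
    intro j T hT P
    have h3 : ∑ j, ((z j : V → Ω) (P + T) - (z j : V → Ω) P) • (b j : V → Ω) = 0 := by
      funext Q
      simp only [Finset.sum_apply, Pi.smul_apply, smul_eq_mul, sub_mul, Finset.sum_sub_distrib,
        Pi.zero_apply]
      rw [← hz, ← hz, map_add, map_add, map_add, hT, add_zero, sub_self]
    exact sub_eq_zero.1 (Fintype.linearIndependent_iff.1 hb _ h3 j)
  choose g hg hgP using fun j => exists_quoH hπ (z j).2 (hzinv j)
  -- rewrite in terms of the basis of the quotient ring
  let w : κ → H := fun i => ∑ j, c.repr ⟨g j, hg j⟩ i • b j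
  have hw : ∀ P Q, f (π (P + Q)) = ∑ i, (c i : W → Ω) (π P) * (w i : V → Ω) Q := by
    intro P Q
    rw [hz]
    have h3 : ∀ j, (z j : V → Ω) P = ∑ i, c.repr ⟨g j, hg j⟩ i • (c i : W → Ω) (π P) := by
      intro j
      have h4 := congrArg (fun s : quoH H π => (s : W → Ω) (π P)) (c.sum_repr ⟨g j, hg j⟩)
      simp only [AddSubmonoidClass.coe_finsetSum, Finset.sum_apply] at h4
      change _ = g j (π P) at h4
      rw [hgP] at h4
      exact h4.symm
    simp only [h3, w, AddSubmonoidClass.coe_finsetSum, Finset.sum_apply, Finset.sum_mul,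
      Finset.mul_sum]
    rw [Finset.sum_comm]
    refine Finset.sum_congr rfl fun i _ => Finset.sum_congr rfl fun j _ => ?_
    change _ = (c i : W → Ω) (π P) * (c.repr ⟨g j, hg j⟩ i • (b j : V → Ω) Q)
    rw [mul_smul_comm, smul_mul_assoc]
  have hwinv : ∀ i, ∀ T, π T = 0 → ∀ Q, (w i : V → Ω) (Q + T) = (w i : V → Ω) Q := by
    intro i T hT Q
    have h3 : ∑ i, ((w i : V → Ω) (Q + T) - (w i : V → Ω) Q) • (c i : W → Ω) = 0 := by
      funext x
      obtain ⟨P, rfl⟩ := hπ x
      simp only [Finset.sum_apply, Pi.smul_apply, smul_eq_mul, sub_mul, Finset.sum_sub_distrib,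
        Pi.zero_apply]
      have e1 := hw P (Q + T)
      have e2 := hw P Q
      have e3 : f (π (P + (Q + T))) = f (π (P + Q)) := by
        rw [map_add, map_add, map_add, hT, add_zero]
      rw [e1, e2] at e3
      rw [sub_eq_zero]
      calc ∑ i, (w i : V → Ω) (Q + T) * (c i : W → Ω) (π P)
          = ∑ i, (c i : W → Ω) (π P) * (w i : V → Ω) (Q + T) :=
            Finset.sum_congr rfl fun i _ => mul_comm _ _
        _ = ∑ i, (c i : W → Ω) (π P) * (w i : V → Ω) Q := e3
        _ = _ := Finset.sum_congr rfl fun i _ => mul_comm _ _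
    exact sub_eq_zero.1 (Fintype.linearIndependent_iff.1 hc _ h3 i)
  choose u hu huP using fun i => exists_quoH hπ (w i).2 (hwinv i)
  have hfin : (fun p : W × W => f (p.1 + p.2)) = ∑ i, fun p : W × W =>
      (c i : W → Ω) p.1 * u i p.2 := by
    funext p
    obtain ⟨P, hP⟩ := hπ p.1
    obtain ⟨Q, hQ⟩ := hπ p.2
    rw [Finset.sum_apply, ← hP, ← hQ, ← map_add, hw]
    exact Finset.sum_congr rfl fun i _ => by rw [huP]
  rw [hfin]
  exact Submodule.sum_mem _ fun i _ => Submodule.subset_span ⟨_, (c i).2, _, hu i, rfl⟩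

end quot

end Fermat.Agent.FFG
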