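import Fermat.Agent.FFG.Div

/-!
# The ring of coordinates of a family of divisors
-/

set_option autoImplicit false
set_option linter.unusedSectionVars false
set_option linter.style.haveILetI false

noncomputable section

namespace Fermat.Agent.FFG

open AlgebraicCurve Fermat.Agent.RR Fermat.Agent.Curve Fermat.Agent.Red Fermat.Agent.Spec Module

variable {A K F k R : Type*} [CommRing A] [IsDomain A] [ValuationRing A]
  [Field K] [Algebra A K] [IsFractionRing A K] [Field F] [Algebra K F] [Algebra A F]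
  [IsScalarTower A K F] [Field k] [Algebra A k] [Field R] [Algebra k R] [Algebra A R]
  [IsScalarTower A k R]

section fam

variable {V : Type*} (M : RedModel A K F k R) (𝓗 : Subalgebra A (V → A))

/-- families of functions with coefficients in a ring -/
def famSpan (U : Submodule K F) : Submodule A (V → F) :=
  Submodule.span A {f | ∃ h ∈ 𝓗, ∃ e ∈ M.lat U, f = fun P => algebraMap A K (h P) • e}

variable {M 𝓗} {U U' : Submodule K F}

theorem const_mem_fam {e : F} (he : e ∈ M.lat U) : (fun _ => e) ∈ famSpan M 𝓗 U :=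
  Submodule.subset_span ⟨1, one_mem _, e, he, by
    funext P
    rw [Pi.one_apply, map_one, one_smul]⟩

theorem smul_mem_fam {h : V → A} (hh : h ∈ 𝓗) {e : F} (he : e ∈ M.lat U) :
    (fun P => algebraMap A K (h P) • e) ∈ famSpan M 𝓗 U :=
  Submodule.subset_span ⟨h, hh, e, he, rfl⟩

theorem fam_mul {x : V → F} (hx : x ∈ famSpan M 𝓗 U) (e : M.W)
    (hU : ∀ y ∈ U, (e : F) * y ∈ U') : (fun P => (e : F) * x P) ∈ famSpan M 𝓗 U' := by
  induction hx using Submodule.span_induction with
  | mem x hx =>
    obtain ⟨h, hh, y, hy, rfl⟩ := hx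
    have : (fun P => (e : F) * (algebraMap A K (h P) • y)) =
        fun P => algebraMap A K (h P) • ((e : F) * y) := by
      funext P
      rw [mul_smul_comm]
    rw [this]
    exact smul_mem_fam hh ⟨M.W.mul_mem e.2 hy.1, hU _ hy.2⟩
  | zero =>
    have : (fun P : V => (e : F) * (0 : V → F) P) = 0 := by funext P; simp
    rw [this]; exact zero_mem _
  | add x y _ _ hx hy =>
    have : (fun P : V => (e : F) * (x + y) P) = (fun P => (e : F) * x P) +
      fun P => (e : F) * y P := by
      funext P; simp [mul_add]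
    rw [this]; exact add_mem hx hy
  | smul a x _ hx =>
    have : (fun P : V => (e : F) * (a • x) P) = a • fun P => (e : F) * x P := by
      funext P
      simp
    rw [this]; exact Submodule.smul_mem _ _ hx

theorem fam_repr {τ : Type*} [Fintype τ] (ε : Basis τ A (M.lat U)) {x : V → F}
    (hx : x ∈ famSpan M 𝓗 U) : ∃ X : τ → V → A, (∀ a, X a ∈ 𝓗) ∧
      ∀ P, x P = ∑ a, algebraMap A K (X a P) • (ε a : F) := by
  induction hx using Submodule.span_induction with
  | mem x hx =>
    obtain ⟨h, hh, y, hy, rfl⟩ := hx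
    refine ⟨fun a P => ε.repr ⟨y, hy⟩ a * h P, fun a => ?_, fun P => ?_⟩
    · exact Subalgebra.smul_mem _ hh _
    · have h1 := congrArg (M.lat U).subtype (ε.sum_repr ⟨y, hy⟩)
      rw [map_sum] at h1
      have h2 : y = ∑ a, algebraMap A K (ε.repr ⟨y, hy⟩ a) • (ε a : F) := by
        refine h1.symm.trans (Finset.sum_congr rfl fun a _ => ?_)
        rw [algebraMap_smul]; rfl
      have h3 : algebraMap A K (h P) • y =
          algebraMap A K (h P) • ∑ a, algebraMap A K (ε.repr ⟨y, hy⟩ a) • (ε a : F) :=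
        congrArg _ h2
      beta_reduce
      rw [h3, Finset.smul_sum]
      refine Finset.sum_congr rfl fun a _ => ?_
      rw [smul_smul, map_mul, mul_comm]
  | zero => exact ⟨0, fun a => zero_mem _, fun P => by simp⟩
  | add x y _ _ hx hy =>
    obtain ⟨X, hX, hX'⟩ := hx
    obtain ⟨Y, hY, hY'⟩ := hy
    refine ⟨X + Y, fun a => add_mem (hX a) (hY a), fun P => ?_⟩
    rw [Pi.add_apply, hX', hY', ← Finset.sum_add_distrib]
    refine Finset.sum_congr rfl fun a _ => ?_
    rw [← add_smul, ← map_add]; rfl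
  | smul c x _ hx =>
    obtain ⟨X, hX, hX'⟩ := hx
    refine ⟨fun a => c • X a, fun a => Subalgebra.smul_mem _ (hX a) _, fun P => ?_⟩
    rw [Pi.smul_apply, hX', Finset.smul_sum]
    refine Finset.sum_congr rfl fun a _ => ?_
    beta_reduce
    rw [Pi.smul_apply, smul_eq_mul, map_mul, mul_smul, algebraMap_smul K c]

theorem fam_of_repr {τ : Type*} [Fintype τ] {ε : τ → F} (hε : ∀ a, ε a ∈ M.lat U) {X : τ → V → A}
    (hX : ∀ a, X a ∈ 𝓗) : (fun P => ∑ a, algebraMap A K (X a P) • ε a) ∈ famSpan M 𝓗 U := by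
  have : (fun P => ∑ a, algebraMap A K (X a P) • ε a) =
      ∑ a, fun P => algebraMap A K (X a P) • ε a := by
    funext P; rw [Finset.sum_apply]
  rw [this]
  exact sum_mem fun a _ => smul_mem_fam (hX a) (hε a)

variable (hk : Function.Surjective (algebraMap A k))

include hk in
/-- Cramer's rule for functions. -/
theorem mem_of_linear_F [Finite V] [Infinite k] {κ : Type*} [Fintype κ] [FiniteDimensional K U]
    (x : κ → V → F) (hx : ∀ j, x j ∈ famSpan M 𝓗 U) {z : V → F} (hz : z ∈ famSpan M 𝓗 U)
    (c : κ → V → A) (h : ∀ P, ∑ j, algebraMap A K (c j P) • x j P = z P)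
    (hind : ∀ P, ∀ y : κ → M.W, (∀ j, (y j : F) = x j P) →
      ∀ t : κ → k, ∑ j, t j • M.π (y j) = 0 → t = 0) : ∀ j, c j ∈ 𝓗 := by
  classical
  let ε := Module.Free.chooseBasis A (M.lat U)
  choose X hX hX' using fun j => fam_repr ε (hx j)
  obtain ⟨Z, hZ, hZ'⟩ := fam_repr ε hz
  have hli := M.linearIndependent_K ε
  refine mem_of_linear hk (isUnit_of_ne hk) 𝓗 (fun a j => X j a) (fun a j => hX j a) c Z hZ ?_ ?_
  · intro a P
    have h1 : ∑ a, algebraMap A K (∑ j, X j a P * c j P - Z a P) • (ε a : F) = 0 := by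
      have h2 := h P
      rw [hZ', ← sub_eq_zero] at h2
      rw [← h2]
      simp only [hX', Finset.smul_sum]
      rw [Finset.sum_comm, ← Finset.sum_sub_distrib]
      refine Finset.sum_congr rfl fun a _ => ?_
      rw [map_sub, sub_smul, map_sum, Finset.sum_smul]
      congr 1
      refine Finset.sum_congr rfl fun j _ => ?_
      rw [smul_smul, map_mul, mul_comm]
    have h3 := Fintype.linearIndependent_iff.1 hli _ h1 a
    have h4 : ∑ j, X j a P * c j P - Z a P = 0 :=
      IsFractionRing.injective A K (by rw [h3, map_zero])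
    exact sub_eq_zero.1 h4
  · intro P t ht
    let y : κ → M.W := fun j => ∑ a, X j a P • (⟨(ε a : F), (ε a).2.1⟩ : M.W)
    refine hind P y (fun j => ?_) t ?_
    · rw [hX', coe_sum_smul]
    · have h5 : ∀ j, M.π (y j) = ∑ a, algebraMap A k (X j a P) •
          M.π (⟨(ε a : F), (ε a).2.1⟩ : M.W) := fun j => π_sum_smul _ _
      simp only [h5, Finset.smul_sum, smul_smul]
      rw [Finset.sum_comm]
      refine Finset.sum_eq_zero fun a _ => ?_
      rw [← Finset.sum_smul]
      have h6 := ht a
      have h7 : ∑ j, t j * algebraMap A k (X j a P) = 0 := by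
        rw [← h6]
        exact Finset.sum_congr rfl fun j _ => mul_comm _ _
      rw [h7, zero_smul]

end fam

section ring

variable [IsAlgClosed K] [IsAlgClosed k] [FunField K F] [FunField k R]
  {M : RedModel A K F k R} {V : Type*} {ι : Type*} [Fintype ι]

/-- the coordinate functions -/
def coordSet (v : Place K F) (E : V → Divisor K F) (ws : ι → M.W) : Set (V → A) :=
  {h | ∃ b : M.W, (b : F) ∈ II v 0 ∧ ∃ c : V → ι → A,
    (∀ P, (b : F) - ((∑ j, c P j • ws j : M.W) : F) ∈ II v (E P)) ∧ ∃ j, h = fun P => c P j}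

/-- the ring of coordinates -/
def coordRing (v : Place K F) (E : V → Divisor K F) (ws : ι → M.W) : Subalgebra A (V → A) :=
  Algebra.adjoin A (coordSet v E ws)

variable {v : Place K F} {E : V → Divisor K F} {ws : ι → M.W}

theorem coord_mem {b : M.W} (hb : (b : F) ∈ II v 0) {c : V → ι → A}
    (hc : ∀ P, (b : F) - ((∑ j, c P j • ws j : M.W) : F) ∈ II v (E P)) (j : ι) :
    (fun P => c P j) ∈ coordRing v E ws :=
  Algebra.subset_adjoin ⟨b, hb, c, hc, j, rfl⟩

end ring

end Fermat.Agent.FFG
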