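import Fermat.Agent.FFG.Rep
import Fermat.Agent.FFG.Base
import Fermat.Agent.Flat.Tame

/-!
# The maximal finite flat model, and Teichmüller elements
-/

set_option autoImplicit false
set_option linter.unusedSectionVars false
set_option linter.style.haveILetI false

noncomputable section

namespace Fermat.Agent.FFG

section max

variable {R Ω : Type} [CommRing R] [IsDomain R] [Field Ω] [Algebra R Ω] [FixBase R Ω]
  {V : Type} [AddCommGroup V] (act : (Ω ≃ₐ[R] Ω) → V → V)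

/-- the maximal Hopf order -/
def maxH : Subalgebra R (V → Ω) :=
  Algebra.adjoin R {f | ∃ H : Subalgebra R (V → Ω), IsHopfFn act H ∧ f ∈ H}

variable {act}

theorem mem_maxH {H : Subalgebra R (V → Ω)} (hH : IsHopfFn act H) {f : V → Ω} (hf : f ∈ H) :
    f ∈ maxH act := Algebra.subset_adjoin ⟨H, hH, hf⟩

/-- **The maximal finite flat model.** -/
theorem isHopfFn_maxH {H₀ : Subalgebra R (V → Ω)} (h₀ : IsHopfFn act H₀) :
    IsHopfFn act (maxH act) where
  int := by
    intro f hf P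
    induction hf using Algebra.adjoin_induction with
    | mem f hf =>
      obtain ⟨H, hH, hfH⟩ := hf
      exact hH.int f hfH P
    | algebraMap r => exact isIntegral_algebraMap
    | add f g _ _ hf hg => exact hf.add hg
    | mul f g _ _ hf hg => exact hf.mul hg
  equiv := by
    intro f hf σ P
    induction hf using Algebra.adjoin_induction with
    | mem f hf =>
      obtain ⟨H, hH, hfH⟩ := hf
      exact hH.equiv f hfH σ P
    | algebraMap r => exact (σ.commutes r).symm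
    | add f g _ _ hf hg => rw [Pi.add_apply, Pi.add_apply, map_add, hf, hg]
    | mul f g _ _ hf hg => rw [Pi.mul_apply, Pi.mul_apply, map_mul, hf, hg]
  sep := fun P Q h => h₀.sep P Q fun x hx => h x (mem_maxH h₀ hx)
  act_zero := h₀.act_zero
  comul := by
    have hle : maxH act ≤ comulSub (maxH act) := by
      refine Algebra.adjoin_le ?_
      rintro f ⟨H, hH, hfH⟩
      refine Submodule.span_mono ?_ (hH.comul f hfH)
      rintro _ ⟨y, hy, z, hz, rfl⟩
      exact ⟨y, mem_maxH hH hy, z, mem_maxH hH hz, rfl⟩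
    intro x hx
    exact hle hx

end max

open Fermat.Agent.Flat Fermat.Agent.Places

local notation "Ω" => AlgebraicClosure ℚ

local notation "𝒢" => (AlgebraicClosure ℚ) ≃ₐ[ℚ] (AlgebraicClosure ℚ)

variable {A : ValuationSubring (AlgebraicClosure ℚ)} {p : ℕ} [Fact p.Prime]
  (hA : A.LiesOverPrime p)

section teich

include hA

theorem natCast_notMem_nonunits {n : ℕ} (hn : ¬ p ∣ n) : (n : Ω) ∉ A.nonunits := by
  intro h
  haveI := RedMod.charP_residue hA
  have h1 : (n : Ω) ∈ A := natCast_mem A n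
  rw [mem_nonunits_iff_residue h1] at h
  have h2 : (⟨(n : Ω), h1⟩ : A) = (n : A) := Subtype.ext (by push_cast; rfl)
  rw [h2, map_natCast, CharP.cast_eq_zero_iff (IsLocalRing.ResidueField A) p] at h
  exact hn h

/-- reduction is injective on roots of unity of order prime to `p` -/
theorem pow_sub_one_notMem {m : ℕ} (hm : ¬ p ∣ m) {ζ : Ω} (hζ : IsPrimitiveRoot ζ m)
    {i : ℕ} (hi : ¬ m ∣ i) : ζ ^ i - 1 ∉ A.nonunits := by
  intro h
  have hm0 : 0 < m := Nat.pos_of_ne_zero (fun h0 => hm (h0 ▸ dvd_zero p))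
  obtain ⟨n, rfl⟩ : ∃ n, m = n + 1 := ⟨m - 1, by omega⟩
  have hζA : ζ ∈ A := by
    refine mem_of_isIntegral_int A ?_
    exact hζ.isIntegral hm0
  -- reduce the exponent
  have hmod : ζ ^ i = ζ ^ (i % (n + 1)) := by
    conv_lhs => rw [← Nat.div_add_mod i (n + 1)]
    rw [pow_add, pow_mul, hζ.pow_eq_one, one_pow, one_mul]
  rw [hmod] at h
  have hlt : i % (n + 1) < n + 1 := Nat.mod_lt _ (Nat.succ_pos n)
  have hpos : i % (n + 1) ≠ 0 := fun h0 => hi (Nat.dvd_of_mod_eq_zero h0)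
  have hprod := hζ.prod_one_sub_pow_eq_order
  have hmem : i % (n + 1) - 1 ∈ Finset.range n := by
    rw [Finset.mem_range]; omega
  have hj : i % (n + 1) - 1 + 1 = i % (n + 1) := by omega
  rw [← Finset.mul_prod_erase _ _ hmem, hj] at hprod
  have h2 : ((n + 1 : ℕ) : Ω) ∈ A.nonunits := by
    have h3 : ((n + 1 : ℕ) : Ω) = (n : Ω) + 1 := by push_cast; rfl
    rw [h3, ← hprod]
    refine mul_mem_nonunits A ?_ ?_
    · have h4 := neg_mem_nonunits A h
      rwa [neg_sub] at h4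
    · exact A.toSubring.prod_mem fun k _ => A.sub_mem A.one_mem (A.toSubring.pow_mem hζA _)
  exact natCast_notMem_nonunits hA hm h2

/-- congruent powers are equal -/
theorem pow_eq_of_sub_mem {m : ℕ} (hm : ¬ p ∣ m) {ζ : Ω} (hζ : IsPrimitiveRoot ζ m)
    {i j : ℕ} (h : ζ ^ i - ζ ^ j ∈ A.nonunits) : ζ ^ i = ζ ^ j := by
  have hm0 : 0 < m := Nat.pos_of_ne_zero (fun h0 => hm (h0 ▸ dvd_zero p))
  have hζA : ζ ∈ A := mem_of_isIntegral_int A (hζ.isIntegral hm0)
  have hζi : ζ⁻¹ ∈ A := mem_of_isIntegral_int A (hζ.inv.isIntegral hm0)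
  have hζ0 : ζ ≠ 0 := hζ.ne_zero hm0.ne'
  wlog hij : j ≤ i generalizing i j
  · have h1 := neg_mem_nonunits A h
    rw [neg_sub] at h1
    exact (this h1 (le_of_not_ge hij)).symm
  have h1 : ζ ^ (i - j) - 1 ∈ A.nonunits := by
    have h2 : ζ ^ (i - j) - 1 = (ζ ^ i - ζ ^ j) * (ζ⁻¹) ^ j := by
      rw [sub_mul, ← mul_pow, mul_inv_cancel₀ hζ0, one_pow]
      congr 1
      rw [← Nat.sub_add_cancel hij, pow_add, mul_assoc, ← mul_pow, mul_inv_cancel₀ hζ0, one_pow,
        mul_one, Nat.sub_add_cancel hij]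
    rw [h2]
    exact mul_mem_nonunits A h (A.toSubring.pow_mem hζi _)
  have h2 : m ∣ i - j := by
    by_contra hcon
    exact pow_sub_one_notMem hA hm hζ hcon h1
  obtain ⟨c, hc⟩ := h2
  have h3 : i = j + m * c := by omega
  rw [h3, pow_add, pow_mul, hζ.pow_eq_one, one_pow, mul_one]

/-- **Teichmüller elements**: elements of `R0` of degree `n` over the decomposition field -/
theorem exists_teich {Φ : 𝒢} (hΦ : IsFr A p Φ) {n : ℕ} (hn : 0 < n) :
    ∃ ζ ∈ R0 A, (Φ ^ n) ζ = ζ ∧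
      ∀ i j, i < j → j < n → (Φ ^ i) ζ - (Φ ^ j) ζ ∉ A.nonunits := by
  have hp : p.Prime := Fact.out
  set m := p ^ n - 1 with hm
  have hpn : 1 < p ^ n := Nat.one_lt_pow hn.ne' hp.one_lt
  have hm0 : 0 < m := by omega
  have hpm : ¬ p ∣ m := by
    intro h
    have h1 : p ∣ p ^ n := dvd_pow_self p hn.ne'
    have h2 : p ∣ 1 := by
      have h3 : (1 : ℕ) = p ^ n - m := by omega
      rw [h3]
      exact Nat.dvd_sub h1 h
    exact hp.one_lt.ne' (Nat.dvd_one.1 h2)
  obtain ⟨ζ, hζ⟩ : ∃ ζ : Ω, IsPrimitiveRoot ζ m := by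
    haveI : NeZero m := ⟨hm0.ne'⟩
    exact HasEnoughRootsOfUnity.exists_primitiveRoot Ω m
  haveI : NeZero m := ⟨hm0.ne'⟩
  have hζA : ζ ∈ A := mem_of_isIntegral_int A (hζ.isIntegral hm0)
  -- automorphisms permute the powers
  have hpw : ∀ σ : 𝒢, ∃ a : ℕ, σ ζ = ζ ^ a := by
    intro σ
    have h1 : (σ ζ) ^ m = 1 := by rw [← map_pow, hζ.pow_eq_one, map_one]
    obtain ⟨a, -, ha⟩ := hζ.eq_pow_of_pow_eq_one h1
    exact ⟨a, ha.symm⟩
  have hin : ∀ σ ∈ A.inertiaSubgroupIn ℚ, σ ζ = ζ := by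
    intro σ hσ
    have h1 := (mem_inertia_iff A _).1 hσ ζ hζA
    obtain ⟨a, ha⟩ := hpw σ
    rw [ha] at h1
    have h2 := pow_eq_of_sub_mem hA hpm hζ (i := a) (j := 1) (by rwa [pow_one])
    rw [ha, h2, pow_one]
  have hK0 : ζ ∈ K0 A := fun σ => hin σ.1 σ.2
  have hFr : Φ ζ = ζ ^ p := by
    have h1 := hΦ.2 ζ hζA
    obtain ⟨a, ha⟩ := hpw Φ
    rw [ha] at h1
    rw [ha, pow_eq_of_sub_mem hA hpm hζ h1]
  have hFi : ∀ i : ℕ, (Φ ^ i) ζ = ζ ^ (p ^ i) := by
    intro i
    induction i with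
    | zero => simp
    | succ i ih =>
      rw [pow_succ', AlgEquiv.mul_apply, ih, map_pow, hFr, ← pow_mul, pow_succ']
  refine ⟨ζ, ⟨hζA, hK0⟩, ?_, ?_⟩
  · rw [hFi]
    have h1 : p ^ n = 1 + m := by omega
    rw [h1, pow_add, hζ.pow_eq_one, pow_one, mul_one]
  · intro i j hij hjn h
    rw [hFi, hFi] at h
    have h1 := pow_eq_of_sub_mem hA hpm hζ h
    have h2 : p ^ i < m ∨ (p ^ i = m) := by
      have h3 : p ^ i ≤ p ^ (n - 1) := Nat.pow_le_pow_right hp.pos (by omega)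
      have h4 : p ^ n = p ^ (n - 1) * p := by
        rw [← pow_succ]; congr 1; omega
      have h5 : 1 ≤ p ^ (n - 1) := Nat.one_le_pow _ _ hp.pos
      have h6 := hp.two_le
      have h7 : p ^ (n - 1) + p ^ (n - 1) ≤ p ^ (n - 1) * p := by nlinarith
      omega
    have h3 : p ^ i < p ^ j := Nat.pow_lt_pow_right hp.one_lt hij
    have h4 : m ∣ p ^ j - p ^ i := by
      by_contra hcon
      have h5 : ζ ^ (p ^ j - p ^ i) - 1 ∈ A.nonunits := by
        have h6 : ζ ^ (p ^ j - p ^ i) = 1 := by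
          have h7 : ζ ^ (p ^ j - p ^ i) * ζ ^ (p ^ i) = ζ ^ (p ^ i) := by
            rw [← pow_add, Nat.sub_add_cancel h3.le, h1]
          exact mul_right_cancel₀ (pow_ne_zero _ (hζ.ne_zero hm0.ne')) (h7.trans (one_mul _).symm)
        rw [h6, sub_self]
        exact zero_mem_nonunits A
      exact pow_sub_one_notMem hA hpm hζ hcon h5
    have h5 : p ^ j ≤ p ^ (n - 1) := Nat.pow_le_pow_right hp.pos (by omega)
    have h6 : p ^ n = p ^ (n - 1) * p := by
      rw [← pow_succ]; congr 1; omega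
    have h7 : 1 ≤ p ^ (n - 1) := Nat.one_le_pow _ _ hp.pos
    have h8 := hp.two_le
    have h9 : p ^ (n - 1) + p ^ (n - 1) ≤ p ^ (n - 1) * p := by nlinarith
    have h10 : 1 ≤ p ^ i := Nat.one_le_pow _ _ hp.pos
    have h11 := Nat.le_of_dvd (by omega) h4
    omega

end teich

end Fermat.Agent.FFG
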