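import Fermat.Agent.FFG.Desc1

/-!
# Galois descent of functions on finite Galois modules; the Frobenius action
-/

set_option autoImplicit false
set_option linter.unusedSectionVars false
set_option linter.style.haveILetI false

noncomputable section

namespace Fermat.Agent.FFG

open Fermat.Agent.Flat Fermat.Agent.Places

local notation "Ω" => AlgebraicClosure ℚ

local notation "𝒢" => (AlgebraicClosure ℚ) ≃ₐ[ℚ] (AlgebraicClosure ℚ)

/-- finite Galois modules -/
structure GalMod (V : Type) [AddCommGroup V] (act : 𝒢 → V → V) : Prop where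
  one : ∀ P, act 1 P = P
  mul : ∀ σ τ P, act (σ * τ) P = act σ (act τ P)
  add : ∀ σ P Q, act σ (P + Q) = act σ P + act σ Q
  lev : ∃ L : IntermediateField ℚ Ω, FiniteDimensional ℚ L ∧
    ∀ σ : 𝒢, (∀ a ∈ L, σ a = a) → ∀ P, act σ P = P

instance fixBaseQ : FixBase ℚ Ω where
  inj := (algebraMap ℚ Ω).injective
  fix x h := by
    obtain ⟨r, hr⟩ := (InfiniteGalois.mem_range_algebraMap_iff_fixed (k := ℚ) x).2 h
    exact ⟨r, 1, one_ne_zero, by rw [map_one, one_mul]; exact hr.symm⟩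

variable {V : Type} [AddCommGroup V] {act : 𝒢 → V → V} (G : GalMod V act)

namespace GalMod

include G

theorem inv_act (σ : 𝒢) (P : V) : act σ⁻¹ (act σ P) = P := by
  rw [← G.mul, inv_mul_cancel, G.one]

theorem act_inv (σ : 𝒢) (P : V) : act σ (act σ⁻¹ P) = P := by
  rw [← G.mul, mul_inv_cancel, G.one]

theorem bij (σ : 𝒢) : Function.Bijective (act σ) :=
  ⟨fun P Q h => by rw [← G.inv_act σ P, h, G.inv_act], fun P => ⟨_, G.act_inv σ P⟩⟩

theorem zero (σ : 𝒢) : act σ 0 = 0 := by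
  have := G.add σ 0 0
  rw [add_zero] at this
  exact left_eq_add.1 this

end GalMod

/-- the equivariant functions -/
def EqF (act : 𝒢 → V → V) : Subalgebra ℚ (V → Ω) where
  carrier := {f | ∀ σ P, f (act σ P) = σ (f P)}
  mul_mem' := fun {f g} hf hg σ P => by rw [Pi.mul_apply, Pi.mul_apply, map_mul, hf, hg]
  add_mem' := fun {f g} hf hg σ P => by rw [Pi.add_apply, Pi.add_apply, map_add, hf, hg]
  algebraMap_mem' := fun r σ P => (σ.commutes r).symm

omit [AddCommGroup V] in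
theorem mem_EqF {f : V → Ω} : f ∈ EqF act ↔ ∀ σ P, f (act σ P) = σ (f P) := Iff.rfl

include G in
/-- equivariant functions separate points -/
theorem GalMod.sepE (P Q : V) (h : ∀ f ∈ EqF act, f P = f Q) : P = Q := by
  classical
  by_contra hne
  obtain ⟨L, hL, hLa⟩ := G.lev
  let U : Subgroup 𝒢 :=
    { carrier := {σ | act σ P = P}
      mul_mem' := fun {σ τ} hσ hτ => by
        change act (σ * τ) P = P
        rw [G.mul, hτ, hσ]
      one_mem' := G.one P
      inv_mem' := fun {σ} hσ => by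
        change act σ⁻¹ P = P
        conv_lhs => rw [← show act σ P = P from hσ]
        rw [G.inv_act] }
  have hUL : L.fixingSubgroup ≤ U := fun σ hσ => hLa σ (fun a ha => hσ ⟨a, ha⟩) P
  have hopen : IsOpen (U : Set 𝒢) := Subgroup.isOpen_mono hUL L.fixingSubgroup_isOpen
  have hclosed : IsClosed (U : Set 𝒢) := U.isClosed_of_isOpen hopen
  let F : IntermediateField ℚ Ω := IntermediateField.fixedField U
  have hF : F.fixingSubgroup = U :=
    InfiniteGalois.fixingSubgroup_fixedField (k := ℚ) (K := Ω) ⟨U, hclosed⟩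
  haveI : FiniteDimensional ℚ F := by
    rw [← InfiniteGalois.isOpen_iff_finite, hF]
    exact hopen
  obtain ⟨θ, hθ⟩ := @Field.exists_primitive_element ℚ F _ _ F.algebra' inferInstance
    inferInstance
  have hfix : ∀ σ : 𝒢, σ (θ : Ω) = θ ↔ act σ P = P := by
    intro σ
    constructor
    · intro hσ
      have h1 : σ ∈ F.fixingSubgroup := by
        rintro ⟨x, hx⟩
        have h2 : (⟨x, hx⟩ : F) ∈ @IntermediateField.adjoin ℚ _ F _ F.algebra' ({θ} : Set F) := by
          rw [hθ]; trivial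
        change σ x = x
        have h3 : x ∈ (@IntermediateField.adjoin ℚ _ F _ F.algebra' ({θ} : Set F)).map F.val :=
          ⟨⟨x, hx⟩, h2, rfl⟩
        rw [IntermediateField.adjoin_map] at h3
        have h4 : IntermediateField.adjoin ℚ (F.val '' ({θ} : Set F)) ≤
            IntermediateField.fixedField (Subgroup.zpowers σ) := by
          rw [IntermediateField.adjoin_le_iff]
          rintro _ ⟨y, hy, rfl⟩
          rw [Set.mem_singleton_iff] at hy
          subst hy
          rintro ⟨τ, hτ⟩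
          obtain ⟨n, rfl⟩ := Subgroup.mem_zpowers_iff.1 hτ
          change (σ ^ n) (y : Ω) = y
          have h5 : σ ∈ MulAction.stabilizer 𝒢 (y : Ω) := hσ
          exact (MulAction.stabilizer 𝒢 (y : Ω)).zpow_mem h5 n
        exact h4 h3 ⟨σ, Subgroup.mem_zpowers σ⟩
      rw [hF] at h1
      exact h1
    · intro hσ
      have h1 : σ ∈ U := hσ
      exact θ.2 ⟨σ, h1⟩
  -- the equivariant function
  obtain ⟨c, hc⟩ : ∃ c : ℚ, algebraMap ℚ Ω c ≠ (θ : Ω) := by
    by_cases h0 : (θ : Ω) = 0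
    · exact ⟨1, by rw [h0, map_one]; exact one_ne_zero⟩
    · exact ⟨0, by rw [map_zero]; exact Ne.symm h0⟩
  let f : V → Ω := fun T => if hT : ∃ σ, act σ P = T then hT.choose (θ : Ω) else algebraMap ℚ Ω c
  have hf1 : ∀ σ, f (act σ P) = σ (θ : Ω) := by
    intro σ
    have hT : ∃ τ, act τ P = act σ P := ⟨σ, rfl⟩
    simp only [f, dif_pos hT]
    have h1 := hT.choose_spec
    have h2 : (σ⁻¹ * hT.choose) (θ : Ω) = θ := by
      rw [hfix, G.mul, h1, G.inv_act]
    rw [AlgEquiv.mul_apply] at h2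
    conv_rhs => rw [← h2]
    rw [← AlgEquiv.mul_apply, mul_inv_cancel, AlgEquiv.one_apply]
  have hf2 : ∀ T, (¬ ∃ σ, act σ P = T) → f T = algebraMap ℚ Ω c := fun T hT => dif_neg hT
  have hfE : f ∈ EqF act := by
    intro σ T
    by_cases hT : ∃ τ, act τ P = T
    · obtain ⟨τ, rfl⟩ := hT
      rw [← G.mul, hf1, hf1]
      rfl
    · rw [hf2 T hT, hf2 _ (by
        rintro ⟨τ, hτ⟩
        exact hT ⟨σ⁻¹ * τ, by rw [G.mul, hτ, G.inv_act]⟩)]
      exact (σ.commutes c).symm
  have h1 := h f hfE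
  have h2 := hf1 1
  rw [G.one] at h2
  rw [h2] at h1
  by_cases hQ : ∃ τ, act τ P = Q
  · obtain ⟨τ, rfl⟩ := hQ
    rw [hf1] at h1
    exact hne ((hfix τ).1 h1.symm).symm
  · rw [hf2 Q hQ] at h1
    exact hc h1.symm

include G in
theorem GalMod.isFnE : IsFn (R := ℚ) act (EqF act) where
  int := fun _ _ _ => Algebra.IsIntegral.isIntegral _
  equiv := fun x hx σ P => hx σ P
  sep := G.sepE

/-! ### the semilinear action on functions -/

/-- the semilinear action of the Galois group on functions -/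
def tw (act : 𝒢 → V → V) (σ : 𝒢) (x : V → Ω) : V → Ω := fun P => σ (x (act σ⁻¹ P))

omit [AddCommGroup V] in
theorem tw_apply (σ : 𝒢) (x : V → Ω) (P : V) : tw act σ x P = σ (x (act σ⁻¹ P)) := rfl

omit [AddCommGroup V] in
theorem tw_add (σ : 𝒢) (x y : V → Ω) : tw act σ (x + y) = tw act σ x + tw act σ y := by
  funext P; simp [tw_apply]

omit [AddCommGroup V] in
theorem tw_mul' (σ : 𝒢) (x y : V → Ω) : tw act σ (x * y) = tw act σ x * tw act σ y := by
  funext P; simp [tw_apply]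

omit [AddCommGroup V] in
theorem tw_smul (σ : 𝒢) (a : Ω) (x : V → Ω) : tw act σ (a • x) = σ a • tw act σ x := by
  funext P; simp [tw_apply]

omit [AddCommGroup V] in
theorem tw_sum {ι : Type} (s : Finset ι) (σ : 𝒢) (x : ι → V → Ω) :
    tw act σ (∑ i ∈ s, x i) = ∑ i ∈ s, tw act σ (x i) := by
  funext P; simp [tw_apply]

namespace GalMod

include G

theorem tw_tw (σ τ : 𝒢) (x : V → Ω) : tw act (σ * τ) x = tw act σ (tw act τ x) := by
  funext P
  rw [tw_apply, tw_apply, tw_apply, mul_inv_rev, G.mul]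
  rfl

theorem tw_one (x : V → Ω) : tw act 1 x = x := by
  funext P
  rw [tw_apply, inv_one, G.one]
  rfl

theorem tw_eq_iff {σ : 𝒢} {x : V → Ω} : tw act σ x = x ↔ ∀ P, x (act σ P) = σ (x P) := by
  constructor
  · intro h P
    have h1 := congrFun h (act σ P)
    rw [tw_apply, G.inv_act] at h1
    exact h1.symm
  · intro h
    funext P
    rw [tw_apply, ← h, G.act_inv]

/-- functions have finite orbits -/
theorem exists_tw_pow [Finite V] (Φ : 𝒢) (x : V → Ω) : ∃ n, 0 < n ∧ tw act (Φ ^ n) x = x := by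
  obtain ⟨L, hL, hLa⟩ := G.lev
  let M : IntermediateField ℚ Ω := L ⊔ IntermediateField.adjoin ℚ (Set.range x)
  haveI : FiniteDimensional ℚ (IntermediateField.adjoin ℚ (Set.range x)) :=
    IntermediateField.finiteDimensional_adjoin fun y _ => Algebra.IsIntegral.isIntegral y
  haveI : FiniteDimensional ℚ M := IntermediateField.finiteDimensional_sup _ _
  have hop : IsOpen (M.fixingSubgroup : Set 𝒢) := M.fixingSubgroup_isOpen
  have hind : M.fixingSubgroup.index ≠ 0 := by
    haveI : Finite (𝒢 ⧸ M.fixingSubgroup) := Subgroup.quotient_finite_of_isOpen _ hop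
    exact (Subgroup.finiteIndex_of_finite_quotient).index_ne_zero
  obtain ⟨n, hn, -, hmem⟩ := Subgroup.exists_pow_mem_of_index_ne_zero hind Φ
  refine ⟨n, hn, (G.tw_eq_iff).2 fun P => ?_⟩
  have h1 : ∀ a ∈ M, (Φ ^ n) a = a := fun a ha => hmem ⟨a, ha⟩
  rw [hLa (Φ ^ n) (fun a ha => h1 a ((le_sup_left : L ≤ M) ha)) P]
  exact (h1 _ ((le_sup_right : _ ≤ M) (IntermediateField.subset_adjoin _ _ ⟨P, rfl⟩))).symm

end GalMod

/-! ### automorphisms preserving the place -/

variable {A : ValuationSubring (AlgebraicClosure ℚ)} {σ : 𝒢}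

theorem Pres_inv (hσ : Pres A σ) : Pres A σ⁻¹ := fun x => by
  rw [← hσ, ← AlgEquiv.mul_apply, mul_inv_cancel, AlgEquiv.one_apply]

theorem conj_mem_inertia (hσ : Pres A σ) {τ : 𝒢} (hτ : τ ∈ A.inertiaSubgroupIn ℚ) :
    σ⁻¹ * τ * σ ∈ A.inertiaSubgroupIn ℚ := by
  rw [mem_inertia_iff] at hτ ⊢
  intro x hx
  have h1 := hτ (σ x) ((hσ x).2 hx)
  have h2 := (Pres_inv hσ).nonunits h1
  rw [map_sub] at h2
  have h3 : σ⁻¹ (σ x) = x := by
    rw [← AlgEquiv.mul_apply, inv_mul_cancel, AlgEquiv.one_apply]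
  rw [h3] at h2
  exact h2

theorem map_K0 (hσ : Pres A σ) {x : Ω} (hx : x ∈ K0 A) : σ x ∈ K0 A := by
  rintro ⟨τ, hτ⟩
  have h1 : (σ⁻¹ * τ * σ) x = x := hx ⟨_, conj_mem_inertia hσ hτ⟩
  have h2 := congrArg σ h1
  change τ (σ x) = σ x
  rw [AlgEquiv.mul_apply, AlgEquiv.mul_apply, ← AlgEquiv.mul_apply, mul_inv_cancel,
    AlgEquiv.one_apply] at h2
  exact h2

theorem map_R0 (hσ : Pres A σ) {x : Ω} (hx : x ∈ R0 A) : σ x ∈ R0 A :=
  ⟨(hσ x).2 hx.1, map_K0 hσ hx.2⟩

/-- the inertia action -/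
def actI (act : 𝒢 → V → V) : (Ω ≃ₐ[R0 A] Ω) → V → V := fun γ => act (rq γ)

theorem exists_conj (hσ : Pres A σ) (γ : Ω ≃ₐ[R0 A] Ω) :
    ∃ γ' : Ω ≃ₐ[R0 A] Ω, σ⁻¹ * rq γ * σ = rq γ' :=
  ⟨ofInertia A _ (conj_mem_inertia hσ (rq_mem γ)), (rq_ofInertia A _ _).symm⟩

/-- the transform of a ring of functions -/
def twSub (act : 𝒢 → V → V) (hσ : Pres A σ) (H : Subalgebra (R0 A) (V → Ω)) :
    Subalgebra (R0 A) (V → Ω) where
  carrier := {f | tw act σ⁻¹ f ∈ H}
  mul_mem' := fun {f g} hf hg => by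
    change tw act σ⁻¹ (f * g) ∈ H
    rw [tw_mul']
    exact H.mul_mem hf hg
  add_mem' := fun {f g} hf hg => by
    change tw act σ⁻¹ (f + g) ∈ H
    rw [tw_add]
    exact H.add_mem hf hg
  algebraMap_mem' := fun r => by
    have h1 : tw act σ⁻¹ (algebraMap (R0 A) (V → Ω) r) =
        algebraMap (R0 A) (V → Ω) ⟨σ⁻¹ (r : Ω), map_R0 (Pres_inv hσ) r.2⟩ := rfl
    change tw act σ⁻¹ (algebraMap (R0 A) (V → Ω) r) ∈ H
    rw [h1]
    exact H.algebraMap_mem _

theorem smul_coe_R0 (r : R0 A) (x : V → Ω) : r • x = (r : Ω) • x := rfl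

include G in
theorem GalMod.isHopfFn_tw [Finite V] (hσ : Pres A σ) {H : Subalgebra (R0 A) (V → Ω)}
    (hH : IsHopfFn (actI (A := A) act) H) : IsHopfFn (actI (A := A) act) (twSub act hσ H) := by
  have hequiv : ∀ x ∈ twSub act hσ H, ∀ (γ : Ω ≃ₐ[R0 A] Ω) (P : V),
      x (actI act γ P) = γ (x P) := by
    intro x hx γ P
    obtain ⟨γ', hγ'⟩ := exists_conj hσ γ
    have h1 := hH.equiv _ hx γ' (act σ⁻¹ P)
    rw [tw_apply, tw_apply, inv_inv, G.act_inv] at h1
    have h2 : act σ (actI act γ' (act σ⁻¹ P)) = actI act γ P := by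
      rw [actI, actI, ← hγ', ← G.mul, ← G.mul]
      congr 1
      group
    rw [h2] at h1
    have h3 := congrArg σ h1
    have h4 : ∀ y : Ω, σ (γ' y) = γ (σ y) := by
      intro y
      have h5 : (σ * rq γ') y = (rq γ * σ) y := by
        rw [← hγ']
        congr 1
        group
      exact h5
    rw [h4, ← AlgEquiv.mul_apply, ← AlgEquiv.mul_apply, mul_inv_cancel, AlgEquiv.one_apply,
      AlgEquiv.one_apply] at h3
    exact h3
  refine ⟨⟨?_, hequiv, ?_⟩, hH.act_zero, ?_⟩
  · intro x hx P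
    refine isIntegral_of_equiv (isOver A) (act := actI act) (fun γ => G.bij (rq γ))
      (f := x) (fun P => ?_) (hequiv x hx) P
    have h1 : IsIntegral (R0 A) (tw act σ⁻¹ x (act σ⁻¹ P)) := hH.int _ hx _
    rw [tw_apply, inv_inv, G.act_inv] at h1
    have h2 : σ⁻¹ (x P) ∈ A := by
      have h3 : IsIntegral A (σ⁻¹ (x P)) := by
        obtain ⟨q, hq, hq0⟩ := h1
        let i : R0 A →+* A := ⟨⟨⟨fun r => ⟨r, r.2.1⟩, rfl⟩, fun _ _ => rfl⟩, rfl, fun _ _ => rfl⟩
        refine ⟨q.map i, hq.map i, ?_⟩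
        rw [Polynomial.eval₂_map]
        exact hq0
      obtain ⟨a, ha⟩ := IsIntegrallyClosed.isIntegral_iff.1 h3
      rw [← ha]
      exact a.2
    have h3 : x P ∈ A := ((Pres_inv hσ) (x P)).1 h2
    exact ⟨⟨x P, h3⟩, rfl⟩
  · intro P Q h
    have h1 : act σ⁻¹ P = act σ⁻¹ Q := hH.sep _ _ fun x hx => by
      have h2 := h (tw act σ x) (by
        change tw act σ⁻¹ (tw act σ x) ∈ H
        rw [← G.tw_tw, inv_mul_cancel, G.tw_one]
        exact hx)
      exact σ.injective h2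
    exact (G.bij σ⁻¹).1 h1
  · intro x hx
    have h1 := hH.comul _ hx
    have h2 : ∀ g ∈ Submodule.span (R0 A)
        {f : V × V → Ω | ∃ y ∈ H, ∃ z ∈ H, f = fun p => y p.1 * z p.2},
        (fun p : V × V => σ (g (act σ⁻¹ p.1, act σ⁻¹ p.2))) ∈ Submodule.span (R0 A)
          {f : V × V → Ω | ∃ y ∈ twSub act hσ H, ∃ z ∈ twSub act hσ H,
            f = fun p => y p.1 * z p.2} := by
      intro g hg
      have hmem : ∀ y ∈ H, tw act σ y ∈ twSub act hσ H := fun y hy => by
        change tw act σ⁻¹ (tw act σ y) ∈ H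
        rw [← G.tw_tw, inv_mul_cancel, G.tw_one]
        exact hy
      induction hg using Submodule.span_induction with
      | mem g hg =>
        obtain ⟨y, hy, z, hz, rfl⟩ := hg
        refine Submodule.subset_span ⟨_, hmem y hy, _, hmem z hz, ?_⟩
        funext p
        exact map_mul σ _ _
      | zero =>
        have h3 : (fun p : V × V => σ ((0 : V × V → Ω) (act σ⁻¹ p.1, act σ⁻¹ p.2))) = 0 := by
          funext p; exact map_zero σ
        rw [h3]
        exact Submodule.zero_mem _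
      | add f g _ _ hf hg =>
        have h3 : (fun p : V × V => σ ((f + g) (act σ⁻¹ p.1, act σ⁻¹ p.2))) =
            (fun p : V × V => σ (f (act σ⁻¹ p.1, act σ⁻¹ p.2))) +
            fun p : V × V => σ (g (act σ⁻¹ p.1, act σ⁻¹ p.2)) := by
          funext p; exact map_add σ _ _
        rw [h3]
        exact Submodule.add_mem _ hf hg
      | smul r f _ hf =>
        have h3 : (fun p : V × V => σ ((r • f) (act σ⁻¹ p.1, act σ⁻¹ p.2))) =
            (⟨σ (r : Ω), map_R0 hσ r.2⟩ : R0 A) •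
              fun p : V × V => σ (f (act σ⁻¹ p.1, act σ⁻¹ p.2)) := by
          funext p
          exact map_mul σ _ _
        rw [h3]
        exact Submodule.smul_mem _ _ hf
    have h3 := h2 _ h1
    have h4 : (fun p : V × V => σ ((fun q : V × V => tw act σ⁻¹ x (q.1 + q.2))
        (act σ⁻¹ p.1, act σ⁻¹ p.2))) = fun p : V × V => x (p.1 + p.2) := by
      funext p
      change σ (σ⁻¹ (x (act σ⁻¹⁻¹ (act σ⁻¹ p.1 + act σ⁻¹ p.2)))) = _
      rw [← G.add, inv_inv, G.act_inv, ← AlgEquiv.mul_apply, mul_inv_cancel, AlgEquiv.one_apply]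
    rw [h4] at h3
    exact h3

include G in
/-- the maximal model is stable under the decomposition group -/
theorem GalMod.tw_mem_maxH [Finite V] (hσ : Pres A σ) {x : V → Ω}
    (hx : x ∈ maxH (actI (A := A) act)) : tw act σ x ∈ maxH (actI (A := A) act) := by
  induction hx using Algebra.adjoin_induction with
  | mem x hx =>
    obtain ⟨H, hH, hxH⟩ := hx
    refine mem_maxH (G.isHopfFn_tw hσ hH) ?_
    change tw act σ⁻¹ (tw act σ x) ∈ H
    rw [← G.tw_tw, inv_mul_cancel, G.tw_one]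
    exact hxH
  | algebraMap r =>
    have h1 : tw act σ (algebraMap (R0 A) (V → Ω) r) =
        algebraMap (R0 A) (V → Ω) ⟨σ (r : Ω), map_R0 hσ r.2⟩ := rfl
    rw [h1]
    exact Subalgebra.algebraMap_mem _ _
  | add x y _ _ hx hy =>
    rw [tw_add]
    exact add_mem hx hy
  | mul x y _ _ hx hy =>
    rw [tw_mul']
    exact mul_mem hx hy

end Fermat.Agent.FFG
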