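import Fermat.Agent.FFG.Desc2
import Fermat.Agent.Flat.FlatAt
import Fermat.Agent.Flat.SS2

/-!
# Descent of finite flat models from the strictly henselian base to `ℤ_(p)`
-/

set_option autoImplicit false
set_option linter.unusedSectionVars false
set_option linter.style.haveILetI false

noncomputable section

namespace Fermat.Agent.FFG

open Fermat.Agent.Flat Fermat.Agent.Places

local notation "Ω" => AlgebraicClosure ℚ

local notation "𝒢" => (AlgebraicClosure ℚ) ≃ₐ[ℚ] (AlgebraicClosure ℚ)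

/-! ### coefficients -/

section coef

variable {R Ω' : Type} [CommRing R] [IsDomain R] [Field Ω'] [Algebra R Ω'] [FixBase R Ω']
  {V : Type} [Finite V] {actR : (Ω' ≃ₐ[R] Ω') → V → V} {H : Subalgebra R (V → Ω')}

theorem IsFn.exists_coef (hH : IsFn actR H) {ι : Type} [Fintype ι] (b : Module.Basis ι R H)
    (x : V → Ω') : ∃ c : ι → Ω', x = ∑ i, c i • (b i : V → Ω') := by
  have hx : x ∈ Submodule.span Ω' (H : Set (V → Ω')) := by
    rw [hH.span_eq_top]; trivial
  have hle : Submodule.span Ω' (H : Set (V → Ω')) ≤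
      Submodule.span Ω' (Set.range fun i => (b i : V → Ω')) := by
    rw [Submodule.span_le]
    intro y hy
    have h1 := congrArg (fun s : H => (s : V → Ω')) (b.sum_repr ⟨y, hy⟩)
    simp only [AddSubmonoidClass.coe_finsetSum] at h1
    change _ = y at h1
    rw [← h1]
    refine Submodule.sum_mem _ fun i _ => ?_
    change b.repr ⟨y, hy⟩ i • (b i : V → Ω') ∈ _
    rw [← algebraMap_smul Ω' (b.repr ⟨y, hy⟩ i) (b i : V → Ω')]
    exact Submodule.smul_mem _ _ (Submodule.subset_span ⟨i, rfl⟩)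
  obtain ⟨c, hc⟩ := (Submodule.mem_span_range_iff_exists_fun Ω').1 (hle hx)
  exact ⟨c, hc.symm⟩

end coef

variable {V : Type} [AddCommGroup V] [Finite V] {act : 𝒢 → V → V} (G : GalMod V act)

theorem coef_fixed {σ : 𝒢} {ι : Type} [Fintype ι] {b : ι → V → Ω} (hb : LinearIndependent Ω b)
    (hbE : ∀ i, tw act σ (b i) = b i) {c : ι → Ω} {x : V → Ω} (hx : x = ∑ i, c i • b i)
    (hσ : tw act σ x = x) (i : ι) : σ (c i) = c i := by
  have h1 : ∑ i, (σ (c i) - c i) • b i = 0 := by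
    simp only [sub_smul, Finset.sum_sub_distrib]
    rw [← hx]
    have h2 : ∑ i, σ (c i) • b i = x := by
      conv_rhs => rw [← hσ, hx, tw_sum]
      refine Finset.sum_congr rfl fun i _ => ?_
      rw [tw_smul, hbE]
    rw [h2, sub_self]
  exact sub_eq_zero.1 (Fintype.linearIndependent_iff.1 hb _ h1 i)

variable {A : ValuationSubring (AlgebraicClosure ℚ)} {p : ℕ} [Fact p.Prime]
  (hA : A.LiesOverPrime p)

section approx

include hA

theorem exists_pow_mul_mem {x : Ω} (hx : x ∈ K0 A) : ∃ n : ℕ, (p : Ω) ^ n * x ∈ R0 A := by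
  rcases A.mem_or_inv_mem x with h | h
  · exact ⟨0, by rw [pow_zero, one_mul]; exact ⟨h, hx⟩⟩
  · by_cases hx0 : x = 0
    · exact ⟨0, by rw [hx0, mul_zero]; exact zero_mem _⟩
    · obtain ⟨n, u, hu⟩ := exists_pow_mul hA (x := ⟨x⁻¹, h, (K0 A).inv_mem hx⟩) (fun h0 =>
        inv_ne_zero hx0 (congrArg Subtype.val h0))
      refine ⟨n, ?_⟩
      have h1 := congrArg (fun z : R0 A => (z : Ω)) hu
      push_cast at h1
      have h2 : (p : Ω) ^ n * x = ((u⁻¹ : (R0 A)ˣ) : R0 A) := by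
        have h3 : (((u : R0 A) * ((u⁻¹ : (R0 A)ˣ) : R0 A) : R0 A) : Ω) = 1 := by
          rw [Units.mul_inv]; rfl
        push_cast at h3
        calc (p : Ω) ^ n * x = (p : Ω) ^ n * x * ((u : R0 A) * ((u⁻¹ : (R0 A)ˣ) : R0 A)) := by
              rw [h3, mul_one]
          _ = ((p : Ω) ^ n * (u : R0 A)) * x * ((u⁻¹ : (R0 A)ˣ) : R0 A) := by ring
          _ = _ := by rw [h1, inv_mul_cancel₀ hx0, one_mul]
      rw [h2]
      exact ((u⁻¹ : (R0 A)ˣ) : R0 A).2

/-- Frobenius invariant elements are limits of integers -/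
theorem exists_int_approx {Φ : 𝒢} (hΦ : IsFr A p Φ) {z : Ω} (hz : z ∈ R0 A) (hzΦ : Φ z = z)
    (n : ℕ) : ∃ a : ℤ, ∃ r ∈ R0 A, Φ r = r ∧ z - a = (p : Ω) ^ n * r := by
  have hp0 : (p : Ω) ≠ 0 := Nat.cast_ne_zero.2 (Fact.out : p.Prime).ne_zero
  haveI := RedMod.charP_residue hA
  induction n with
  | zero => exact ⟨0, z, hz, hzΦ, by push_cast; ring⟩
  | succ n ih =>
    obtain ⟨a, r, hr, hrΦ, h⟩ := ih
    -- the residue of `r` is in the prime field
    have h1 := hΦ.2 r hr.1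
    rw [hrΦ] at h1
    have h2 : (IsLocalRing.residue A ⟨r, hr.1⟩) ^ p = IsLocalRing.residue A ⟨r, hr.1⟩ := by
      have h3 : r - r ^ p ∈ A := mem_of_mem_nonunits A h1
      rw [mem_nonunits_iff_residue h3] at h1
      have h4 : (⟨r - r ^ p, h3⟩ : A) = ⟨r, hr.1⟩ - (⟨r, hr.1⟩ : A) ^ p := rfl
      rw [h4, map_sub, map_pow, sub_eq_zero] at h1
      exact h1.symm
    obtain ⟨b, hb⟩ := exists_natCast_of_pow h2
    have h5 : r - (b : Ω) ∈ A.nonunits := by
      have h6 : r - (b : Ω) ∈ A := A.sub_mem hr.1 (natCast_mem A b)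
      rw [mem_nonunits_iff_residue h6]
      have h7 : (⟨r - (b : Ω), h6⟩ : A) = ⟨r, hr.1⟩ - (b : A) := Subtype.ext (by push_cast; rfl)
      rw [h7, map_sub, map_natCast, hb, sub_self]
    have hmem : r - (b : Ω) ∈ R0 A := (R0 A).sub_mem hr (natCast_mem (R0 A) b)
    obtain ⟨s, hs⟩ := R0_p_dvd hA (x := ⟨r - (b : Ω), hmem⟩) h5
    have hs' : r - (b : Ω) = (p : Ω) * (s : Ω) := by
      have := congrArg (fun z : R0 A => (z : Ω)) hs
      push_cast at this
      exact this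
    refine ⟨a + (p : ℤ) ^ n * b, s, s.2, ?_, ?_⟩
    · apply mul_left_cancel₀ hp0
      have h8 := congrArg Φ hs'
      rw [map_sub, map_mul, map_natCast, map_natCast, hrΦ, hs'] at h8
      exact h8.symm
    · push_cast
      rw [pow_succ, mul_assoc, ← hs', mul_sub, ← h]
      ring

/-- Frobenius invariant elements of `K0` are limits of rational numbers -/
theorem exists_rat_approx {Φ : 𝒢} (hΦ : IsFr A p Φ) {c : Ω} (hc : c ∈ K0 A) (hcΦ : Φ c = c)
    (n : ℕ) : ∃ q : ℚ, ∃ r ∈ R0 A, c - algebraMap ℚ Ω q = (p : Ω) ^ n * r := by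
  have hp0 : (p : Ω) ≠ 0 := Nat.cast_ne_zero.2 (Fact.out : p.Prime).ne_zero
  obtain ⟨s, hs⟩ := exists_pow_mul_mem hA hc
  obtain ⟨a, r, hr, -, h⟩ := exists_int_approx hA hΦ hs (by
    rw [map_mul, map_pow, map_natCast, hcΦ]) (s + n)
  refine ⟨(a : ℚ) / (p : ℚ) ^ s, r, hr, ?_⟩
  apply mul_left_cancel₀ (pow_ne_zero s hp0)
  rw [mul_sub, ← mul_assoc, ← pow_add, ← h]
  congr 1
  rw [map_div₀, map_pow, map_intCast, map_natCast, mul_div_cancel₀ _ (pow_ne_zero s hp0)]

end approx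

/-! ### the descended ring -/

/-- the descended ring of functions -/
def dH (A : ValuationSubring (AlgebraicClosure ℚ)) (p : ℕ) [Fact p.Prime]
    (hA : A.LiesOverPrime p) (act : 𝒢 → V → V) :
    Subalgebra (GaloisRep.ratLocalizedAt p) (V → Ω) where
  carrier := {f | f ∈ EqF act ∧ f ∈ maxH (actI (A := A) act)}
  mul_mem' := fun hf hg => ⟨mul_mem hf.1 hg.1, mul_mem hf.2 hg.2⟩
  add_mem' := fun hf hg => ⟨add_mem hf.1 hg.1, add_mem hf.2 hg.2⟩
  algebraMap_mem' := fun r => ⟨(EqF act).algebraMap_mem (r : ℚ),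
    (maxH (actI (A := A) act)).algebraMap_mem ⟨_, ratLoc_mem hA r⟩⟩

theorem mem_dH {f : V → Ω} : f ∈ dH A p hA act ↔
    f ∈ EqF act ∧ f ∈ maxH (actI (A := A) act) := Iff.rfl

section descent

variable {H₀ : Subalgebra (R0 A) (V → Ω)} (h₀ : IsHopfFn (actI (A := A) act) H₀)

include h₀ hA G in
theorem exists_approx {Φ : 𝒢} (hΦ : IsFr A p Φ) {y : V → Ω}
    (hy : y ∈ maxH (actI (A := A) act)) (hyΦ : tw act Φ y = y) :
    ∃ h ∈ dH A p hA act, ∃ y' ∈ maxH (actI (A := A) act), y = h + (p : Ω) • y' := by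
  classical
  haveI := isPrincipalIdealRing_R0 hA
  have hM := isHopfFn_maxH h₀
  obtain ⟨ι, _, e, he⟩ := G.isFnE.oInj
  obtain ⟨κ, _, b, hb⟩ := hM.toIsFn.oInj
  change LinearIndependent Ω (fun i => (e i : V → Ω)) at he
  change LinearIndependent Ω (fun i => (b i : V → Ω)) at hb
  have hinv : ∀ x ∈ maxH (actI (A := A) act), ∀ τ ∈ A.inertiaSubgroupIn ℚ, tw act τ x = x := by
    intro x hx τ hτ
    rw [G.tw_eq_iff]
    intro P
    have h1 := hM.equiv x hx (ofInertia A τ hτ) P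
    rw [actI, rq_ofInertia] at h1
    exact h1
  have heE : ∀ i (σ : 𝒢), tw act σ (e i : V → Ω) = e i := fun i σ =>
    (G.tw_eq_iff).2 ((e i).2 σ)
  obtain ⟨c, hc⟩ := G.isFnE.exists_coef e y
  have hcK : ∀ i, c i ∈ K0 A := fun i σ =>
    coef_fixed he (fun j => heE j _) hc (hinv y hy σ.1 σ.2) i
  have hcΦ : ∀ i, Φ (c i) = c i := coef_fixed he (fun j => heE j _) hc hyΦ
  -- denominators
  have hden : ∀ i, ∃ n : ℕ, (p : Ω) ^ n • (e i : V → Ω) ∈ maxH (actI (A := A) act) := by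
    intro i
    obtain ⟨d, hd⟩ := hM.toIsFn.exists_coef b (e i : V → Ω)
    have hdK : ∀ j, d j ∈ K0 A := fun j σ =>
      coef_fixed hb (fun l => hinv _ (b l).2 σ.1 σ.2) hd (heE i _) j
    choose n hn using fun j => exists_pow_mul_mem hA (hdK j)
    refine ⟨∑ j, n j, ?_⟩
    rw [hd, Finset.smul_sum]
    refine sum_mem fun j _ => ?_
    have h1 : (p : Ω) ^ (∑ j, n j) * d j ∈ R0 A := by
      have h2 : ∑ j, n j = (∑ l ∈ Finset.univ.erase j, n l) + n j := by
        rw [Finset.sum_erase_add _ _ (Finset.mem_univ j)]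
      rw [h2, pow_add, mul_assoc]
      exact (R0 A).mul_mem ((R0 A).pow_mem (natCast_mem (R0 A) p) _) (hn j)
    rw [smul_smul]
    exact Subalgebra.smul_mem _ (b j).2 (⟨_, h1⟩ : R0 A)
  choose n hn using hden
  set N := ∑ i, n i with hN
  have hnN : ∀ i, (p : Ω) ^ N • (e i : V → Ω) ∈ maxH (actI (A := A) act) := by
    intro i
    have h2 : N = (∑ l ∈ Finset.univ.erase i, n l) + n i := by
      rw [Finset.sum_erase_add _ _ (Finset.mem_univ i)]
    rw [h2, pow_add, ← smul_smul]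
    have h3 : (p : Ω) ^ (∑ l ∈ Finset.univ.erase i, n l) ∈ R0 A :=
      (R0 A).pow_mem (natCast_mem (R0 A) p) _
    exact Subalgebra.smul_mem _ (hn i) (⟨_, h3⟩ : R0 A)
  choose q r hr hqr using fun i => exists_rat_approx hA hΦ (hcK i) (hcΦ i) (N + 1)
  have hy' : ∑ i, r i • ((p : Ω) ^ N • (e i : V → Ω)) ∈ maxH (actI (A := A) act) :=
    sum_mem fun i _ => Subalgebra.smul_mem _ (hnN i) (⟨r i, hr i⟩ : R0 A)
  have hsum : y = (∑ i, algebraMap ℚ Ω (q i) • (e i : V → Ω)) +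
      (p : Ω) • ∑ i, r i • ((p : Ω) ^ N • (e i : V → Ω)) := by
    conv_lhs => rw [hc]
    rw [Finset.smul_sum, ← Finset.sum_add_distrib]
    refine Finset.sum_congr rfl fun i _ => ?_
    rw [smul_smul, smul_smul, ← add_smul]
    congr 1
    have h1 := hqr i
    rw [sub_eq_iff_eq_add] at h1
    rw [h1, pow_succ]
    ring
  have hh : ∑ i, algebraMap ℚ Ω (q i) • (e i : V → Ω) ∈ dH A p hA act := by
    refine ⟨sum_mem fun i _ => ?_, ?_⟩
    · rw [algebraMap_smul]
      exact (EqF act).smul_mem (e i).2 (q i)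
    · have h1 : ∑ i, algebraMap ℚ Ω (q i) • (e i : V → Ω) =
          y - (p : Ω) • ∑ i, r i • ((p : Ω) ^ N • (e i : V → Ω)) := by
        rw [eq_sub_iff_add_eq]; exact hsum.symm
      rw [h1]
      exact sub_mem hy (Subalgebra.smul_mem _ hy' (⟨(p : Ω), natCast_mem (R0 A) p⟩ : R0 A))
  exact ⟨_, hh, _, hy', hsum⟩

include hA in
/-- the inverse of the Vandermonde matrix of Teichmüller elements -/
theorem exists_vandermonde {n : ℕ} (hn : 0 < n) (v : Fin n → A)
    (hv : ∀ i j : Fin n, i < j → ((v i : A) : Ω) - (v j : A) ∉ A.nonunits) :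
    ∃ c : Fin n → A, ∀ i : Fin n, ∑ j : Fin n, v i ^ (j : ℕ) * c j =
      if i = ⟨0, hn⟩ then 1 else 0 := by
  classical
  have hunit : ∀ i j : Fin n, i < j → IsUnit (v j - v i) := by
    intro i j hij
    have h1 := hv i j hij
    by_contra hcon
    apply h1
    have h2 : ((v j - v i : A) : Ω) ∈ A.nonunits := by
      rw [ValuationSubring.mem_nonunits_iff_exists_mem_maximalIdeal]
      exact ⟨(v j - v i).2, (IsLocalRing.mem_maximalIdeal _).2 hcon⟩
    have h3 := neg_mem_nonunits A h2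
    push_cast at h3
    rwa [neg_sub] at h3
  have hdet : IsUnit (Matrix.vandermonde v).det := by
    rw [Matrix.det_vandermonde, IsUnit.prod_univ_iff]
    intro i
    rw [IsUnit.prod_iff]
    intro j hj
    exact hunit i j (Finset.mem_Ioi.1 hj)
  refine ⟨(Matrix.vandermonde v)⁻¹.mulVec (Pi.single ⟨0, hn⟩ 1), fun i => ?_⟩
  have h1 : (Matrix.vandermonde v).mulVec
      ((Matrix.vandermonde v)⁻¹.mulVec (Pi.single ⟨0, hn⟩ 1)) = Pi.single ⟨0, hn⟩ 1 := by
    rw [Matrix.mulVec_mulVec, Matrix.mul_nonsing_inv _ hdet, Matrix.one_mulVec]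
  have h2 := congrFun h1 i
  rw [Matrix.mulVec, dotProduct] at h2
  simp only [Matrix.vandermonde_apply] at h2
  rw [h2, Pi.single_apply]

include h₀ hA G in
/-- every element of the maximal model is a combination of Frobenius invariant ones -/
theorem exists_frob_comb {Φ : 𝒢} (hΦ : IsFr A p Φ) {x : V → Ω}
    (hx : x ∈ maxH (actI (A := A) act)) :
    ∃ (n : ℕ) (c : Fin n → A) (T : Fin n → V → Ω),
      (∀ j, T j ∈ maxH (actI (A := A) act) ∧ tw act Φ (T j) = T j) ∧
      x = ∑ j, (c j : Ω) • T j := by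
  classical
  obtain ⟨n, hn, hnx⟩ := G.exists_tw_pow Φ x
  obtain ⟨ζ, hζ, hζn, hζd⟩ := exists_teich hA hΦ hn
  have hΦi : ∀ i : ℕ, Pres A (Φ ^ i) := by
    intro i
    induction i with
    | zero => intro z; rw [pow_zero]; rfl
    | succ i ih => rw [pow_succ]; exact ih.mul hΦ.1
  obtain ⟨c, hc⟩ := exists_vandermonde hA hn
    (fun i => ⟨(Φ ^ (i : ℕ)) ζ, (hΦi i ζ).2 hζ.1⟩) (fun i j hij => hζd i j hij j.2)
  let S : ℕ → ℕ → V → Ω := fun j i => tw act (Φ ^ i) (ζ ^ j • x)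
  have hζx : ∀ j : ℕ, ζ ^ j • x ∈ maxH (actI (A := A) act) := fun j =>
    Subalgebra.smul_mem _ hx (⟨ζ ^ j, (R0 A).pow_mem hζ j⟩ : R0 A)
  refine ⟨n, c, fun j => ∑ i ∈ Finset.range n, S j i, fun j => ⟨?_, ?_⟩, ?_⟩
  · exact sum_mem fun i _ => G.tw_mem_maxH (hΦi i) (hζx j)
  · rw [tw_sum]
    have h1 : ∀ i, tw act Φ (S j i) = S j (i + 1) := fun i => by
      change tw act Φ (tw act (Φ ^ i) _) = tw act (Φ ^ (i + 1)) _
      rw [← G.tw_tw, pow_succ']
    simp only [h1]
    have h2 := Finset.sum_range_succ (fun i => S j i) n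
    have h3 := Finset.sum_range_succ' (fun i => S j i) n
    have h4 : S j n = S j 0 := by
      change tw act (Φ ^ n) (ζ ^ (j : ℕ) • x) = tw act (Φ ^ 0) (ζ ^ (j : ℕ) • x)
      rw [tw_smul, map_pow, hζn, hnx, pow_zero, G.tw_one]
    rw [h2, h4] at h3
    exact (add_right_cancel h3).symm
  · have h1 : ∀ j : Fin n, ∑ i ∈ Finset.range n, S j i =
        ∑ i : Fin n, ((Φ ^ (i : ℕ)) ζ) ^ (j : ℕ) • tw act (Φ ^ (i : ℕ)) x := by
      intro j
      rw [Finset.sum_range]
      refine Finset.sum_congr rfl fun i _ => ?_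
      change tw act (Φ ^ (i : ℕ)) (ζ ^ (j : ℕ) • x) = _
      rw [tw_smul, map_pow]
    simp only [h1, Finset.smul_sum, smul_smul]
    rw [Finset.sum_comm]
    have h2 : ∀ i : Fin n, ∑ j : Fin n, ((c j : Ω) * ((Φ ^ (i : ℕ)) ζ) ^ (j : ℕ)) •
        tw act (Φ ^ (i : ℕ)) x = (if i = ⟨0, hn⟩ then (1 : Ω) else 0) •
        tw act (Φ ^ (i : ℕ)) x := by
      intro i
      rw [← Finset.sum_smul]
      congr 1
      have h3 := congrArg (fun a : A => (a : Ω)) (hc i)
      have h4 : (((if i = ⟨0, hn⟩ then 1 else 0 : A)) : Ω) =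
          if i = ⟨0, hn⟩ then (1 : Ω) else 0 := by split_ifs <;> rfl
      change _ = (((if i = ⟨0, hn⟩ then 1 else 0 : A)) : Ω) at h3
      rw [h4] at h3
      rw [← h3]
      push_cast
      exact Finset.sum_congr rfl fun j _ => mul_comm _ _
    simp only [h2]
    rw [Finset.sum_eq_single ⟨0, hn⟩]
    · rw [if_pos rfl, one_smul]
      change x = tw act (Φ ^ 0) x
      rw [pow_zero, G.tw_one]
    · intro i _ hi
      rw [if_neg hi, zero_smul]
    · intro h
      exact absurd (Finset.mem_univ _) h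

include h₀ hA G in
/-- **Descent**: the invariants span the maximal model -/
theorem maxH_le_span {x : V → Ω} (hx : x ∈ maxH (actI (A := A) act)) :
    x ∈ Submodule.span A (dH A p hA act : Set (V → Ω)) := by
  classical
  haveI := isPrincipalIdealRing_R0 hA
  have hM := isHopfFn_maxH h₀
  obtain ⟨Φ, hΦ⟩ := exists_isFr hA
  obtain ⟨κ, _, b, hb⟩ := hM.toIsFn.oInj
  set N := Submodule.span A (Set.range fun i => (b i : V → Ω)) with hN
  set N' := Submodule.span A (dH A p hA act : Set (V → Ω)) with hN'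
  have hMN : ∀ y ∈ maxH (actI (A := A) act), y ∈ N := by
    intro y hy
    have h1 := congrArg (fun s : maxH (actI (A := A) act) => (s : V → Ω)) (b.sum_repr ⟨y, hy⟩)
    simp only [AddSubmonoidClass.coe_finsetSum] at h1
    change _ = y at h1
    rw [← h1]
    refine Submodule.sum_mem _ fun i _ => ?_
    have h2 : ((b.repr ⟨y, hy⟩ i • b i : maxH (actI (A := A) act)) : V → Ω) =
        (⟨(b.repr ⟨y, hy⟩ i : Ω), (b.repr ⟨y, hy⟩ i).2.1⟩ : A) • (b i : V → Ω) := rfl
    rw [h2]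
    exact Submodule.smul_mem _ _ (Submodule.subset_span ⟨i, rfl⟩)
  have hfg : N.FG := Submodule.fg_span (Set.finite_range _)
  have hpm : (p : A) ∈ IsLocalRing.maximalIdeal A := by
    have h1 : ((p : A) : Ω) ∈ A.nonunits := by push_cast; exact hA
    rw [ValuationSubring.mem_nonunits_iff_exists_mem_maximalIdeal] at h1
    exact h1.2
  have hle : N ≤ N' ⊔ IsLocalRing.maximalIdeal A • N := by
    rw [hN, Submodule.span_le]
    rintro _ ⟨i, rfl⟩
    obtain ⟨n, c, T, hT, hsum⟩ := exists_frob_comb G hA h₀ hΦ (b i).2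
    change (b i : V → Ω) ∈ _
    rw [hsum]
    refine Submodule.sum_mem _ fun j _ => ?_
    have h2 : (c j : Ω) • T j = c j • T j := rfl
    rw [h2]
    refine Submodule.smul_mem _ _ ?_
    obtain ⟨h, hh, y', hy', hy⟩ := exists_approx G hA h₀ hΦ (hT j).1 (hT j).2
    rw [hy]
    refine Submodule.add_mem _ (Submodule.mem_sup_left (Submodule.subset_span hh))
      (Submodule.mem_sup_right ?_)
    have h3 : (p : Ω) • y' = (p : A) • y' := by
      change _ = ((p : A) : Ω) • y'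
      push_cast
      rfl
    rw [h3]
    exact Submodule.smul_mem_smul hpm (hMN y' hy')
  have h1 := Submodule.le_of_le_smul_of_le_jacobson_bot hfg
    (IsLocalRing.maximalIdeal_le_jacobson ⊥) hle
  exact h1 (hMN x hx)

end descent

end Fermat.Agent.FFG
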