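import Fermat.Agent.FFG.Desc3

/-!
# Descent of finite flat models from the strictly henselian base to `ℤ_(p)`, II
-/

set_option autoImplicit false
set_option linter.unusedSectionVars false
set_option linter.style.haveILetI false

noncomputable section

namespace Fermat.Agent.FFG

open Fermat.Agent.Flat Fermat.Agent.Places

local notation "Ω" => AlgebraicClosure ℚ

local notation "𝒢" => (AlgebraicClosure ℚ) ≃ₐ[ℚ] (AlgebraicClosure ℚ)

section base

variable {p : ℕ} [Fact p.Prime]

theorem algebraMap_ratLoc (r : GaloisRep.ratLocalizedAt p) :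
    algebraMap (GaloisRep.ratLocalizedAt p) Ω r = algebraMap ℚ Ω (r : ℚ) := rfl

/-- automorphisms over `ℤ_(p)` -/
def zq (γ : Ω ≃ₐ[GaloisRep.ratLocalizedAt p] Ω) : 𝒢 :=
  AlgEquiv.ofRingEquiv (f := γ.toRingEquiv) (fun r => by
    rw [eq_ratCast]
    exact map_ratCast γ.toRingEquiv r)

@[simp] theorem zq_apply (γ : Ω ≃ₐ[GaloisRep.ratLocalizedAt p] Ω) (x : Ω) : zq γ x = γ x := rfl

/-- automorphisms over `ℤ_(p)` -/
def qz (p : ℕ) (σ : 𝒢) : Ω ≃ₐ[GaloisRep.ratLocalizedAt p] Ω :=
  AlgEquiv.ofRingEquiv (f := σ.toRingEquiv) (fun r => σ.commutes (r : ℚ))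

@[simp] theorem qz_apply (σ : 𝒢) (x : Ω) : qz p σ x = σ x := rfl

theorem zq_qz (σ : 𝒢) : zq (qz p σ) = σ := AlgEquiv.ext fun _ => rfl

theorem ratLoc_ne_zero {n : ℕ} (hn : n ≠ 0) : (n : GaloisRep.ratLocalizedAt p) ≠ 0 := by
  intro h
  have := congrArg (fun z : GaloisRep.ratLocalizedAt p => (z : ℚ)) h
  push_cast at this
  exact hn (by exact_mod_cast this)

instance fixBaseZ : FixBase (GaloisRep.ratLocalizedAt p) Ω where
  inj := by
    intro x y h
    rw [algebraMap_ratLoc, algebraMap_ratLoc] at h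
    exact Subtype.ext ((algebraMap ℚ Ω).injective h)
  fix x h := by
    obtain ⟨q, hq⟩ := (InfiniteGalois.mem_range_algebraMap_iff_fixed (k := ℚ) x).2
      (fun σ => h (qz p σ))
    refine ⟨(q.num : GaloisRep.ratLocalizedAt p), (q.den : GaloisRep.ratLocalizedAt p),
      ratLoc_ne_zero q.den_ne_zero, ?_⟩
    rw [← hq, map_natCast, map_intCast]
    have h1 : (q.den : ℚ) * q = q.num := Rat.den_mul_eq_num q
    have h2 := congrArg (algebraMap ℚ Ω) h1
    rw [map_mul, map_natCast, map_intCast] at h2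
    exact h2

theorem mem_ratLoc_of_mem {A : ValuationSubring (AlgebraicClosure ℚ)} (hA : A.LiesOverPrime p)
    {q : ℚ} (hq : algebraMap ℚ Ω q ∈ A) : q ∈ GaloisRep.ratLocalizedAt p := by
  change q.den.Coprime p
  rw [Nat.coprime_comm, (Fact.out : p.Prime).coprime_iff_not_dvd]
  intro hd
  have h1 : ¬ p ∣ q.num.natAbs := by
    intro h2
    have h3 := Nat.dvd_gcd h2 hd
    have h4 : Nat.gcd q.num.natAbs q.den = 1 := q.reduced
    rw [h4] at h3
    exact (Fact.out : p.Prime).one_lt.ne' (Nat.dvd_one.1 h3)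
  apply natCast_notMem_nonunits hA h1
  have h5 : (q.den : Ω) ∈ A.nonunits := by
    obtain ⟨c, hc⟩ := hd
    rw [hc]
    push_cast
    exact mul_mem_nonunits A hA (natCast_mem A c)
  have h6 : (q.num : Ω) ∈ A.nonunits := by
    have h7 : (q.num : Ω) = (q.den : Ω) * algebraMap ℚ Ω q := by
      have h8 := congrArg (algebraMap ℚ Ω) (Rat.den_mul_eq_num q)
      rw [map_mul, map_natCast, map_intCast] at h8
      exact h8.symm
    rw [h7]
    exact mul_mem_nonunits A h5 hq
  rcases Int.natAbs_eq q.num with h | h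
  · have h9 : (q.num : Ω) = (q.num.natAbs : Ω) :=
      (congrArg (Int.cast : ℤ → Ω) h).trans (Int.cast_natCast _)
    rw [← h9]; exact h6
  · have h9 : (q.num : Ω) = -(q.num.natAbs : Ω) :=
      (congrArg (Int.cast : ℤ → Ω) h).trans (by rw [Int.cast_neg, Int.cast_natCast])
    have h10 := neg_mem_nonunits A h6
    rw [h9, neg_neg] at h10
    exact h10

instance isPrincipalIdealRing_ratLoc : IsPrincipalIdealRing (GaloisRep.ratLocalizedAt p) where
  principal I := by
    let J : Ideal ℤ := I.comap (Int.castRingHom _)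
    obtain ⟨g, hg⟩ := (IsPrincipalIdealRing.principal J).principal
    refine ⟨⟨(g : GaloisRep.ratLocalizedAt p), ?_⟩⟩
    apply le_antisymm
    · intro x hx
      rw [Submodule.mem_span_singleton]
      have hden : (x : ℚ).den.Coprime p := x.2
      have hd0 : ((x : ℚ).den : ℚ) ≠ 0 := by exact_mod_cast (x : ℚ).den_ne_zero
      have h1 : (x : ℚ).num ∈ J := by
        change (((x : ℚ).num : ℤ) : GaloisRep.ratLocalizedAt p) ∈ I
        have h2 : (((x : ℚ).num : ℤ) : GaloisRep.ratLocalizedAt p) =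
            ((x : ℚ).den : GaloisRep.ratLocalizedAt p) * x := by
          apply Subtype.ext
          push_cast
          exact (Rat.den_mul_eq_num (x : ℚ)).symm
        rw [h2]
        exact I.mul_mem_left _ hx
      rw [hg, Submodule.mem_span_singleton] at h1
      obtain ⟨a, ha⟩ := h1
      have hmem : ((a : ℚ) * ((x : ℚ).den : ℚ)⁻¹) ∈ GaloisRep.ratLocalizedAt p := by
        refine (GaloisRep.ratLocalizedAt p).mul_mem (intCast_mem _ a) ?_
        change (((x : ℚ).den : ℚ)⁻¹).den.Coprime p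
        rw [Rat.inv_natCast_den_of_pos (x : ℚ).den_pos]
        exact hden
      refine ⟨⟨_, hmem⟩, ?_⟩
      apply Subtype.ext
      change ((a : ℚ) * ((x : ℚ).den : ℚ)⁻¹) * ((g : GaloisRep.ratLocalizedAt p) : ℚ) = x
      push_cast
      have h3 : (a : ℚ) * g = ((x : ℚ).num : ℚ) := by
        rw [← ha, smul_eq_mul]
        push_cast
        rfl
      have h4 : (x : ℚ) = ((x : ℚ).num : ℚ) * ((x : ℚ).den : ℚ)⁻¹ := by
        conv_lhs => rw [← Rat.num_div_den (x : ℚ)]
        rw [div_eq_mul_inv]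
      conv_rhs => rw [h4, ← h3]
      ring
    · rw [Submodule.span_singleton_le_iff_mem]
      have h1 : g ∈ J := by
        rw [hg]; exact Submodule.mem_span_singleton_self g
      exact h1

end base

variable {V : Type} [AddCommGroup V] [Finite V] {act : 𝒢 → V → V} (G : GalMod V act)
  {A : ValuationSubring (AlgebraicClosure ℚ)} {p : ℕ} [Fact p.Prime]
  (hA : A.LiesOverPrime p)

include hA in
theorem isOverZ : IsOver (GaloisRep.ratLocalizedAt p) (algebraMap A Ω).range where
  fix := by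
    rintro _ ⟨x, rfl⟩ h
    obtain ⟨q, hq⟩ := (InfiniteGalois.mem_range_algebraMap_iff_fixed (k := ℚ) (x : Ω)).2
      (fun σ => h (qz p σ))
    exact ⟨⟨q, mem_ratLoc_of_mem hA (by rw [hq]; exact x.2)⟩, hq⟩

/-- the action over `ℤ_(p)` -/
def actZ (p : ℕ) [Fact p.Prime] (act : 𝒢 → V → V) :
    (Ω ≃ₐ[GaloisRep.ratLocalizedAt p] Ω) → V → V := fun γ => act (zq γ)

variable {H₀ : Subalgebra (R0 A) (V → Ω)} (h₀ : IsHopfFn (actI (A := A) act) H₀)

include h₀ G in
/-- **Descent of finite flat models to `ℤ_(p)`.** -/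
theorem isHopfFn_dH : IsHopfFn (actZ p act) (dH A p hA act) := by
  classical
  haveI := isPrincipalIdealRing_R0 hA
  have hM := isHopfFn_maxH h₀
  have hequiv : ∀ x ∈ dH A p hA act, ∀ (γ : Ω ≃ₐ[GaloisRep.ratLocalizedAt p] Ω) (P : V),
      x (actZ p act γ P) = γ (x P) := fun x hx γ P => hx.1 (zq γ) P
  have hfn : IsFn (actZ p act) (dH A p hA act) := by
    refine ⟨fun x hx P => ?_, hequiv, fun P Q h => ?_⟩
    · refine isIntegral_of_equiv (isOverZ hA) (act := actZ p act) (fun γ => G.bij (zq γ)) (f := x)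
        (fun P => ?_) (hequiv x hx) P
      have h1 := hM.int x hx.2 P
      have h3 : IsIntegral A (x P) := by
        obtain ⟨q, hq, hq0⟩ := h1
        let i : R0 A →+* A := ⟨⟨⟨fun r => ⟨r, r.2.1⟩, rfl⟩, fun _ _ => rfl⟩, rfl, fun _ _ => rfl⟩
        refine ⟨q.map i, hq.map i, ?_⟩
        rw [Polynomial.eval₂_map]
        exact hq0
      obtain ⟨a, ha⟩ := IsIntegrallyClosed.isIntegral_iff.1 h3
      exact ⟨a, ha⟩
    · refine hM.sep P Q fun x hx => ?_
      have h1 := maxH_le_span G hA h₀ hx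
      clear hx
      induction h1 using Submodule.span_induction with
      | mem y hy => exact h y hy
      | zero => rfl
      | add x y _ _ hx hy => rw [Pi.add_apply, Pi.add_apply, hx, hy]
      | smul a x _ hx => rw [Pi.smul_apply, Pi.smul_apply, hx]
  obtain ⟨ι, _, b, hb⟩ := hfn.oInj
  change LinearIndependent Ω (fun i => (b i : V → Ω)) at hb
  have hbfix : ∀ i (σ : 𝒢) P, (b i : V → Ω) (act σ P) = σ ((b i : V → Ω) P) := fun i =>
    (b i).2.1
  -- coordinates of elements of the maximal model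
  have hcoord : ∀ x ∈ maxH (actI (A := A) act), ∃ a : ι → A,
      ∀ P, x P = ∑ i, (a i : Ω) * (b i : V → Ω) P := by
    intro x hx
    have h1 := maxH_le_span G hA h₀ hx
    clear hx
    induction h1 using Submodule.span_induction with
    | mem y hy =>
      refine ⟨fun i => ⟨algebraMap (GaloisRep.ratLocalizedAt p) Ω (b.repr ⟨y, hy⟩ i),
        (ratLoc_mem hA _).1⟩, fun P => ?_⟩
      have h2 := congrArg (fun s : dH A p hA act => (s : V → Ω) P) (b.sum_repr ⟨y, hy⟩)
      simp only [AddSubmonoidClass.coe_finsetSum, Finset.sum_apply] at h2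
      refine h2.symm.trans (Finset.sum_congr rfl fun i _ => ?_)
      change (b.repr ⟨y, hy⟩ i • (b i : V → Ω)) P = _
      rw [Pi.smul_apply, Algebra.smul_def]
    | zero => exact ⟨0, fun P => by simp⟩
    | add x y _ _ hx hy =>
      obtain ⟨a, ha⟩ := hx
      obtain ⟨a', ha'⟩ := hy
      refine ⟨a + a', fun P => ?_⟩
      rw [Pi.add_apply, ha, ha', ← Finset.sum_add_distrib]
      refine Finset.sum_congr rfl fun i _ => ?_
      rw [Pi.add_apply]
      push_cast
      ring
    | smul r x _ hx =>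
      obtain ⟨a, ha⟩ := hx
      refine ⟨r • a, fun P => ?_⟩
      change (r : Ω) * x P = _
      rw [ha, Finset.mul_sum]
      refine Finset.sum_congr rfl fun i _ => ?_
      change (r : Ω) * _ = ((r * a i : A) : Ω) * _
      push_cast
      ring
  refine ⟨hfn, fun γ => G.zero (zq γ), fun x hx => ?_⟩
  -- the comultiplication
  have h1 := hM.comul x hx.2
  have h2 : ∀ g ∈ Submodule.span (R0 A)
      {f : V × V → Ω | ∃ y ∈ maxH (actI (A := A) act), ∃ z ∈ maxH (actI (A := A) act),
        f = fun p => y p.1 * z p.2},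
      ∃ a : ι → ι → A, ∀ P Q, g (P, Q) = ∑ i, ∑ j, (a i j : Ω) *
        ((b i : V → Ω) P * (b j : V → Ω) Q) := by
    intro g hg
    induction hg using Submodule.span_induction with
    | mem g hg =>
      obtain ⟨y, hy, z, hz, rfl⟩ := hg
      obtain ⟨a, ha⟩ := hcoord y hy
      obtain ⟨a', ha'⟩ := hcoord z hz
      refine ⟨fun i j => a i * a' j, fun P Q => ?_⟩
      change y P * z Q = _
      rw [ha, ha', Finset.sum_mul_sum]
      refine Finset.sum_congr rfl fun i _ => Finset.sum_congr rfl fun j _ => ?_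
      push_cast
      ring
    | zero => exact ⟨0, fun P Q => by simp⟩
    | add f g _ _ hf hg =>
      obtain ⟨a, ha⟩ := hf
      obtain ⟨a', ha'⟩ := hg
      refine ⟨a + a', fun P Q => ?_⟩
      rw [Pi.add_apply, ha, ha', ← Finset.sum_add_distrib]
      refine Finset.sum_congr rfl fun i _ => ?_
      rw [← Finset.sum_add_distrib]
      refine Finset.sum_congr rfl fun j _ => ?_
      rw [Pi.add_apply, Pi.add_apply]
      push_cast
      ring
    | smul r f _ hf =>
      obtain ⟨a, ha⟩ := hf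
      refine ⟨fun i j => (⟨(r : Ω), r.2.1⟩ : A) * a i j, fun P Q => ?_⟩
      change (r : Ω) * f (P, Q) = _
      rw [ha, Finset.mul_sum]
      refine Finset.sum_congr rfl fun i _ => ?_
      rw [Finset.mul_sum]
      refine Finset.sum_congr rfl fun j _ => ?_
      push_cast
      ring
  obtain ⟨a, ha⟩ := h2 _ h1
  change ∀ P Q, x (P + Q) = _ at ha
  -- uniqueness of the coefficients
  have huniq : ∀ d d' : ι → ι → Ω, (∀ P Q, ∑ i, ∑ j, d i j * ((b i : V → Ω) P * (b j : V → Ω) Q) =
      ∑ i, ∑ j, d' i j * ((b i : V → Ω) P * (b j : V → Ω) Q)) → d = d' := by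
    intro d d' h
    have h3 : ∀ Q, ∀ i, ∑ j, (d i j - d' i j) * (b j : V → Ω) Q = 0 := by
      intro Q
      refine Fintype.linearIndependent_iff.1 hb _ ?_
      funext P
      have h4 := h P Q
      rw [← sub_eq_zero, ← Finset.sum_sub_distrib] at h4
      rw [Finset.sum_apply, Pi.zero_apply, ← h4]
      refine Finset.sum_congr rfl fun i _ => ?_
      rw [Pi.smul_apply, smul_eq_mul, Finset.sum_mul, ← Finset.sum_sub_distrib]
      exact Finset.sum_congr rfl fun j _ => by ring
    funext i j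
    refine sub_eq_zero.1 (Fintype.linearIndependent_iff.1 hb (fun j => d i j - d' i j) ?_ j)
    funext Q
    rw [Finset.sum_apply, Pi.zero_apply]
    exact h3 Q i
  have hfix : ∀ (σ : 𝒢) i j, σ (a i j : Ω) = a i j := by
    intro σ i j
    have h3 := huniq (fun i j => σ (a i j : Ω)) (fun i j => (a i j : Ω)) (fun P Q => by
      have h4 := congrArg σ (ha (act σ⁻¹ P) (act σ⁻¹ Q))
      rw [← G.add, ← hx.1, G.act_inv, ha P Q, map_sum] at h4
      rw [h4]
      refine Finset.sum_congr rfl fun i _ => ?_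
      rw [map_sum]
      refine Finset.sum_congr rfl fun j _ => ?_
      rw [map_mul, map_mul, ← hbfix, ← hbfix, G.act_inv, G.act_inv])
    exact congrFun (congrFun h3 i) j
  choose r hr using fun i j => (isOverZ (p := p) hA).fix (a i j : Ω) ⟨a i j, rfl⟩
    (fun σ => hfix (zq σ) i j)
  have hfin : (fun q : V × V => x (q.1 + q.2)) = ∑ i, ∑ j, r i j •
      fun q : V × V => (b i : V → Ω) q.1 * (b j : V → Ω) q.2 := by
    funext q
    rw [ha q.1 q.2, Finset.sum_apply]
    refine Finset.sum_congr rfl fun i _ => ?_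
    rw [Finset.sum_apply]
    refine Finset.sum_congr rfl fun j _ => ?_
    rw [Pi.smul_apply, Algebra.smul_def, hr]
  rw [hfin]
  exact Submodule.sum_mem _ fun i _ => Submodule.sum_mem _ fun j _ => Submodule.smul_mem _ _
    (Submodule.subset_span ⟨_, (b i).2, _, (b j).2, rfl⟩)

include G hA h₀ in
/-- **Finite flat models over `ℤ_(p)`** from finite flat models over the strict henselisation. -/
theorem exists_hopf_Z : ∃ (B : Type) (_ : CommRing B) (_ : HopfAlgebra (GaloisRep.ratLocalizedAt p) B),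
    Module.Finite (GaloisRep.ratLocalizedAt p) B ∧ Module.Flat (GaloisRep.ratLocalizedAt p) B ∧
      Coalgebra.IsCocomm (GaloisRep.ratLocalizedAt p) B ∧
      ∃ e : WithConv (B →ₐ[GaloisRep.ratLocalizedAt p] Ω) ≃ V,
        (∀ f g, e (f * g) = e f + e g) ∧
        ∀ (σ : 𝒢) (f g : WithConv (B →ₐ[GaloisRep.ratLocalizedAt p] Ω)),
          (∀ h, g h = σ (f h)) → e g = act σ (e f) := by
  obtain ⟨B, i1, i2, h1, h2, h3, e, he, hact⟩ := (isHopfFn_dH G hA h₀).exists_hopf
  exact ⟨B, i1, i2, h1, h2, h3, e, he, fun σ f g h => by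
    rw [hact (qz p σ) f g h, actZ, zq_qz]⟩

end Fermat.Agent.FFG
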