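import Fermat.Agent.FFG.Lift
import Fermat.Agent.Red.Gauss

/-!
# Discreteness of the Gauss norm on fixed elements
-/

set_option autoImplicit false
set_option linter.unusedSectionVars false
set_option linter.style.haveILetI false

noncomputable section

namespace Fermat.Agent.FFG

open Fermat.Agent.Red Module Polynomial

variable {A K F k R : Type*} [CommRing A] [IsDomain A] [ValuationRing A]
  [Field K] [Algebra A K] [IsFractionRing A K] [Field F] [Algebra K F] [Algebra A F]
  [IsScalarTower A K F] [Field k] [Algebra A k] [CommRing R] [Algebra k R] [Algebra A R]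
  [IsScalarTower A k R]

theorem gauss_disc {ι : Type*} [Fintype ι] (G : GaussData A K F k R ι)
    (hk : Function.Surjective (algebraMap A k))
    (hspan : ∀ x : F, ∃ q : K[X], q ≠ 0 ∧ ∃ P : ι → K[X], aeval G.t q * x = G.comb P)
    {Γ : Type*} (γK : Γ → K →+* K) (ρ : Γ → F →+* F)
    (hρ : ∀ γ (a : K), ρ γ (algebraMap K F a) = algebraMap K F (γK γ a))
    (ht : ∀ γ, ρ γ G.t = G.t) (hy : ∀ γ i, ρ γ (G.y i) = G.y i) (ϖ : A)
    (hϖ : ∀ a : A, algebraMap A k a = 0 → (∀ γ, γK γ (algebraMap A K a) = algebraMap A K a) →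
      ϖ ∣ a)
    (x : G.W) (hx : ∀ γ, ρ γ (x : F) = x) (h0 : G.π x = 0) : ∃ y : G.W, x = ϖ • y := by
  classical
  obtain ⟨q, hq, P, hP⟩ := hspan (x : F)
  obtain ⟨N, hNq, hNP⟩ : ∃ N : ℕ, q.natDegree < N ∧ ∀ i, (P i).natDegree < N := by
    refine ⟨q.natDegree + 1 + ∑ i, ((P i).natDegree + 1), by omega, fun i => ?_⟩
    have : (P i).natDegree + 1 ≤ ∑ i, ((P i).natDegree + 1) :=
      Finset.single_le_sum (f := fun i => (P i).natDegree + 1) (fun _ _ => Nat.zero_le _)
        (Finset.mem_univ i)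
    omega
  -- the relations
  let v : Option ι × Fin N → F := fun a => a.1.elim (G.t ^ (a.2 : ℕ) * (x : F))
    fun i => -(G.t ^ (a.2 : ℕ) * G.y i)
  have hvfix : ∀ γ a, ρ γ (v a) = v a := by
    rintro γ ⟨_ | i, e⟩
    · change ρ γ (G.t ^ (e : ℕ) * (x : F)) = _
      rw [map_mul, map_pow, ht, hx]; rfl
    · change ρ γ (-(G.t ^ (e : ℕ) * G.y i)) = _
      rw [map_neg, map_mul, map_pow, ht, hy]; rfl
  let L : Submodule K (Option ι × Fin N → K) := LinearMap.ker (Fintype.linearCombination K v)
  have hL : ∀ c, c ∈ L ↔ ∑ a, c a • v a = 0 := fun c => by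
    rw [LinearMap.mem_ker, Fintype.linearCombination_apply]
  have hsum : ∀ c : Option ι × Fin N → K, ∑ a, c a • v a =
      (∑ e : Fin N, c (none, e) • G.t ^ (e : ℕ)) * (x : F) -
        ∑ i, (∑ e : Fin N, c (some i, e) • G.t ^ (e : ℕ)) * G.y i := by
    intro c
    rw [Fintype.sum_prod_type, Fintype.sum_option, sub_eq_add_neg, ← Finset.sum_neg_distrib,
      Finset.sum_mul]
    congr 1
    · exact Finset.sum_congr rfl fun e _ => by rw [smul_mul_assoc]; rfl
    · refine Finset.sum_congr rfl fun i _ => ?_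
      rw [Finset.sum_mul, ← Finset.sum_neg_distrib]
      exact Finset.sum_congr rfl fun e _ => by rw [smul_mul_assoc, ← smul_neg]; rfl
  have haeval : ∀ p : K[X], p.natDegree < N →
      ∑ e : Fin N, p.coeff (e : ℕ) • G.t ^ (e : ℕ) = aeval G.t p := by
    intro p hp
    rw [aeval_eq_sum_range' hp, Finset.sum_range]
  let c0 : Option ι × Fin N → K := fun a => a.1.elim (q.coeff (a.2 : ℕ)) fun i => (P i).coeff (a.2 : ℕ)
  have hc0 : c0 ∈ L := by
    rw [hL, hsum]
    change (∑ e : Fin N, q.coeff (e : ℕ) • G.t ^ (e : ℕ)) * (x : F) -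
      ∑ i, (∑ e : Fin N, (P i).coeff (e : ℕ) • G.t ^ (e : ℕ)) * G.y i = 0
    rw [haeval q hNq, hP, sub_eq_zero]
    exact Finset.sum_congr rfl fun i _ => by rw [haeval (P i) (hNP i)]
  obtain ⟨f, hfL, hffix, hfi⟩ := exists_fixed_basis (fun a => LinearMap.proj a)
    (fun c h => _root_.funext h) γK (fun γ (c : Option ι × Fin N → K) a => γK γ (c a)) (fun γ a c => rfl) L (by
      intro γ c hc
      rw [hL] at hc ⊢
      have h1 := congrArg (ρ γ) hc
      rw [map_sum, map_zero] at h1
      rw [← h1]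
      refine Finset.sum_congr rfl fun a _ => ?_
      rw [Algebra.smul_def, Algebra.smul_def, map_mul, hρ, hvfix])
  let f' : Fin (finrank K L) → L := fun i => ⟨f i, hfL i⟩
  have hf'i : LinearIndependent K f' := LinearIndependent.of_comp L.subtype hfi
  have hspan' : Submodule.span K (Set.range f') = ⊤ :=
    hf'i.span_eq_top_of_card_eq_finrank' (by rw [Fintype.card_fin])
  obtain ⟨j, e, hje⟩ : ∃ j e, f j (none, e) ≠ 0 := by
    by_contra hcon
    push Not at hcon
    apply hq
    ext e
    rw [coeff_zero]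
    by_cases he : e < N
    · obtain ⟨b, hb⟩ := (Submodule.mem_span_range_iff_exists_fun K).1
        (show (⟨c0, hc0⟩ : L) ∈ Submodule.span K (Set.range f') by rw [hspan']; trivial)
      have h1 := congrFun (congrArg Subtype.val hb) (none, ⟨e, he⟩)
      rw [AddSubmonoidClass.coe_finsetSum, Finset.sum_apply] at h1
      refine Eq.trans (h1.symm : q.coeff e = _) ?_
      refine Finset.sum_eq_zero fun i _ => ?_
      change b i * f i (none, ⟨e, he⟩) = 0
      rw [hcon, mul_zero]
    · exact coeff_eq_zero_of_natDegree_lt (by omega)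
  let c := f j
  have hcfix : ∀ γ a, γK γ (c a) = c a := fun γ a => congrFun (hffix γ j) a
  have hcL := hfL j
  rw [hL, hsum, sub_eq_zero] at hcL
  -- normalise
  obtain ⟨e0, he0, ha⟩ := exists_unit_scale (A := A) (fun e => c (none, e))
    (fun h => hje (congrFun h e))
  choose a ha using ha
  let qA : A[X] := ∑ e : Fin N, C (a e) * X ^ (e : ℕ)
  have hqc : ∀ e : Fin N, qA.coeff (e : ℕ) = a e := by
    intro e
    simp only [qA, finsetSum_coeff, coeff_C_mul, coeff_X_pow]
    rw [Finset.sum_eq_single e]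
    · simp
    · intro e' _ he'
      rw [if_neg (fun h => he' (Fin.ext h.symm)), mul_zero]
    · intro h; exact absurd (Finset.mem_univ _) h
  have hqA : qA.map (algebraMap A k) ≠ 0 := by
    intro h
    have h1 := congrArg (fun p => coeff p (e0 : ℕ)) h
    simp only [coeff_map, coeff_zero, hqc] at h1
    have h2 : a e0 = 1 := IsFractionRing.injective A K (by rw [ha, div_self he0, map_one])
    rw [h2, map_one] at h1
    exact one_ne_zero h1
  let PK : ι → K[X] := fun i => ∑ e : Fin N, C (c (some i, e) / c (none, e0)) * X ^ (e : ℕ)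
  have hPc : ∀ i (n : ℕ), (PK i).coeff n = if h : n < N then c (some i, ⟨n, h⟩) / c (none, e0) else 0 := by
    intro i n
    simp only [PK, finsetSum_coeff, coeff_C_mul, coeff_X_pow]
    by_cases hn : n < N
    · rw [dif_pos hn, Finset.sum_eq_single ⟨n, hn⟩]
      · simp
      · intro e' _ he'
        rw [if_neg (fun h => he' (Fin.ext h.symm)), mul_zero]
      · intro h; exact absurd (Finset.mem_univ _) h
    · rw [dif_neg hn]
      refine Finset.sum_eq_zero fun e' _ => ?_
      rw [if_neg (fun h => hn (by rw [h]; exact e'.2)), mul_zero]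
  have hrel : aeval G.t qA * (x : F) = G.comb PK := by
    have h1 : aeval G.t qA = algebraMap K F (c (none, e0))⁻¹ *
        ∑ e : Fin N, c (none, e) • G.t ^ (e : ℕ) := by
      simp only [qA, map_sum, map_mul, aeval_C, map_pow, aeval_X, Finset.mul_sum]
      refine Finset.sum_congr rfl fun e _ => ?_
      rw [IsScalarTower.algebraMap_apply A K F, ha, Algebra.smul_def, ← mul_assoc, ← map_mul,
        div_eq_inv_mul]
    have h2 : ∀ i, aeval G.t (PK i) = algebraMap K F (c (none, e0))⁻¹ *
        ∑ e : Fin N, c (some i, e) • G.t ^ (e : ℕ) := by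
      intro i
      simp only [PK, map_sum, map_mul, aeval_C, map_pow, aeval_X, Finset.mul_sum]
      refine Finset.sum_congr rfl fun e _ => ?_
      rw [Algebra.smul_def, ← mul_assoc, ← map_mul, div_eq_inv_mul]
    rw [h1, mul_assoc, hcL, GaussData.comb, Finset.mul_sum]
    exact Finset.sum_congr rfl fun i _ => by rw [h2, mul_assoc]
  obtain ⟨Q, hQ⟩ := G.exists_of_mem hk x.2 hqA hrel
  have hW : (aeval (⟨G.t, G.ht⟩ : G.W) qA * x) = G.combW Q := by
    apply Subtype.ext
    rw [MulMemClass.coe_mul, G.coe_aeval, hrel, G.coe_combW]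
    congr 1
    funext i
    exact hQ i
  have hQ0 : ∀ i, (Q i).map (algebraMap A k) = 0 := by
    intro i
    apply G.eq_zero_of_π_combW
    rw [← hW, map_mul, h0, mul_zero]
  have hdvd : ∀ i, C ϖ ∣ Q i := by
    intro i
    rw [C_dvd_iff_dvd_coeff]
    intro n
    apply hϖ
    · have h1 := congrArg (fun p => coeff p n) (hQ0 i)
      simpa only [coeff_map, coeff_zero] using h1
    · intro γ
      have h1 : algebraMap A K ((Q i).coeff n) = (PK i).coeff n := by rw [hQ, coeff_map]
      rw [h1, hPc]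
      split_ifs with h
      · rw [map_div₀, hcfix, hcfix]
      · rw [map_zero]
  choose Q' hQ' using hdvd
  obtain ⟨u, hu⟩ := G.isUnit_aeval hqA
  refine ⟨(↑u⁻¹ : G.W) * G.combW Q', ?_⟩
  have h1 : G.combW Q = ϖ • G.combW Q' := by
    simp only [GaussData.combW, Finset.smul_sum]
    refine Finset.sum_congr rfl fun i _ => ?_
    rw [hQ' i, map_mul, aeval_C, Algebra.smul_def, mul_assoc]
  have h2 : x = (↑u⁻¹ : G.W) * (aeval (⟨G.t, G.ht⟩ : G.W) qA * x) := by
    rw [← mul_assoc, ← hu, Units.inv_mul, one_mul]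
  rw [h2, hW, h1, mul_smul_comm]

end Fermat.Agent.FFG
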