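import Fermat.Agent.FFG.Ring
import Fermat.Agent.Spec.Transport
import Fermat.Agent.Spec.NormRed

/-!
# Ideals of divisors in the ring of functions regular outside one place
-/

set_option autoImplicit false
set_option linter.unusedSectionVars false
set_option linter.style.haveILetI false

noncomputable section

namespace Fermat.Agent.FFG

open AlgebraicCurve Fermat.Agent.RR Fermat.Agent.Curve Fermat.Agent.Red Fermat.Agent.Spec

section one

variable {K F : Type*} [Field K] [IsAlgClosed K] [Field F] [Algebra K F] [FunField K F]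

/-- functions vanishing along `E` outside `v` -/
def II (v : Place K F) (E : Divisor K F) : Submodule K F where
  carrier := {x | ∀ w, w ≠ v → Ge w (E w) x}
  zero_mem' := fun w _ => Ge.zero _ _
  add_mem' := fun ha hb w hw => (ha w hw).add (hb w hw)
  smul_mem' := fun c _ hx w hw => (hx w hw).smul c

variable {v : Place K F} {E E' : Divisor K F}

theorem mem_II {x : F} : x ∈ II v E ↔ ∀ w, w ≠ v → Ge w (E w) x := Iff.rfl

theorem L_le_II (m : ℤ) : riemannRochSpace (Finsupp.single v m - E) ≤ II v E := by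
  classical
  intro x hx w hw
  have := mem_L.1 hx w
  rw [Finsupp.sub_apply, Finsupp.single_eq_of_ne hw] at this
  simpa using this

theorem II_mono (h : E ≤ E') : II v E' ≤ II v E := fun _ hx w hw => (hx w hw).mono (h w)

theorem exists_mem_L_of_II {x : F} (hx : x ∈ II v E) :
    ∃ m : ℕ, ∀ n : ℤ, (m : ℤ) ≤ n → x ∈ riemannRochSpace (Finsupp.single v n - E) := by
  classical
  rcases eq_or_ne x 0 with rfl | hx0
  · exact ⟨0, fun n _ => zero_mem _⟩
  refine ⟨(E v - v.ord x).toNat, fun n hn => ?_⟩
  rw [mem_L]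
  intro w
  by_cases hw : w = v
  · subst hw
    refine Ge.of_le ?_
    rw [Finsupp.sub_apply, Finsupp.single_eq_same]
    have := Int.self_le_toNat (E w - w.ord x)
    omega
  · rw [Finsupp.sub_apply, Finsupp.single_eq_of_ne hw]
    simpa using hx w hw

theorem mul_mem_II {x y : F} (hx : x ∈ II v E) (hy : y ∈ II v E') : x * y ∈ II v (E + E') :=
  fun w hw => (hx w hw).mul (hy w hw)

theorem mul_mem_II_left {x y : F} (hx : x ∈ II v E) (hy : y ∈ II v 0) : x * y ∈ II v E := by
  have := mul_mem_II hx hy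
  rwa [add_zero] at this

theorem one_mem_II : (1 : F) ∈ II v 0 := fun w _ => Ge.one w

theorem algebraMap_mem_II (a : K) : algebraMap K F a ∈ II v 0 := fun w _ => Ge.algebraMap w a

theorem mem_L_of_mem_II {x : F} (hx : x ∈ II v E) {n : ℤ} (hn : Ge v (E v - n) x) :
    x ∈ riemannRochSpace (Finsupp.single v n - E) := by
  classical
  rw [mem_L]
  intro w
  by_cases hw : w = v
  · subst hw
    rw [Finsupp.sub_apply, Finsupp.single_eq_same]
    exact hn.mono (by omega)
  · rw [Finsupp.sub_apply, Finsupp.single_eq_of_ne hw]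
    simpa using hx w hw

end one

variable {A K F k R : Type*} [CommRing A] [IsDomain A] [ValuationRing A]
  [Field K] [Algebra A K] [IsFractionRing A K] [Field F] [Algebra K F] [Algebra A F]
  [IsScalarTower A K F] [Field k] [Algebra A k] [Field R] [Algebra k R] [Algebra A R]
  [IsScalarTower A k R]

/-- scale a nonzero family so that it is integral with a coefficient `1` -/
theorem exists_unit_scale {ι : Type*} [Finite ι] (c : ι → K) (hc : c ≠ 0) :
    ∃ i, c i ≠ 0 ∧ ∀ j, ∃ a : A, algebraMap A K a = c j / c i := by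
  classical
  haveI := Fintype.ofFinite ι
  let s : Finset ι := Finset.univ.filter fun i => c i ≠ 0
  have hs : s.Nonempty := by
    obtain ⟨i, hi⟩ := Function.ne_iff.1 hc
    exact ⟨i, Finset.mem_filter.2 ⟨Finset.mem_univ i, hi⟩⟩
  obtain ⟨i, hi, h⟩ := exists_max_scale (A := A) s hs (fun i => (c i)⁻¹)
    (fun i hi => inv_ne_zero (Finset.mem_filter.1 hi).2)
  have hi' := (Finset.mem_filter.1 hi).2
  refine ⟨i, hi', fun j => ?_⟩
  by_cases hj : c j = 0
  · exact ⟨0, by rw [hj, zero_div, map_zero]⟩
  · obtain ⟨a, ha⟩ := h j (Finset.mem_filter.2 ⟨Finset.mem_univ j, hj⟩)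
    refine ⟨a, ?_⟩
    have : (c i)⁻¹ = algebraMap A K a * (c j)⁻¹ := ha
    rw [div_eq_mul_inv, this]
    field_simp

/-- A valuation ring with surjective map to a field: units. -/
theorem isUnit_of_ne (hk : Function.Surjective (algebraMap A k)) (a : A)
    (ha : algebraMap A k a ≠ 0) : IsUnit a := by
  haveI : IsLocalHom (algebraMap A k) := IsLocalHom.of_surjective _ hk
  exact isUnit_of_map_unit (algebraMap A k) a ha.isUnit

theorem coe_smul_W {M : RedModel A K F k R} (a : A) (x : M.W) : ((a • x : M.W) : F) = algebraMap A K a • (x : F) := by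
  rw [algebraMap_smul]; rfl

theorem coe_sum_smul {M : RedModel A K F k R} {ι : Type*} [Fintype ι] (a : ι → A) (x : ι → M.W) :
    ((∑ j, a j • x j : M.W) : F) = ∑ j, algebraMap A K (a j) • (x j : F) := by
  push_cast
  exact Finset.sum_congr rfl fun j _ => coe_smul_W _ _

theorem π_sum_smul {M : RedModel A K F k R} {ι : Type*} [Fintype ι] (a : ι → A) (x : ι → M.W) :
    M.π (∑ j, a j • x j) = ∑ j, algebraMap A k (a j) • M.π (x j) := by
  rw [map_sum]
  refine Finset.sum_congr rfl fun j _ => ?_
  rw [map_smul, algebraMap_smul]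

variable [IsAlgClosed K] [IsAlgClosed k] [FunField K F] [FunField k R]
  {M : RedModel A K F k R} {hk : Function.Surjective (algebraMap A k)}
  (𝓓 : DivRed A K F k R M hk) {v : Place K F} {w : Place k R}
  (hv : 𝓓.r (Finsupp.single v 1) = Finsupp.single w 1)

include hv in
theorem r_single_n (n : ℤ) : 𝓓.r (Finsupp.single v n) = Finsupp.single w n := by
  have h1 : (Finsupp.single v n : Divisor K F) = n • Finsupp.single v 1 := by
    rw [Finsupp.smul_single, smul_eq_mul, mul_one]
  have h2 : (Finsupp.single w n : Divisor k R) = n • Finsupp.single w 1 := by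
    rw [Finsupp.smul_single, smul_eq_mul, mul_one]
  rw [h1, h2, map_zsmul, hv]

include 𝓓 hv in
theorem π_mem_II {x : M.W} {E : Divisor K F} (hxE : (x : F) ∈ II v E) :
    M.π x ∈ II w (𝓓.r E) := by
  obtain ⟨m, hm⟩ := exists_mem_L_of_II hxE
  have h1 := 𝓓.π_mem x.2 (hm m le_rfl)
  rw [map_sub, r_single_n 𝓓 hv] at h1
  exact L_le_II _ h1

include 𝓓 hv in
theorem exists_lift_II {y : R} {E : Divisor K F} (hy : y ∈ II w (𝓓.r E)) :
    ∃ x : M.W, (x : F) ∈ II v E ∧ M.π x = y := by
  obtain ⟨m, hm⟩ := exists_mem_L_of_II hy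
  obtain ⟨c, hc⟩ := 𝓓.rd_eq
  let n : ℤ := max m (c + Divisor.degree E)
  have h1 := hm n (le_max_left _ _)
  have h2 := hc (Finsupp.single v n - E) (by
    rw [map_sub, degree_single']
    have : c + Divisor.degree E ≤ n := le_max_right _ _
    omega)
  rw [map_sub, r_single_n 𝓓 hv] at h2
  rw [← h2] at h1
  obtain ⟨x, hx, hxy⟩ := h1
  exact ⟨⟨x, hx.1⟩, L_le_II _ hx.2, hxy⟩

/-- A family of integral functions giving a basis modulo the ideal of `E`, also after
reduction. -/
structure Comp {ι : Type*} [Fintype ι] (v : Place K F) (w : Place k R) (E : Divisor K F)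
    (ws : ι → M.W) : Prop where
  nonneg : 0 ≤ E
  deg : Divisor.degree E = Fintype.card ι
  reg : ∀ j, (ws j : F) ∈ II v 0
  ind : ∀ c : ι → k, ∑ j, c j • M.π (ws j) ∈ II w (𝓓.r E) → c = 0

namespace Comp

variable {ι : Type*} [Fintype ι] {E : Divisor K F} {ws : ι → M.W} {𝓓} (hc : Comp 𝓓 v w E ws)

include hc hv in
theorem unique {c : ι → K} (h : ∑ j, c j • (ws j : F) ∈ II v E) : c = 0 := by
  by_contra hc0
  obtain ⟨i, hi, ha⟩ := exists_unit_scale (A := A) c hc0
  choose a ha using ha
  have h1 : ((∑ j, a j • ws j : M.W) : F) ∈ II v E := by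
    rw [coe_sum_smul]
    have : ∑ j, algebraMap A K (a j) • (ws j : F) = (c i)⁻¹ • ∑ j, c j • (ws j : F) := by
      rw [Finset.smul_sum]
      refine Finset.sum_congr rfl fun j _ => ?_
      rw [ha, smul_smul, div_eq_inv_mul]
    rw [this]
    exact Submodule.smul_mem _ _ h
  have h2 := π_mem_II 𝓓 hv h1
  rw [π_sum_smul] at h2
  have h3 := congrFun (hc.ind _ h2) i
  have h4 : a i = 1 := IsFractionRing.injective A K (by rw [ha, div_self hi, map_one])
  rw [h4, map_one] at h3
  exact one_ne_zero h3

include hc hv in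
theorem unique' {c c' : ι → A} {b : F} (h : b - ((∑ j, c j • ws j : M.W) : F) ∈ II v E)
    (h' : b - ((∑ j, c' j • ws j : M.W) : F) ∈ II v E) : c = c' := by
  have h1 := Submodule.sub_mem _ h' h
  rw [sub_sub_sub_cancel_left, coe_sum_smul, coe_sum_smul, ← Finset.sum_sub_distrib] at h1
  simp only [← sub_smul] at h1
  have h2 := hc.unique hv h1
  funext j
  exact IsFractionRing.injective A K (sub_eq_zero.1 (congrFun h2 j))

include hc hv in
theorem exists_coord {b : M.W} (hb : (b : F) ∈ II v 0) :
    ∃ c : ι → A, (b : F) - ((∑ j, c j • ws j : M.W) : F) ∈ II v E := by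
  classical
  -- a large space
  obtain ⟨m, hm⟩ : ∃ m : ℤ, (b : F) ∈ riemannRochSpace (Finsupp.single v m) ∧
      ∀ j, (ws j : F) ∈ riemannRochSpace (Finsupp.single v m) := by
    obtain ⟨m0, h0⟩ := exists_mem_L_of_II hb
    choose m1 h1 using fun j => exists_mem_L_of_II (hc.reg j)
    refine ⟨m0 + ∑ j, (m1 j : ℤ), ?_, fun j => ?_⟩
    · have := h0 (m0 + ∑ j, (m1 j : ℤ)) (by
        have : (0 : ℤ) ≤ ∑ j, (m1 j : ℤ) := Finset.sum_nonneg fun j _ => Int.natCast_nonneg _
        omega)
      rwa [sub_zero] at this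
    · have := h1 j (m0 + ∑ j, (m1 j : ℤ)) (by
        have : (m1 j : ℤ) ≤ ∑ j, (m1 j : ℤ) :=
          Finset.single_le_sum (f := fun j => (m1 j : ℤ)) (fun j _ => Int.natCast_nonneg _)
            (Finset.mem_univ j)
        omega)
      rwa [sub_zero] at this
  let L1 := riemannRochSpace (Finsupp.single v m : Divisor K F)
  let L2 : Submodule K L1 := (riemannRochSpace (Finsupp.single v m - E)).comap L1.subtype
  let x : Option ι → L1 := fun o => o.elim ⟨b, hm.1⟩ fun j => ⟨ws j, hm.2 j⟩
  let f : (Option ι → K) →ₗ[K] L1 ⧸ L2 := L2.mkQ ∘ₗ (Fintype.linearCombination K x)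
  have hdim : Module.finrank K (L1 ⧸ L2) < Module.finrank K (Option ι → K) := by
    rw [Module.finrank_fintype_fun_eq_card, Fintype.card_option]
    have h1 := Submodule.finrank_quotient_add_finrank L2
    have hle : riemannRochSpace (Finsupp.single v m - E) ≤ L1 :=
      L_mono (sub_le_self _ hc.nonneg)
    have h2 : Module.finrank K L2 = ell (Finsupp.single v m - E) :=
      (Submodule.comapSubtypeEquivOfLe hle).finrank_eq
    have h3 : Module.finrank K L1 = ell (Finsupp.single v m : Divisor K F) := rfl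
    have h4 := ell_le_of_le (D := Finsupp.single v m - E) (E := Finsupp.single v m)
      (sub_le_self _ hc.nonneg)
    rw [map_sub, hc.deg] at h4
    omega
  obtain ⟨c, hcm, hc0⟩ := (Submodule.ne_bot_iff _).1
    (LinearMap.ker_ne_bot_of_finrank_lt (f := f) hdim)
  have hcI : c none • (b : F) + ∑ j, c (some j) • (ws j : F) ∈ II v E := by
    rw [LinearMap.mem_ker] at hcm
    change L2.mkQ (Fintype.linearCombination K x c) = 0 at hcm
    rw [Submodule.mkQ_apply, Submodule.Quotient.mk_eq_zero, Submodule.mem_comap,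
      Fintype.linearCombination_apply, map_sum, Fintype.sum_option] at hcm
    exact L_le_II _ hcm
  obtain ⟨i, hi, ha⟩ := exists_unit_scale (A := A) c hc0
  choose a ha using ha
  have h1 : ((a none • b + ∑ j, a (some j) • ws j : M.W) : F) ∈ II v E := by
    have : ((a none • b + ∑ j, a (some j) • ws j : M.W) : F) =
        (c i)⁻¹ • (c none • (b : F) + ∑ j, c (some j) • (ws j : F)) := by
      rw [Subalgebra.coe_add, coe_sum_smul, coe_smul_W, smul_add, Finset.smul_sum]
      congr 1
      · rw [ha, smul_smul, div_eq_inv_mul]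
      · refine Finset.sum_congr rfl fun j _ => ?_
        rw [ha, smul_smul, div_eq_inv_mul]
    rw [this]
    exact Submodule.smul_mem _ _ hcI
  have h2 := π_mem_II 𝓓 hv h1
  rw [map_add, π_sum_smul, map_smul, ← algebraMap_smul k (a none)] at h2
  have hai : a i = 1 := IsFractionRing.injective A K (by rw [ha, div_self hi, map_one])
  by_cases h0 : algebraMap A k (a none) = 0
  · exfalso
    rw [h0, zero_smul, zero_add] at h2
    have h3 := hc.ind _ h2
    have h4 : algebraMap A k (a i) = 0 := by
      cases i with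
      | none => exact h0
      | some j => exact congrFun h3 j
    rw [hai, map_one] at h4
    exact one_ne_zero h4
  · obtain ⟨a0, ha0⟩ := isUnit_of_ne hk _ h0
    refine ⟨fun j => -((↑a0⁻¹ : A) * a (some j)), ?_⟩
    have h5 : (b : F) - ((∑ j, (-((↑a0⁻¹ : A) * a (some j))) • ws j : M.W) : F) =
        algebraMap A K (↑a0⁻¹ : A) • ((a none • b + ∑ j, a (some j) • ws j : M.W) : F) := by
      rw [← coe_smul_W, smul_add, smul_smul, ← ha0, Units.inv_mul, one_smul, Finset.smul_sum,
        Subalgebra.coe_add, sub_eq_add_neg, ← Subalgebra.coe_neg, ← Finset.sum_neg_distrib]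
      simp only [neg_smul, neg_neg, smul_smul]
    rw [h5]
    exact Submodule.smul_mem _ _ h1

end Comp

end Fermat.Agent.FFG
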