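import Fermat.Agent.FFG.GenPos

/-!
# Existence of a good family of effective divisors
-/

set_option autoImplicit false
set_option linter.unusedSectionVars false
set_option linter.style.haveILetI false

noncomputable section

namespace Fermat.Agent.FFG

open AlgebraicCurve Fermat.Agent.RR Fermat.Agent.Curve Fermat.Agent.Red Fermat.Agent.Spec Module

section one

variable {K F : Type*} [Field K] [IsAlgClosed K] [Field F] [Algebra K F] [FunField K F]

theorem mem_principal_iff {D : Divisor K F} :
    D ∈ Divisor.principal (K := K) (F := F) ↔ ∃ f : F, f ≠ 0 ∧ D = divisor K f :=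
  isPrincipal_iff

theorem divisor_mem_principal {f : F} (hf : f ≠ 0) :
    divisor K f ∈ Divisor.principal (K := K) (F := F) := isPrincipal_divisor hf

theorem ell_eq_of_sub_mem {D E : Divisor K F}
    (h : D - E ∈ Divisor.principal (K := K) (F := F)) : ell D = ell E := by
  obtain ⟨f, hf, h'⟩ := mem_principal_iff.1 h
  have h1 : E = D - divisor K f := by rw [← h']; abel
  rw [h1, ell_sub_divisor hf]

/-- effective divisors in a class with one section are unique -/
theorem eq_of_ell_le_one {D E : Divisor K F} (hD : 0 ≤ D) (hE : 0 ≤ E)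
    (h : D - E ∈ Divisor.principal (K := K) (F := F)) (hell : ell E ≤ 1) : D = E := by
  obtain ⟨f, hf, h'⟩ := mem_principal_iff.1 h
  have h1 : f ∈ riemannRochSpace E := by
    rw [mem_L_of_divisor hf, ← h']
    have : E + (D - E) = D := by abel
    rw [this]; exact hD
  have h2 : (1 : F) ∈ riemannRochSpace E := DivRed.one_mem_L.2 hE
  let y0 : riemannRochSpace E := ⟨1, h2⟩
  have hy0 : y0 ≠ 0 := fun h => one_ne_zero (congrArg Subtype.val h)
  have h8 : finrank K (riemannRochSpace E) = 1 := by
    have h9 : 0 < finrank K (riemannRochSpace E) :=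
      Module.finrank_pos_iff_exists_ne_zero.2 ⟨y0, hy0⟩
    rw [ell] at hell
    omega
  obtain ⟨c, hc⟩ := (finrank_eq_one_iff_of_nonzero' y0 hy0).1 h8 ⟨f, h1⟩
  have h3 : c • (1 : F) = f := congrArg Subtype.val hc
  have hc0 : c ≠ 0 := by
    rintro rfl
    rw [zero_smul] at h3
    exact hf h3.symm
  have h4 : divisor K f = 0 := by
    rw [← h3, divisor_smul hc0]
    ext p; simp
  rw [h4] at h'
  exact sub_eq_zero.1 h'

end one

variable {A K F k R : Type*} [CommRing A] [IsDomain A] [ValuationRing A]
  [Field K] [Algebra A K] [IsFractionRing A K] [Field F] [Algebra K F] [Algebra A F]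
  [IsScalarTower A K F] [Field k] [Algebra A k] [Field R] [Algebra k R] [Algebra A R]
  [IsScalarTower A k R]
  [IsAlgClosed K] [IsAlgClosed k] [FunField K F] [FunField k R]
  {M : RedModel A K F k R} {hk : Function.Surjective (algebraMap A k)}
  (𝓓 : DivRed A K F k R M hk) (v : Place K F) (w : Place k R)

include 𝓓 in
theorem ell_le_r (D : Divisor K F) : ell D ≤ ell (𝓓.r D) := by
  rw [ell, ell, ← M.finrank_rd hk]
  exact Submodule.finrank_mono (𝓓.rd_le D)

/-- A good family of effective divisors representing the classes of a finite group. -/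
structure Fam {Γ V : Type*} [AddCommGroup V] (ρ : Γ → SemilinearAut K F) (act : Γ → V → V)
    (φ : V →+ Pic0 K F) where
  /-- the base class -/
  C : Divisor K F
  /-- the divisors -/
  E : V → Divisor K F
  /-- the degree -/
  n : ℕ
  /-- the complement -/
  ws : Fin n → M.W
  comp : ∀ P, Comp 𝓓 v w (E P) ws
  Ew : ∀ P, 𝓓.r (E P) w = 0
  ell_le : ∀ P, ell (𝓓.r (E P)) ≤ 1
  cls : ∀ P, ∃ D : Divisor.degZero (K := K) (F := F), Pic0.mk D = φ P ∧
    E P - C - D ∈ Divisor.principal (K := K) (F := F)
  smul_E : ∀ γ P, ρ γ • E P = E (act γ P)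
  smul_ws : ∀ γ j, ρ γ • (ws j : F) = ws j
  refl : ∀ T, ∃ (Z : Divisor K F) (m : ℤ), 0 ≤ Z ∧ 𝓓.r Z w = 0 ∧
    (∀ P u, 𝓓.r Z u = 0 ∨ 𝓓.r (E P) u = 0) ∧
    ∀ P, ∃ u : F, u ≠ 0 ∧ divisor K u = E P + E (T - P) + Z - Finsupp.single v m

variable {v w} (hv : 𝓓.r (Finsupp.single v 1) = Finsupp.single w 1)

include hv in
/-- **Existence of good families.** -/
theorem exists_fam {Γ V : Type*} [AddCommGroup V] [Finite V] {ρ : Γ → SemilinearAut K F}
    (H : FixData (M := M) ρ v w) (act : Γ → V → V) (φ : V →+ Pic0 K F)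
    (hφ : ∀ γ P, φ (act γ P) = ρ γ • φ P) : Nonempty (Fam 𝓓 v w ρ act φ) := by
  classical
  haveI := Fintype.ofFinite V
  haveI : Infinite k := IsAlgClosed.instInfinite
  choose D hD using fun P => Pic0.mk_surjective (φ P)
  obtain ⟨cK, hcK⟩ := exists_riemann (K := k) (F := R)
  have hg : (rrGenus K F : ℤ) = rrGenus k R := 𝓓.genus_eq
  -- the number `m`
  obtain ⟨m, hm1, hm2⟩ : ∃ m : ℕ, cK + 1 ≤ (m : ℤ) ∧ rrGenus k R ≤ m :=
    ⟨(cK + 1).toNat + rrGenus k R, by
      have := Int.self_le_toNat (cK + 1)
      push_cast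
      omega, by omega⟩
  have hD0 : ∀ P, Divisor.degree (D P : Divisor K F) = 0 := fun P => Divisor.mem_degZero.1 (D P).2
  let D' : V → Divisor k R := fun P => 𝓓.r (D P) + Finsupp.single w ((m : ℤ) - 1)
  have hD'd : ∀ P, Divisor.degree (D' P) = m - 1 := fun P => by
    change Divisor.degree (𝓓.r (D P) + Finsupp.single w ((m : ℤ) - 1)) = _
    rw [map_add, 𝓓.degree_r, hD0, degree_single', zero_add]
  have hD'ell : ∀ P, ell (D' P) = m - rrGenus k R := fun P => by
    have := hcK (D' P) (by rw [hD'd]; omega)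
    rw [hD'd] at this
    omega
  obtain ⟨q, hqw, hq⟩ := exists_general_points D' {w} (m - rrGenus k R)
  have hq' : ∀ P, ell (D' P - ∑ i, Finsupp.single (q i) 1) = 0 := fun P => by
    have := hq P
    rw [hD'ell] at this
    omega
  choose q' hq'r hq'f using fun i => H.exists_fixed_place hv (q i)
    (fun h => hqw i (Finset.mem_singleton.2 h))
  -- the class
  let C : Divisor K F := Finsupp.single v (m : ℤ) - ∑ i, Finsupp.single (q' i) 1
  have hCd : Divisor.degree C = rrGenus k R := by
    change Divisor.degree (Finsupp.single v (m : ℤ) - ∑ i, Finsupp.single (q' i) 1) = _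
    rw [map_sub, degree_single', map_sum]
    simp only [degree_single', Finset.sum_const, Finset.card_univ, Fintype.card_fin]
    rw [nsmul_eq_mul, mul_one]
    omega
  have hCr : 𝓓.r C = Finsupp.single w (m : ℤ) - ∑ i, Finsupp.single (q i) 1 := by
    change 𝓓.r (Finsupp.single v (m : ℤ) - ∑ i, Finsupp.single (q' i) 1) = _
    rw [map_sub, map_sum, r_single_n 𝓓 hv]
    simp only [hq'r]
  have hCf : ∀ γ, ρ γ • C = C := fun γ => by
    change ρ γ • (Finsupp.single v (m : ℤ) - ∑ i, Finsupp.single (q' i) 1) = _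
    rw [smul_sub, SemilinearAut.smul_single, H.fix, Finset.smul_sum]
    simp only [SemilinearAut.smul_single, hq'f]
    rfl
  -- the divisors
  have hx : ∀ P, ∃ x : F, x ≠ 0 ∧ x ∈ riemannRochSpace ((D P : Divisor K F) + C) := fun P => by
    apply exists_ne_zero_of_ell_pos
    have := riemann ((D P : Divisor K F) + C)
    rw [map_add, hD0, hCd, hg] at this
    omega
  choose x hx0 hxL using hx
  let E : V → Divisor K F := fun P => (D P : Divisor K F) + C + divisor K (x P)
  have hE0 : ∀ P, 0 ≤ E P := fun P => (mem_L_of_divisor (hx0 P)).1 (hxL P)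
  have hEd : ∀ P, Divisor.degree (E P) = rrGenus k R := fun P => by
    change Divisor.degree ((D P : Divisor K F) + C + divisor K (x P)) = _
    rw [map_add, map_add, degree_divisor, hD0, hCd]; ring
  have hrE : ∀ P, 𝓓.r (E P) - Finsupp.single w 1 - (D' P - ∑ i, Finsupp.single (q i) 1) ∈
      Divisor.principal (K := k) (F := R) := fun P => by
    have h1 : 𝓓.r (E P) - Finsupp.single w 1 - (D' P - ∑ i, Finsupp.single (q i) 1) =
        𝓓.r (divisor K (x P)) := by
      change 𝓓.r ((D P : Divisor K F) + C + divisor K (x P)) - Finsupp.single w 1 -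
        (𝓓.r (D P) + Finsupp.single w ((m : ℤ) - 1) - ∑ i, Finsupp.single (q i) 1) = _
      rw [map_add, map_add, hCr, Finsupp.single_sub]
      abel
    rw [h1]
    exact 𝓓.r_isPrincipal (isPrincipal_divisor (hx0 P))
  have hellm : ∀ P, ell (𝓓.r (E P) - Finsupp.single w 1) = 0 := fun P => by
    rw [ell_eq_of_sub_mem (hrE P), hq']
  have hEw : ∀ P, 𝓓.r (E P) w = 0 := by
    intro P
    by_contra hne
    have h1 : 0 ≤ 𝓓.r (E P) - Finsupp.single w 1 := by
      rw [sub_nonneg]
      intro u
      have h2 := 𝓓.r_nonneg (hE0 P)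
      rw [Finsupp.single_apply]
      split_ifs with hu
      · subst hu
        have h3 := h2 w
        simp only [Finsupp.coe_zero, Pi.zero_apply] at h3
        omega
      · exact h2 u
    have h2 := DivRed.one_mem_L.2 h1
    have h3 : 0 < ell (𝓓.r (E P) - Finsupp.single w 1) :=
      Module.finrank_pos_iff_exists_ne_zero.2 ⟨⟨1, h2⟩, fun h =>
        one_ne_zero (congrArg Subtype.val h)⟩
    rw [hellm] at h3
    exact lt_irrefl _ h3
  have hell : ∀ P, ell (𝓓.r (E P)) ≤ 1 := fun P => by
    have h1 := ell_le_of_le (sub_le_self (𝓓.r (E P)) (single_le_of_nonneg w))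
    rw [hellm, map_sub, degree_single'] at h1
    omega
  have hcls : ∀ P, E P - C - (D P : Divisor K F) ∈ Divisor.principal (K := K) (F := F) := by
    intro P
    have h1 : E P - C - (D P : Divisor K F) = divisor K (x P) := by
      change (D P : Divisor K F) + C + divisor K (x P) - C - (D P : Divisor K F) = _
      abel
    rw [h1]
    exact divisor_mem_principal (hx0 P)
  -- the Galois action
  have hact : ∀ γ P, ρ γ • (D P : Divisor K F) - (D (act γ P) : Divisor K F) ∈
      Divisor.principal (K := K) (F := F) := by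
    intro γ P
    have h1 := hφ γ P
    rw [← hD (act γ P), ← hD P, SemilinearAut.pic0_smul_mk] at h1
    have h2 : Pic0.mk (SemilinearAut.degZeroSMulHom (ρ γ) (D P) - D (act γ P)) = 0 := by
      have h3 : Pic0.mk (SemilinearAut.degZeroSMulHom (ρ γ) (D P) - D (act γ P)) =
        Pic0.mk (SemilinearAut.degZeroSMulHom (ρ γ) (D P)) - Pic0.mk (D (act γ P)) := rfl
      rw [h3, h1, sub_self]
    have h3 := pic0_mk_eq_zero.1 h2
    rw [AddSubgroup.coe_sub] at h3
    exact h3
  have hsmul : ∀ γ P, ρ γ • E P = E (act γ P) := by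
    intro γ P
    refine eq_of_ell_le_one ?_ (hE0 _) ?_ ((ell_le_r 𝓓 _).trans (hell _))
    · intro u
      rw [SemilinearAut.divisor_smul_apply]
      exact hE0 P _
    · have h1 := SemilinearAut.smul_mem_principal (ρ γ) (hcls P)
      rw [smul_sub, smul_sub, hCf] at h1
      have h2 : ρ γ • E P - E (act γ P) = (ρ γ • E P - C - ρ γ • (D P : Divisor K F)) +
          (ρ γ • (D P : Divisor K F) - (D (act γ P) : Divisor K F)) -
          (E (act γ P) - C - (D (act γ P) : Divisor K F)) := by abel
      rw [h2]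
      exact sub_mem (add_mem h1 (hact γ P)) (hcls _)
  -- the complement
  obtain ⟨cl, hcl⟩ := H.lift
  obtain ⟨m', hm', hml⟩ : ∃ m' : ℤ, cK + rrGenus k R ≤ m' ∧ cl ≤ m' :=
    ⟨max (cK + rrGenus k R) cl, le_max_left _ _, le_max_right _ _⟩
  let X := riemannRochSpace (Finsupp.single w m' : Divisor k R)
  let U : V → Submodule k X := fun P =>
    (riemannRochSpace (Finsupp.single w m' - 𝓓.r (E P))).comap X.subtype
  have hU : ∀ P, finrank k (U P) + rrGenus k R ≤ finrank k X := by
    intro P
    have hle : riemannRochSpace (Finsupp.single w m' - 𝓓.r (E P)) ≤ X :=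
      L_mono (sub_le_self _ (𝓓.r_nonneg (hE0 P)))
    have h1 : finrank k (U P) = ell (Finsupp.single w m' - 𝓓.r (E P)) :=
      (Submodule.comapSubtypeEquivOfLe hle).finrank_eq
    have h2 := hcK (Finsupp.single w m' - 𝓓.r (E P)) (by
      rw [map_sub, degree_single', 𝓓.degree_r, hEd]; omega)
    have h3 := hcK (Finsupp.single w m' : Divisor k R) (by
      rw [degree_single']; omega)
    rw [map_sub, degree_single', 𝓓.degree_r, hEd] at h2
    rw [degree_single'] at h3
    have h4 : finrank k X = ell (Finsupp.single w m' : Divisor k R) := rfl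
    omega
  obtain ⟨wb, hwb⟩ := exists_general_vectors U (rrGenus k R) hU
  choose ws hwsL hwsf hwsπ using fun j => hcl m' hml (wb j) (wb j).2
  refine ⟨{ C := C, E := E, n := rrGenus k R, ws := ws, comp := fun P => ⟨hE0 P, ?_, ?_, ?_⟩,
            Ew := hEw, ell_le := hell, cls := fun P => ⟨D P, hD P, hcls P⟩, smul_E := hsmul,
            smul_ws := fun γ j => hwsf j γ, refl := ?_ }⟩
  · rw [hEd, Fintype.card_fin]
  · intro j
    exact L_single_le_II _ (hwsL j)
  · intro c hc
    apply hwb P c
    rw [Submodule.mem_comap]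
    have h1 : X.subtype (∑ j, c j • wb j) = ∑ j, c j • M.π (ws j) := by
      rw [map_sum]
      exact Finset.sum_congr rfl fun j _ => by rw [map_smul, hwsπ]; rfl
    rw [h1]
    refine mem_L_of_mem_II hc ?_
    rw [hEw P]
    have h2 : ∑ j, c j • M.π (ws j) ∈ X := by
      rw [← h1]; exact Subtype.property _
    have h3 := mem_L.1 h2 w
    rw [Finsupp.single_eq_same] at h3
    exact h3.mono (by omega)
  · intro T
    obtain ⟨c1, hc1⟩ := 𝓓.exists_lift_tight
    obtain ⟨n1, hn1⟩ : ∃ n1 : ℤ, c1 + 2 * rrGenus k R ≤ n1 := ⟨_, le_rfl⟩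
    let S : Finset (Place k R) := {w} ∪ Finset.univ.biUnion fun P => (𝓓.r (E P)).support
    let DT : Divisor K F := Finsupp.single v n1 - (D T : Divisor K F) - (C + C)
    obtain ⟨y, hyW, hyL, hy0, hyS⟩ := hc1 DT (by
      change c1 ≤ Divisor.degree (Finsupp.single v n1 - (D T : Divisor K F) - (C + C))
      rw [map_sub, map_sub, map_add, hCd, hD0, degree_single']; omega) S
    have hy00 : y ≠ 0 := by
      rintro rfl
      apply hy0
      have : (⟨0, hyW⟩ : M.W) = 0 := rfl
      rw [this, map_zero]
    have hZS : ∀ p ∈ S, 𝓓.r (DT + divisor K y) p = 0 := by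
      intro p hp
      rw [map_add, 𝓓.r_divisor hyW hy0, Finsupp.add_apply, divisor_apply, hyS p hp]
      ring
    refine ⟨DT + divisor K y, n1, (mem_L_of_divisor hy00).1 hyL, ?_, ?_, ?_⟩
    · exact hZS w (Finset.mem_union_left _ (Finset.mem_singleton_self w))
    · intro P u
      by_cases hu : 𝓓.r (E P) u = 0
      · exact Or.inr hu
      · exact Or.inl (hZS u (Finset.mem_union_right _ (Finset.mem_biUnion.2
          ⟨P, Finset.mem_univ _, Finsupp.mem_support_iff.2 hu⟩)))
    · intro P
      have h1 : (D P : Divisor K F) + D (T - P) - D T ∈ Divisor.principal (K := K) (F := F) := by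
        have h2 : Pic0.mk (D P + D (T - P) - D T) = 0 := by
          have h3 : Pic0.mk (D P + D (T - P) - D T) =
            Pic0.mk (D P) + Pic0.mk (D (T - P)) - Pic0.mk (D T) := rfl
          rw [h3, hD, hD, hD, ← map_add, add_sub_cancel, sub_self]
        have h3 := pic0_mk_eq_zero.1 h2
        rw [AddSubgroup.coe_sub, AddSubgroup.coe_add] at h3
        exact h3
      have h2 : E P + E (T - P) + (DT + divisor K y) - Finsupp.single v n1 ∈
          Divisor.principal (K := K) (F := F) := by
        have h3 : E P + E (T - P) + (DT + divisor K y) - Finsupp.single v n1 =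
            ((D P : Divisor K F) + D (T - P) - D T) + (E P - C - (D P : Divisor K F)) +
            (E (T - P) - C - (D (T - P) : Divisor K F)) + divisor K y := by
          change E P + E (T - P) + (Finsupp.single v n1 - (D T : Divisor K F) - (C + C) +
            divisor K y) - Finsupp.single v n1 = _
          abel
        rw [h3]
        exact add_mem (add_mem (add_mem h1 (hcls P)) (hcls _)) (divisor_mem_principal hy00)
      obtain ⟨u, hu0, hu⟩ := mem_principal_iff.1 h2
      exact ⟨u, hu0, hu.symm⟩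

end Fermat.Agent.FFG
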