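import Fermat.Agent.FFG.Level
import Fermat.Agent.FFG.Closure
import Fermat.Agent.Flat.FlC

/-!
# The consequences of flatness for subquotients of `Hom_par(Γ_H(N), ℤ/m)`
-/

set_option autoImplicit false
set_option linter.unusedSectionVars false
set_option linter.style.haveILetI false

open UpperHalfPlane ModularForm Matrix.SpecialLinearGroup
open scoped MatrixGroups Manifold

noncomputable section

namespace Fermat.Agent.FFG

open Fermat.Agent.Flat

local notation "Ω" => AlgebraicClosure ℚ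

local notation "𝒢" => (AlgebraicClosure ℚ) ≃ₐ[ℚ] (AlgebraicClosure ℚ)

variable {A : ValuationSubring (AlgebraicClosure ℚ)} {p : ℕ} [Fact p.Prime]

theorem flC_of_isHopfFn (hA : A.LiesOverPrime p) (hp2 : p ≠ 2) {U : Type} [AddCommGroup U]
    [Finite U] {act : 𝒢 → U → U} {H : Subalgebra (R0 A) (U → Ω)}
    (hH : IsHopfFn (fun γ : Ω ≃ₐ[R0 A] Ω => act (rq γ)) H) (hU : ∀ u : U, p • u = 0) :
    FlC A hA U act := by
  haveI := isPrincipalIdealRing_R0 hA
  obtain ⟨B, _, _, hfin, hflat, -, e, he, hact⟩ := hH.exists_hopf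
  haveI : IsScalarTower (R0 A) (R0 A) (kk A) :=
    IsScalarTower.of_algebraMap_eq fun _ => rfl
  haveI : IsScalarTower (R0 A) (R0 A) Ω :=
    IsScalarTower.of_algebraMap_eq fun _ => rfl
  refine flC_of_hopf (R := R0 A) hA hp2 (@FixBase.inj (R0 A) (AlgebraicClosure ℚ) _ _ _ _) e he hU
    (act := act)
    (fun σ hσ f g h => ?_) (AddMonoidHom.id U) Function.injective_id (fun σ _ u => rfl)
  have h1 := hact (ofInertia A σ hσ) f g (fun x => by rw [h x]; rfl)
  rw [h1, rq_ofInertia]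

/-- subquotients of products -/
theorem flC_subquotient (hA : A.LiesOverPrime p) (hp2 : p ≠ 2) {J : Type} [Fintype J]
    {V : J → Type} [∀ j, AddCommGroup (V j)] [∀ j, Finite (V j)]
    {actV : ∀ j, 𝒢 → V j → V j} {H : ∀ j, Subalgebra (R0 A) (V j → Ω)}
    (hH : ∀ j, IsHopfFn (fun γ : Ω ≃ₐ[R0 A] Ω => actV j (rq γ)) (H j))
    {S U : Type} [AddCommGroup S] [AddCommGroup U] (i : S →+ (∀ j, V j))
    (hi : Function.Injective i) (π : S →+ U) (hπ : Function.Surjective π)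
    (hU : ∀ u : U, p • u = 0) {actS : 𝒢 → S → S} {act : 𝒢 → U → U}
    (hactS : ∀ σ ∈ A.inertiaSubgroupIn ℚ, ∀ s j, i (actS σ s) j = actV j σ (i s j))
    (hact : ∀ σ ∈ A.inertiaSubgroupIn ℚ, ∀ s, act σ (π s) = π (actS σ s)) :
    FlC A hA U act := by
  haveI := isPrincipalIdealRing_R0 hA
  haveI : Finite (∀ j, V j) := Pi.finite
  haveI : Finite S := Finite.of_injective i hi
  haveI : Finite U := Finite.of_surjective π hπ
  have h1 := IsHopfFn.pi hH
  have h2 := h1.restrict (actS := fun γ : Ω ≃ₐ[R0 A] Ω => actS (rq γ)) hi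
    (fun γ s => funext fun j => hactS _ (rq_mem γ) s j)
  have h3 := h2.quot (actW := fun γ : Ω ≃ₐ[R0 A] Ω => act (rq γ)) hπ
    (fun γ s => (hact _ (rq_mem γ) s).symm)
  exact flC_of_isHopfFn hA hp2 h3 hU

end Fermat.Agent.FFG

namespace Fermat.Agent.FFG

open Fermat.Agent.Flat Fermat.Agent.KumG

local notation "Ω" => AlgebraicClosure ℚ

local notation "𝒢" => (AlgebraicClosure ℚ) ≃ₐ[ℚ] (AlgebraicClosure ℚ)

variable {A : ValuationSubring (AlgebraicClosure ℚ)} {p : ℕ} [Fact p.Prime]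
  {N m : ℕ} [NeZero N] [NeZero m] {H : Subgroup (ZMod N)ˣ}

/-- **Flatness at `p` of subquotients of `Hom_par(Γ_H(N), ℤ/m)`, `p ∤ N`.** -/
theorem flC_XL (hA : A.LiesOverPrime p) (hp2 : p ≠ 2) (hN : ¬ p ∣ N) (hN3 : 3 ≤ N) (hH : -1 ∈ H)
    (ι : Ω →+* ℂ) {J : Type} [Fintype J] {S U : Type} [AddCommGroup S] [AddCommGroup U] :
    haveI := lvlG_GH N H hH
    haveI := Fermat.Agent.GamH.ratG_GH N H hH
    ∀ (i : S →+ (J → XL (GH N H) m)), Function.Injective i →
    ∀ (π : S →+ U), Function.Surjective π → (∀ u : U, p • u = 0) →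
    ∀ {actS : 𝒢 → S → S} {act : 𝒢 → U → U},
    (∀ σ ∈ A.inertiaSubgroupIn ℚ, ∀ s j, i (actS σ s) j = rhoF ι m σ (i s j)) →
    (∀ σ ∈ A.inertiaSubgroupIn ℚ, ∀ s, act σ (π s) = π (actS σ s)) →
    FlC A hA U act := by
  haveI := lvlG_GH N H hH
  haveI := Fermat.Agent.GamH.ratG_GH N H hH
  intro i hi π hπ hU actS act hactS hact
  obtain ⟨𝓗, h𝓗⟩ := exists_isHopfFn_XL (m := m) hA hN hN3 hH ι
  exact flC_subquotient (V := fun _ : J => XL (GH N H) m) (actV := fun _ => rhoF ι m) hA hp2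
    (fun _ => h𝓗) i hi π hπ hU hactS hact

end Fermat.Agent.FFG
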