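import Fermat.Agent.FFG.Reflect
import Fermat.Agent.Spec.Functor

/-!
# General position
-/

set_option autoImplicit false
set_option linter.unusedSectionVars false
set_option linter.style.haveILetI false

noncomputable section

namespace Fermat.Agent.FFG

open AlgebraicCurve Fermat.Agent.RR Fermat.Agent.Curve Fermat.Agent.Red Fermat.Agent.Spec Module

section one

variable {K F : Type*} [Field K] [IsAlgClosed K] [Field F] [Algebra K F] [FunField K F]

theorem exists_place_notMem (S : Finset (Place K F)) : ∃ p : Place K F, p ∉ S := by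
  classical
  by_contra hcon
  push Not at hcon
  obtain ⟨v0⟩ := exists_place K F
  obtain ⟨c, hc⟩ := exists_tight K F
  let n : ℤ := max c 1
  have hn : 1 ≤ n := le_max_right _ _
  obtain ⟨x, hx, hx0, hxe⟩ := hc (Finsupp.single v0 n) (by
    rw [degree_single']; exact le_max_left _ _) S
  have h1 : divisor K x = - Finsupp.single v0 n := by
    ext p
    rw [divisor_apply, hxe p (hcon p), Finsupp.neg_apply]
  have h2 := degree_divisor (K := K) x
  rw [h1, map_neg, degree_single'] at h2
  omega

/-- imposing general points -/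
theorem exists_general_points {V : Type*} [Finite V] (D : V → Divisor K F)
    (S : Finset (Place K F)) (n : ℕ) : ∃ q : Fin n → Place K F, (∀ i, q i ∉ S) ∧
      ∀ P, ell (D P - ∑ i, Finsupp.single (q i) 1) ≤ ell (D P) - n := by
  classical
  haveI := Fintype.ofFinite V
  induction n with
  | zero => exact ⟨Fin.elim0, fun i => i.elim0, fun P => by simp⟩
  | succ n ih =>
    obtain ⟨q, hq, hq'⟩ := ih
    let D' : V → Divisor K F := fun P => D P - ∑ i, Finsupp.single (q i) 1
    have hx : ∀ P, ∃ T : Finset (Place K F), ∀ p ∉ T,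
        ell (D' P - Finsupp.single p 1) ≤ ell (D' P) - 1 := by
      intro P
      rcases Nat.eq_zero_or_pos (ell (D' P)) with h0 | h0
      · refine ⟨∅, fun p _ => ?_⟩
        rw [h0]
        have := ell_mono (sub_le_self (D' P) (single_le_of_nonneg p))
        omega
      · obtain ⟨x, hx0, hx⟩ := exists_ne_zero_of_ell_pos (D := D' P) (by exact_mod_cast h0)
        refine ⟨(D' P + divisor K x).support, fun p hp => ?_⟩
        rw [Finsupp.notMem_support_iff, Finsupp.add_apply, divisor_apply] at hp
        have h1 : riemannRochSpace (D' P - Finsupp.single p 1) < riemannRochSpace (D' P) := by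
          refine lt_of_le_of_ne (L_mono (sub_le_self _ (single_le_of_nonneg p))) ?_
          intro h
          rw [← h] at hx
          have h2 := (mem_L.1 hx p).le_ord hx0
          rw [Finsupp.sub_apply, Finsupp.single_eq_same] at h2
          omega
        have h2 := Submodule.finrank_lt_finrank_of_lt h1
        rw [ell, ell]
        omega
    choose T hT using hx
    obtain ⟨p, hp⟩ := exists_place_notMem (S ∪ Finset.univ.biUnion T)
    rw [Finset.mem_union, not_or, Finset.mem_biUnion] at hp
    refine ⟨Fin.snoc q p, fun i => ?_, fun P => ?_⟩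
    · refine Fin.lastCases ?_ (fun i => ?_) i
      · rw [Fin.snoc_last]; exact hp.1
      · rw [Fin.snoc_castSucc]; exact hq i
    · rw [Fin.sum_univ_castSucc]
      simp only [Fin.snoc_castSucc, Fin.snoc_last]
      rw [← sub_sub]
      have h1 := hT P p (fun h => hp.2 ⟨P, Finset.mem_univ _, h⟩)
      have h2 := hq' P
      change ell (D' P - Finsupp.single p 1) ≤ _
      have h3 : ell (D' P) ≤ ell (D P) - n := h2
      omega

end one

/-- choosing vectors independent modulo finitely many subspaces -/
theorem exists_general_vectors {k X V : Type*} [Field k] [Infinite k] [AddCommGroup X] [Module k X]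
    [FiniteDimensional k X] [Finite V] (U : V → Submodule k X) (n : ℕ)
    (hU : ∀ P, finrank k (U P) + n ≤ finrank k X) :
    ∃ x : Fin n → X, ∀ P, ∀ c : Fin n → k, ∑ j, c j • x j ∈ U P → c = 0 := by
  classical
  induction n with
  | zero => exact ⟨Fin.elim0, fun P c _ => funext fun i => i.elim0⟩
  | succ n ih =>
    obtain ⟨x, hx⟩ := ih (fun P => by have := hU P; omega)
    have hne : ∀ P, U P ⊔ Submodule.span k (Set.range x) ≠ ⊤ := by
      intro P htop
      have h1 := Submodule.finrank_add_le_finrank_add_finrank (U P) (Submodule.span k (Set.range x))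
      rw [htop, finrank_top] at h1
      have h2 := finrank_range_le_card (R := k) x
      rw [Set.finrank, Fintype.card_fin] at h2
      have := hU P
      omega
    obtain ⟨y, hy⟩ := Submodule.exists_forall_notMem_of_forall_ne_top _ hne
    refine ⟨Fin.snoc x y, fun P c hc => ?_⟩
    rw [Fin.sum_univ_castSucc] at hc
    simp only [Fin.snoc_castSucc, Fin.snoc_last] at hc
    have h0 : c (Fin.last n) = 0 := by
      by_contra h0
      apply hy P
      have h1 : y = (c (Fin.last n))⁻¹ • (∑ i, c (Fin.castSucc i) • x i + c (Fin.last n) • y) -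
          (c (Fin.last n))⁻¹ • ∑ i, c (Fin.castSucc i) • x i := by
        rw [smul_add, smul_smul, inv_mul_cancel₀ h0, one_smul, add_sub_cancel_left]
      rw [h1, sub_eq_add_neg]
      refine Submodule.mem_sup.2 ⟨_, Submodule.smul_mem _ _ hc, _, ?_, rfl⟩
      refine Submodule.neg_mem _ (Submodule.smul_mem _ _ (Submodule.sum_mem _ fun i _ =>
        Submodule.smul_mem _ _ (Submodule.subset_span ⟨i, rfl⟩)))
    rw [h0, zero_smul, add_zero] at hc
    have h1 := hx P (fun i => c (Fin.castSucc i)) hc
    funext i
    refine Fin.lastCases ?_ (fun i => ?_) i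
    · exact h0
    · exact congrFun h1 i

variable {A K F k R : Type*} [CommRing A] [IsDomain A] [ValuationRing A]
  [Field K] [Algebra A K] [IsFractionRing A K] [Field F] [Algebra K F] [Algebra A F]
  [IsScalarTower A K F] [Field k] [Algebra A k] [Field R] [Algebra k R] [Algebra A R]
  [IsScalarTower A k R]
  [IsAlgClosed K] [IsAlgClosed k] [FunField K F] [FunField k R]
  {M : RedModel A K F k R} {hk : Function.Surjective (algebraMap A k)}
  (𝓓 : DivRed A K F k R M hk) {v : Place K F} {w : Place k R}
  (hv : 𝓓.r (Finsupp.single v 1) = Finsupp.single w 1)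

/-- A group of semilinear automorphisms acting trivially on the special fibre, fixing `v`, with
enough fixed functions. -/
structure FixData {Γ : Type*} (ρ : Γ → SemilinearAut K F) (v : Place K F) (w : Place k R) : Prop where
  red : ∀ γ, ∀ x (hx : x ∈ M.W), ∃ h : ρ γ • x ∈ M.W, M.π ⟨ρ γ • x, h⟩ = M.π ⟨x, hx⟩
  fix : ∀ γ, ρ γ • v = v
  lift : ∃ c : ℤ, ∀ m : ℤ, c ≤ m → ∀ y ∈ riemannRochSpace (Finsupp.single w m : Divisor k R),
    ∃ x : M.W, (x : F) ∈ riemannRochSpace (Finsupp.single v m : Divisor K F) ∧
    (∀ γ, ρ γ • (x : F) = x) ∧ M.π x = y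

variable {𝓓} {Γ : Type*} {ρ : Γ → SemilinearAut K F} (H : FixData (M := M) ρ v w)

include H in
theorem FixData.r_smul (γ : Γ) (D : Divisor K F) : 𝓓.r (ρ γ • D) = 𝓓.r D := by
  have := 𝓓.r_smul (ρ γ) (1 : SemilinearAut k R) (fun x hx => by
    obtain ⟨h, h'⟩ := H.red γ x hx
    exact ⟨h, by rw [h', one_smul]⟩) D
  rw [this, one_smul]

include H hv in
/-- every place of the special fibre (other than `w`) lifts to a fixed place -/
theorem FixData.exists_fixed_place (p : Place k R) (hp : p ≠ w) :
    ∃ v' : Place K F, 𝓓.r (Finsupp.single v' 1) = Finsupp.single p 1 ∧ ∀ γ, ρ γ • v' = v' := by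
  classical
  obtain ⟨c, hc⟩ := exists_tight k R
  obtain ⟨cl, hcl⟩ := H.lift
  obtain ⟨n, hn, hnl⟩ : ∃ n : ℤ, c + 1 ≤ n ∧ cl ≤ n :=
    ⟨max (c + 1) cl, le_max_left _ _, le_max_right _ _⟩
  obtain ⟨y, hy, hy0, hyp⟩ := hc (Finsupp.single w n - Finsupp.single p 1) (by
    rw [map_sub, degree_single', degree_single']; omega) {p}
  have hyp' := hyp p (Finset.mem_singleton_self p)
  rw [Finsupp.sub_apply, Finsupp.single_eq_of_ne hp, Finsupp.single_eq_same] at hyp'
  obtain ⟨x, hxL, hxf, hxy⟩ := hcl n hnl y (L_mono (sub_le_self _ (single_le_of_nonneg p)) hy)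
  have hπ : M.π x ≠ 0 := by rw [hxy]; exact hy0
  have hx0 : (x : F) ≠ 0 := by
    intro h
    apply hπ
    have : x = 0 := Subtype.ext h
    rw [this, map_zero]
  let D : Divisor K F := Finsupp.single v n + divisor K (x : F)
  have hD : 0 ≤ D := (mem_L_of_divisor hx0).1 hxL
  have hrD : 𝓓.r D p = 1 := by
    change 𝓓.r (Finsupp.single v n + divisor K (x : F)) p = 1
    rw [map_add, r_single_n 𝓓 hv, 𝓓.r_divisor x.2 hπ, Finsupp.add_apply,
      Finsupp.single_eq_of_ne hp, divisor_apply]
    have : M.π ⟨(x : F), x.2⟩ = y := hxy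
    rw [this, hyp']; norm_num
  -- uniqueness
  have huniq : ∀ v1 v2 : Place K F, 𝓓.r (Finsupp.single v1 1) = Finsupp.single p 1 →
      𝓓.r (Finsupp.single v2 1) = Finsupp.single p 1 → D v1 ≠ 0 → D v2 ≠ 0 → v1 = v2 := by
    intro v1 v2 h1 h2 h3 h4
    by_contra hne
    have h5 : Finsupp.single v1 1 + Finsupp.single v2 1 ≤ D := by
      intro u
      have h6 := hD u
      simp only [Finsupp.coe_zero, Pi.zero_apply] at h6
      rw [Finsupp.add_apply]
      by_cases hu1 : u = v1
      · subst hu1
        rw [Finsupp.single_eq_same, Finsupp.single_eq_of_ne hne]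
        omega
      · by_cases hu2 : u = v2
        · subst hu2
          rw [Finsupp.single_eq_same, Finsupp.single_eq_of_ne hu1]
          omega
        · rw [Finsupp.single_eq_of_ne hu1, Finsupp.single_eq_of_ne hu2]
          omega
    have h6 := 𝓓.r_mono h5 p
    rw [map_add, h1, h2, Finsupp.add_apply, Finsupp.single_eq_same, hrD] at h6
    omega
  obtain ⟨v', hv', hv'D⟩ : ∃ v' : Place K F, 𝓓.r (Finsupp.single v' 1) = Finsupp.single p 1 ∧
      D v' ≠ 0 := by
    by_contra hcon
    push Not at hcon
    have h1 : 𝓓.r D = ∑ u ∈ D.support, D u • 𝓓.r (Finsupp.single u 1) := by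
      conv_lhs => rw [← Finsupp.sum_single D, Finsupp.sum, map_sum]
      refine Finset.sum_congr rfl fun u _ => ?_
      rw [← map_zsmul]
      congr 1
      rw [Finsupp.smul_single, smul_eq_mul, mul_one]
    rw [h1, Finsupp.finsetSum_apply] at hrD
    rw [Finset.sum_eq_zero] at hrD
    · exact zero_ne_one hrD
    · intro u hu
      obtain ⟨q, hq⟩ := 𝓓.r_single u
      rw [Finsupp.smul_apply, hq, Finsupp.single_apply, if_neg, smul_zero]
      rintro rfl
      exact (Finsupp.mem_support_iff.1 hu) (hcon u hq)
  refine ⟨v', hv', fun γ => ?_⟩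
  refine huniq _ _ ?_ hv' ?_ hv'D
  · rw [← SemilinearAut.smul_single, H.r_smul, hv']
  · have h1 : ρ γ • D = D := by
      ext u
      rw [SemilinearAut.divisor_smul_apply]
      change (Finsupp.single v n + divisor K (x : F)) _ = (Finsupp.single v n + divisor K (x : F)) _
      rw [Finsupp.add_apply, Finsupp.add_apply, divisor_apply, divisor_apply]
      have h2 := SemilinearAut.ord_smul (ρ γ) ((ρ γ)⁻¹ • u) (x : F)
      rw [smul_inv_smul, hxf] at h2
      rw [h2]
      congr 1
      rw [Finsupp.single_apply, Finsupp.single_apply]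
      congr 1
      rw [eq_iff_iff, eq_inv_smul_iff, H.fix]
    rw [← h1, SemilinearAut.divisor_smul_apply_smul]
    exact hv'D

end Fermat.Agent.FFG
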