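import Mathlib

/-!
# Hopf algebras from rings of functions on a finite group
-/

set_option autoImplicit false
set_option linter.unusedSectionVars false
set_option linter.style.haveILetI false

noncomputable section

open scoped TensorProduct

namespace Fermat.Agent.FFG

/-- the base ring is given by Galois descent -/
class FixBase (R Ω : Type) [CommRing R] [Field Ω] [Algebra R Ω] : Prop where
  inj : Function.Injective (algebraMap R Ω)
  fix : ∀ x : Ω, (∀ σ : Ω ≃ₐ[R] Ω, σ x = x) →
    ∃ r s : R, s ≠ 0 ∧ algebraMap R Ω s * x = algebraMap R Ω r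

variable {R Ω : Type} [CommRing R] [IsDomain R] [Field Ω] [Algebra R Ω] [FixBase R Ω]
variable {V : Type} {act : (Ω ≃ₐ[R] Ω) → V → V}

theorem alg_ne_zero {r : R} (hr : r ≠ 0) : algebraMap R Ω r ≠ 0 := by
  rw [Ne, map_eq_zero_iff _ (FixBase.inj (R := R) (Ω := Ω))]
  exact hr

/-- Artin's lemma: equivariant functions independent over `R` are independent over `Ω` -/
theorem linInd_of_equiv {ι : Type} [Fintype ι] (h : ι → V → Ω)
    (heq : ∀ i σ P, h i (act σ P) = σ (h i P)) (hsurj : ∀ σ, Function.Surjective (act σ))
    (hR : LinearIndependent R h) : LinearIndependent Ω h := by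
  classical
  rw [Fintype.linearIndependent_iff]
  have key : ∀ n : ℕ, ∀ c : ι → Ω, (Finset.univ.filter fun i => c i ≠ 0).card = n →
      ∑ i, c i • h i = 0 → c = 0 := by
    intro n
    induction n using Nat.strong_induction_on with
    | _ n ih =>
    intro c hcn hc
    by_contra hne
    obtain ⟨i0, hi0⟩ := Function.ne_iff.1 hne
    simp only [Pi.zero_apply] at hi0
    -- normalise
    let d : ι → Ω := fun i => (c i0)⁻¹ * c i
    have hd0 : d i0 = 1 := inv_mul_cancel₀ hi0
    have hd : ∑ i, d i • h i = 0 := by
      have : ∑ i, d i • h i = (c i0)⁻¹ • ∑ i, c i • h i := by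
        rw [Finset.smul_sum]
        exact Finset.sum_congr rfl fun i _ => by rw [smul_smul]
      rw [this, hc, smul_zero]
    have hfix : ∀ i, ∀ σ : Ω ≃ₐ[R] Ω, σ (d i) = d i := by
      intro i σ
      let e : ι → Ω := fun i => σ (d i) - d i
      have hσ : ∑ i, σ (d i) • h i = 0 := by
        funext P
        obtain ⟨Q, rfl⟩ := hsurj σ P
        have h1 := congrFun hd Q
        simp only [Finset.sum_apply, Pi.smul_apply, smul_eq_mul, Pi.zero_apply] at h1 ⊢
        have h2 := congrArg σ h1
        rw [map_sum, map_zero] at h2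
        rw [← h2]
        exact Finset.sum_congr rfl fun i _ => by rw [heq]; exact (map_mul σ _ _).symm
      have he : ∑ i, e i • h i = 0 := by
        simp only [e, sub_smul, Finset.sum_sub_distrib]
        rw [hσ, hd, sub_zero]
      have hlt : (Finset.univ.filter fun i => e i ≠ 0).card < n := by
        rw [← hcn]
        apply Finset.card_lt_card
        refine ⟨fun j hj => ?_, fun hcon => ?_⟩
        · simp only [Finset.mem_filter, Finset.mem_univ, true_and] at hj ⊢
          intro hcj
          apply hj
          simp [e, d, hcj]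
        · have : i0 ∈ Finset.univ.filter fun i => c i ≠ 0 := by simp [hi0]
          have h3 := hcon this
          simp only [Finset.mem_filter, Finset.mem_univ, true_and] at h3
          apply h3
          simp only [e, hd0, map_one, sub_self]
      have := congrFun (ih _ hlt e rfl he) i
      simpa [e, sub_eq_zero] using this
    -- clear denominators
    choose r s hs hrs using fun i => FixBase.fix (R := R) (d i) (hfix i)
    let S : R := ∏ i, s i
    have hS : S ≠ 0 := Finset.prod_ne_zero_iff.2 fun i _ => hs i
    let t : ι → R := fun i => (∏ j ∈ Finset.univ.erase i, s j) * r i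
    have ht : ∀ i, algebraMap R Ω (t i) = algebraMap R Ω S * d i := by
      intro i
      have h1 : S = s i * ∏ j ∈ Finset.univ.erase i, s j :=
        (Finset.mul_prod_erase _ _ (Finset.mem_univ i)).symm
      rw [h1, map_mul, map_mul, ← hrs i]
      ring
    have hrel : ∑ i, t i • h i = 0 := by
      have : ∑ i, t i • h i = algebraMap R Ω S • ∑ i, d i • h i := by
        rw [Finset.smul_sum]
        refine Finset.sum_congr rfl fun i _ => ?_
        rw [smul_smul, ← ht, algebraMap_smul]
      rw [this, hd, smul_zero]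
    have h0 := (Fintype.linearIndependent_iff.1 hR) t hrel i0
    have h1 := ht i0
    rw [h0, map_zero, hd0, mul_one] at h1
    exact alg_ne_zero (Ω := Ω) hS h1.symm
  intro c hc i
  exact congrFun (key _ c rfl hc) i

/-- a ring of integral equivariant functions separating points -/
structure IsFn (act : (Ω ≃ₐ[R] Ω) → V → V) (H : Subalgebra R (V → Ω)) : Prop where
  int : ∀ x ∈ H, ∀ P, IsIntegral R (x P)
  equiv : ∀ x ∈ H, ∀ σ P, x (act σ P) = σ (x P)
  sep : ∀ P Q, (∀ x ∈ H, x P = x Q) → P = Q

namespace IsFn

variable {H : Subalgebra R (V → Ω)} (hH : IsFn act H)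

include hH

theorem act_injective (σ : Ω ≃ₐ[R] Ω) : Function.Injective (act σ) := by
  intro P Q h
  refine hH.sep P Q fun x hx => σ.injective ?_
  rw [← hH.equiv x hx, ← hH.equiv x hx, h]

variable [Finite V]

theorem act_surjective (σ : Ω ≃ₐ[R] Ω) : Function.Surjective (act σ) :=
  Finite.injective_iff_surjective.1 (hH.act_injective σ)

/-- the functions span -/
theorem span_eq_top : Submodule.span Ω (H : Set (V → Ω)) = ⊤ := by
  classical
  haveI := Fintype.ofFinite V
  -- the span is a subalgebra
  let S : Subalgebra Ω (V → Ω) := Algebra.adjoin Ω (H : Set (V → Ω))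
  have hS : Subalgebra.toSubmodule S = Submodule.span Ω (H : Set (V → Ω)) := by
    change Subalgebra.toSubmodule (Algebra.adjoin Ω _) = _
    rw [Algebra.adjoin_eq_span]
    have h2 : Submonoid.closure (H : Set (V → Ω)) = H.toSubmonoid :=
      Submonoid.closure_eq H.toSubmonoid
    rw [h2]
    rfl
  rw [← hS]
  have hind : ∀ P : V, Pi.single P (1 : Ω) ∈ S := by
    intro P
    have hx : ∀ Q : V, Q ≠ P → ∃ x ∈ S, x P = 1 ∧ x Q = 0 := by
      intro Q hQ
      obtain ⟨x, hx, hne⟩ : ∃ x ∈ H, x Q ≠ x P := by
        by_contra hcon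
        push Not at hcon
        exact hQ (hH.sep Q P hcon)
      have h0 : x P - x Q ≠ 0 := sub_ne_zero.2 (Ne.symm hne)
      refine ⟨(x P - x Q)⁻¹ • (x - algebraMap Ω (V → Ω) (x Q)), ?_, ?_, ?_⟩
      · exact S.smul_mem (sub_mem (Algebra.subset_adjoin hx) (S.algebraMap_mem _)) _
      · simp only [Pi.smul_apply, Pi.sub_apply, smul_eq_mul]
        exact inv_mul_cancel₀ h0
      · simp only [Pi.smul_apply, Pi.sub_apply, smul_eq_mul]
        have : (algebraMap Ω (V → Ω) (x Q)) Q = x Q := rfl
        rw [this, sub_self, mul_zero]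
    choose! x hx using hx
    have h1 : Pi.single P (1 : Ω) = ∏ Q ∈ Finset.univ.erase P, x Q := by
      funext T
      rw [Finset.prod_apply]
      by_cases hT : T = P
      · subst hT
        rw [Pi.single_eq_same]
        refine (Finset.prod_eq_one fun Q hQ => ?_).symm
        exact (hx Q (Finset.ne_of_mem_erase hQ)).2.1
      · rw [Pi.single_eq_of_ne hT]
        refine (Finset.prod_eq_zero (i := T) (Finset.mem_erase.2 ⟨hT, Finset.mem_univ _⟩) ?_).symm
        exact (hx T hT).2.2
    rw [h1]
    exact prod_mem fun Q hQ => (hx Q (Finset.ne_of_mem_erase hQ)).1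
  rw [eq_top_iff]
  intro f _
  have : f = ∑ P, f P • Pi.single P (1 : Ω) := by
    funext Q
    simp [Finset.sum_apply, Pi.single_apply]
  rw [this]
  exact Submodule.sum_mem _ fun P _ => Submodule.smul_mem _ _ (hind P)

theorem sum_mul_mem [IsIntegrallyClosed R] [Fintype V] {x y : V → Ω} (hx : x ∈ H) (hy : y ∈ H) :
    ∃ r : R, algebraMap R Ω r = ∑ P, x P * y P := by
  have hfix : ∀ σ : Ω ≃ₐ[R] Ω, σ (∑ P, x P * y P) = ∑ P, x P * y P := by
    intro σ
    rw [map_sum]
    have : ∀ P, σ (x P * y P) = x (act σ P) * y (act σ P) := fun P => by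
      rw [map_mul, hH.equiv x hx, hH.equiv y hy]
    simp only [this]
    exact (Equiv.ofBijective (act σ) ⟨hH.act_injective σ, hH.act_surjective σ⟩).sum_comp
      (fun P => x P * y P)
  obtain ⟨r, s, hs, hrs⟩ := FixBase.fix (R := R) _ hfix
  have hint : IsIntegral R (∑ P, x P * y P) :=
    IsIntegral.sum _ fun P _ => (hH.int x hx P).mul (hH.int y hy P)
  -- the fraction field
  let K := FractionRing R
  let φ : K →+* Ω := IsLocalization.lift (M := nonZeroDivisors R) (g := algebraMap R Ω)
    (fun m => IsUnit.mk0 _ (alg_ne_zero (nonZeroDivisors.coe_ne_zero m)))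
  have hφ : ∀ r, φ (algebraMap R K r) = algebraMap R Ω r := fun r => IsLocalization.lift_eq _ r
  let q : K := algebraMap R K r / algebraMap R K s
  have hq : φ q = ∑ P, x P * y P := by
    rw [map_div₀, hφ, hφ, ← hrs, mul_comm, mul_div_assoc, div_self (alg_ne_zero hs), mul_one]
  have hqi : IsIntegral R q := by
    obtain ⟨f, hf, hf0⟩ := hint
    refine ⟨f, hf, φ.injective ?_⟩
    rw [map_zero, Polynomial.hom_eval₂, hq]
    have : φ.comp (algebraMap R K) = algebraMap R Ω := RingHom.ext hφ
    rw [this]
    exact hf0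
  obtain ⟨r', hr'⟩ := IsIntegrallyClosed.isIntegral_iff.1 hqi
  exact ⟨r', by rw [← hφ, hr', hq]⟩

theorem finite [IsNoetherianRing R] [IsIntegrallyClosed R] : Module.Finite R H := by
  classical
  haveI := Fintype.ofFinite V
  -- a finite spanning set
  obtain ⟨s, hs, hspan⟩ : ∃ s : Finset (V → Ω), (s : Set (V → Ω)) ⊆ H ∧
      Submodule.span Ω (s : Set (V → Ω)) = ⊤ := by
    have h1 : (Submodule.span Ω (H : Set (V → Ω))).FG := IsNoetherian.noetherian _
    obtain ⟨t, ht, ht2⟩ := Submodule.fg_span_iff_fg_span_finset_subset _ |>.1 h1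
    exact ⟨t, ht, by rw [← ht2, hH.span_eq_top]⟩
  choose! f hf using fun (x : V → Ω) (hx : x ∈ H) (y : V → Ω) (hy : y ∈ H) =>
    hH.sum_mul_mem hx hy
  let Φ : H →ₗ[R] (s → R) :=
    { toFun := fun x y => f x y
      map_add' := fun x y => by
        funext z
        apply FixBase.inj (R := R) (Ω := Ω)
        have hz : (z : V → Ω) ∈ H := hs z.2
        rw [Pi.add_apply, map_add, hf _ x.2 _ hz, hf _ y.2 _ hz, hf _ (x + y).2 _ hz,
          ← Finset.sum_add_distrib]
        exact Finset.sum_congr rfl fun P _ => by
          rw [← add_mul]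
          rfl
      map_smul' := fun r x => by
        funext z
        apply FixBase.inj (R := R) (Ω := Ω)
        have hz : (z : V → Ω) ∈ H := hs z.2
        rw [RingHom.id_apply, Pi.smul_apply, smul_eq_mul, map_mul, hf _ x.2 _ hz,
          hf _ (r • x).2 _ hz, Finset.mul_sum]
        exact Finset.sum_congr rfl fun P _ => by
          rw [← mul_assoc, ← Algebra.smul_def]
          rfl }
  refine Module.Finite.of_injective Φ ?_
  rw [injective_iff_map_eq_zero]
  intro x hx
  have h1 : ∀ y : V → Ω, ∑ P, (x : V → Ω) P * y P = 0 := by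
    intro y
    have hy : y ∈ Submodule.span Ω (s : Set (V → Ω)) := by rw [hspan]; exact Submodule.mem_top
    induction hy using Submodule.span_induction with
    | mem y hy =>
      have h2 := congrFun hx ⟨y, hy⟩
      change f x y = 0 at h2
      rw [← hf _ x.2 _ (hs hy), h2, map_zero]
    | zero => simp
    | add y z _ _ hy hz => simp only [Pi.add_apply, mul_add, Finset.sum_add_distrib, hy, hz, add_zero]
    | smul c y _ hy =>
      have : ∀ P, (x : V → Ω) P * (c • y) P = c * ((x : V → Ω) P * y P) := fun P => by
        rw [Pi.smul_apply, smul_eq_mul]; ring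
      simp only [this, ← Finset.mul_sum, hy, mul_zero]
  apply Subtype.ext
  funext P
  have h2 := h1 (Pi.single P 1)
  simpa [Pi.single_apply] using h2

theorem isTorsionFree : ∀ (r : R) (x : H), r • x = 0 → r = 0 ∨ x = 0 := by
  intro r x h
  by_cases hr : r = 0
  · exact Or.inl hr
  · right
    apply Subtype.ext
    funext P
    have h1 := congrFun (congrArg Subtype.val h) P
    have h2 : algebraMap R Ω r * (x : V → Ω) P = 0 := by
      rw [← Algebra.smul_def]
      exact h1
    exact (mul_eq_zero.1 h2).resolve_left (alg_ne_zero hr)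

theorem free [IsPrincipalIdealRing R] : Module.Free R H := by
  haveI : Module.Finite R H := hH.finite
  haveI : Module.IsTorsionFree R H := by
    constructor
    intro r hr x y hxy
    have hr0 : r ≠ 0 := hr.ne_zero
    have h1 : r • (x - y) = 0 := by
      rw [smul_sub, sub_eq_zero]
      exact hxy
    exact sub_eq_zero.1 ((hH.isTorsionFree r _ h1).resolve_left hr0)
  exact Module.free_of_finite_type_torsion_free'

end IsFn

/-! ### Families of points -/

section OInj

variable {M M' X X' : Type} [AddCommGroup M] [Module R M] [AddCommGroup M'] [Module R M']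

/-- a realisation of a module by functions, injective after extension of scalars -/
def OInj (e : M →ₗ[R] (X → Ω)) : Prop :=
  ∃ (ι : Type) (_ : Fintype ι) (b : Module.Basis ι R M), LinearIndependent Ω fun i => e (b i)

theorem OInj.injective {e : M →ₗ[R] (X → Ω)} (h : OInj e) : Function.Injective e := by
  obtain ⟨ι, _, b, hb⟩ := h
  rw [injective_iff_map_eq_zero]
  intro x hx
  have h1 : ∑ i, algebraMap R Ω (b.repr x i) • e (b i) = 0 := by
    rw [← hx]
    conv_rhs => rw [← b.sum_repr x, map_sum]
    exact Finset.sum_congr rfl fun i _ => by rw [map_smul, algebraMap_smul]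
  have h2 := Fintype.linearIndependent_iff.1 hb _ h1
  apply b.repr.map_eq_zero_iff.1
  ext i
  have := h2 i
  rwa [map_eq_zero_iff _ (FixBase.inj (R := R) (Ω := Ω))] at this

/-- the product realisation -/
def prodE (e : M →ₗ[R] (X → Ω)) (e' : M' →ₗ[R] (X' → Ω)) : M ⊗[R] M' →ₗ[R] (X × X' → Ω) :=
  TensorProduct.lift
    { toFun := fun x =>
        { toFun := fun y p => e x p.1 * e' y p.2
          map_add' := fun y z => by
            funext p
            rw [map_add, Pi.add_apply, Pi.add_apply, mul_add]
          map_smul' := fun r y => by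
            funext p
            rw [map_smul, Pi.smul_apply, RingHom.id_apply, Pi.smul_apply, mul_smul_comm] }
      map_add' := fun x y => by
        ext z p
        change e (x + y) p.1 * e' z p.2 = e x p.1 * e' z p.2 + e y p.1 * e' z p.2
        rw [map_add, Pi.add_apply, add_mul]
      map_smul' := fun r x => by
        ext z p
        change e (r • x) p.1 * e' z p.2 = r • (e x p.1 * e' z p.2)
        rw [map_smul, Pi.smul_apply, smul_mul_assoc] }

theorem prodE_tmul (e : M →ₗ[R] (X → Ω)) (e' : M' →ₗ[R] (X' → Ω)) (x : M) (y : M') (p : X × X') :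
    prodE e e' (x ⊗ₜ y) p = e x p.1 * e' y p.2 := rfl

theorem OInj.prod {e : M →ₗ[R] (X → Ω)} {e' : M' →ₗ[R] (X' → Ω)} (h : OInj e) (h' : OInj e') :
    OInj (prodE e e') := by
  obtain ⟨ι, _, b, hb⟩ := h
  obtain ⟨κ, _, b', hb'⟩ := h'
  refine ⟨ι × κ, inferInstance, b.tensorProduct b', ?_⟩
  rw [Fintype.linearIndependent_iff]
  intro c hc
  have h1 : ∀ q : X', ∀ i, ∑ j, c (i, j) * e' (b' j) q = 0 := by
    intro q
    refine Fintype.linearIndependent_iff.1 hb (fun i => ∑ j, c (i, j) * e' (b' j) q) ?_
    funext p
    have h2 := congrFun hc (p, q)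
    simp only [Finset.sum_apply, Pi.smul_apply, Module.Basis.tensorProduct_apply', prodE_tmul,
      smul_eq_mul, Pi.zero_apply, Fintype.sum_prod_type] at h2 ⊢
    rw [← h2]
    refine Finset.sum_congr rfl fun i _ => ?_
    rw [Finset.sum_mul]
    exact Finset.sum_congr rfl fun j _ => by ring
  rintro ⟨i, j⟩
  refine Fintype.linearIndependent_iff.1 hb' (fun j => c (i, j)) ?_ j
  funext q
  have h2 := h1 q i
  simpa [Finset.sum_apply] using h2

end OInj

theorem IsFn.oInj {H : Subalgebra R (V → Ω)} (hH : IsFn act H) [Finite V]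
    [IsPrincipalIdealRing R] : OInj (H.val.toLinearMap) := by
  haveI : Module.Finite R H := hH.finite
  haveI : Module.Free R H := hH.free
  refine ⟨Module.Free.ChooseBasisIndex R H, inferInstance, Module.Free.chooseBasis R H, ?_⟩
  refine linInd_of_equiv (act := act) _ (fun i σ P => hH.equiv _ (Subtype.property _) σ P)
    hH.act_surjective ?_
  exact (Module.Free.chooseBasis R H).linearIndependent.map' H.val.toLinearMap
    (LinearMap.ker_eq_bot.2 Subtype.coe_injective)

end Fermat.Agent.FFG
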