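import Fermat.Agent.FFG.Hopf

/-!
# The Hopf algebra of a comultiplicative ring of functions
-/

set_option autoImplicit false
set_option linter.unusedSectionVars false
set_option linter.style.haveILetI false

noncomputable section

open scoped TensorProduct

namespace Fermat.Agent.FFG

variable {R Ω : Type} [CommRing R] [IsDomain R] [Field Ω] [Algebra R Ω] [FixBase R Ω]

section algHoms

variable {M M' X X' : Type} [CommRing M] [Algebra R M] [CommRing M'] [Algebra R M']

/-- pull back of functions -/
def pull (g : X' → X) : (X → Ω) →ₐ[R] (X' → Ω) where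
  toFun f y := f (g y)
  map_one' := rfl
  map_mul' _ _ := rfl
  map_zero' := rfl
  map_add' _ _ := rfl
  commutes' _ := rfl

/-- the product of two realisations by functions -/
def prodA (e : M →ₐ[R] (X → Ω)) (e' : M' →ₐ[R] (X' → Ω)) : M ⊗[R] M' →ₐ[R] (X × X' → Ω) :=
  Algebra.TensorProduct.lift ((pull Prod.fst).comp e) ((pull Prod.snd).comp e')
    (fun _ _ => Commute.all _ _)

theorem prodA_tmul (e : M →ₐ[R] (X → Ω)) (e' : M' →ₐ[R] (X' → Ω)) (x : M) (y : M') (p : X × X') :
    prodA e e' (x ⊗ₜ y) p = e x p.1 * e' y p.2 := by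
  rw [prodA, Algebra.TensorProduct.lift_tmul]
  rfl

theorem prodA_eq (e : M →ₐ[R] (X → Ω)) (e' : M' →ₐ[R] (X' → Ω)) :
    (prodA e e').toLinearMap = prodE e.toLinearMap e'.toLinearMap := by
  ext x y p
  exact prodA_tmul e e' x y p

theorem oInj_prodA {e : M →ₐ[R] (X → Ω)} {e' : M' →ₐ[R] (X' → Ω)} (h : OInj e.toLinearMap)
    (h' : OInj e'.toLinearMap) : OInj (prodA e e').toLinearMap := by
  rw [prodA_eq]
  exact h.prod h'

end algHoms

variable {V : Type} [AddCommGroup V]

/-- a ring of integral equivariant functions separating points, with comultiplication -/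
structure IsHopfFn (act : (Ω ≃ₐ[R] Ω) → V → V) (H : Subalgebra R (V → Ω)) : Prop
    extends IsFn act H where
  act_zero : ∀ σ, act σ 0 = 0
  comul : ∀ x ∈ H, (fun p : V × V => x (p.1 + p.2)) ∈ Submodule.span R
    {f : V × V → Ω | ∃ y ∈ H, ∃ z ∈ H, f = fun p => y p.1 * z p.2}

namespace IsHopfFn

variable {act : (Ω ≃ₐ[R] Ω) → V → V} {H : Subalgebra R (V → Ω)} (hH : IsHopfFn act H)
  [Finite V] [IsPrincipalIdealRing R]

include hH

/-- the realisation of the tensor square -/
def ev2 (_hH : IsHopfFn act H) : H ⊗[R] H →ₐ[R] (V × V → Ω) := prodA H.val H.val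

/-- the realisation of the tensor cube -/
def ev3 (_hH : IsHopfFn act H) : H ⊗[R] (H ⊗[R] H) →ₐ[R] (V × (V × V) → Ω) :=
  prodA H.val (prodA H.val H.val)

theorem ev2_tmul (x y : H) (p : V × V) : hH.ev2 (x ⊗ₜ y) p = (x : V → Ω) p.1 * (y : V → Ω) p.2 :=
  prodA_tmul _ _ _ _ _

theorem ev3_tmul (x : H) (z : H ⊗[R] H) (p : V × (V × V)) :
    hH.ev3 (x ⊗ₜ z) p = (x : V → Ω) p.1 * hH.ev2 z p.2 :=
  prodA_tmul _ _ _ _ _

theorem ev2_injective : Function.Injective hH.ev2 :=
  (oInj_prodA hH.oInj hH.oInj).injective

theorem ev3_injective : Function.Injective hH.ev3 :=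
  (oInj_prodA hH.oInj (oInj_prodA hH.oInj hH.oInj)).injective

theorem mem_range (x : H) :
    pull (R := R) (fun p : V × V => p.1 + p.2) (x : V → Ω) ∈ hH.ev2.range := by
  have h1 := hH.comul x x.2
  have h2 : Submodule.span R {f : V × V → Ω | ∃ y ∈ H, ∃ z ∈ H, f = fun p => y p.1 * z p.2} ≤
      Subalgebra.toSubmodule hH.ev2.range := by
    rw [Submodule.span_le]
    rintro f ⟨y, hy, z, hz, rfl⟩
    exact ⟨(⟨y, hy⟩ : H) ⊗ₜ (⟨z, hz⟩ : H), funext fun p => hH.ev2_tmul _ _ p⟩
  exact h2 h1

/-- the comultiplication -/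
def comulA : H →ₐ[R] H ⊗[R] H :=
  (AlgEquiv.ofInjective hH.ev2 hH.ev2_injective).symm.toAlgHom.comp
    (AlgHom.codRestrict ((pull fun p : V × V => p.1 + p.2).comp H.val) hH.ev2.range hH.mem_range)

theorem ev2_comulA (x : H) (p : V × V) : hH.ev2 (hH.comulA x) p = (x : V → Ω) (p.1 + p.2) := by
  have h1 := (AlgEquiv.ofInjective hH.ev2 hH.ev2_injective).apply_symm_apply
    (AlgHom.codRestrict ((pull fun p : V × V => p.1 + p.2).comp H.val) hH.ev2.range hH.mem_range x)
  exact congrFun (congrArg Subtype.val h1) p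

theorem exists_counit (x : H) : ∃ r : R, algebraMap R Ω r = (x : V → Ω) 0 := by
  obtain ⟨r, s, hs, hrs⟩ := FixBase.fix (R := R) ((x : V → Ω) 0) (fun σ => by
    rw [← hH.equiv x x.2, hH.act_zero])
  have hint := hH.int x x.2 0
  let K := FractionRing R
  let φ : K →+* Ω := IsLocalization.lift (M := nonZeroDivisors R) (g := algebraMap R Ω)
    (fun m => IsUnit.mk0 _ (alg_ne_zero (nonZeroDivisors.coe_ne_zero m)))
  have hφ : ∀ r, φ (algebraMap R K r) = algebraMap R Ω r := fun r => IsLocalization.lift_eq _ r
  let q : K := algebraMap R K r / algebraMap R K s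
  have hq : φ q = (x : V → Ω) 0 := by
    rw [map_div₀, hφ, hφ, ← hrs, mul_comm, mul_div_assoc, div_self (alg_ne_zero hs), mul_one]
  have hqi : IsIntegral R q := by
    obtain ⟨f, hf, hf0⟩ := hint
    refine ⟨f, hf, φ.injective ?_⟩
    rw [map_zero, Polynomial.hom_eval₂, hq]
    have : φ.comp (algebraMap R K) = algebraMap R Ω := RingHom.ext hφ
    rw [this]
    exact hf0
  obtain ⟨r', hr'⟩ := IsIntegrallyClosed.isIntegral_iff.1 hqi
  exact ⟨r', by rw [← hφ, hr', hq]⟩

/-- the counit -/
def counitA : H →ₐ[R] R where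
  toFun x := (hH.exists_counit x).choose
  map_one' := FixBase.inj (R := R) (Ω := Ω) (by
    rw [(hH.exists_counit 1).choose_spec, map_one]; rfl)
  map_mul' x y := FixBase.inj (R := R) (Ω := Ω) (by
    rw [(hH.exists_counit (x * y)).choose_spec, map_mul, (hH.exists_counit x).choose_spec,
      (hH.exists_counit y).choose_spec]; rfl)
  map_zero' := FixBase.inj (R := R) (Ω := Ω) (by
    rw [(hH.exists_counit 0).choose_spec, map_zero]; rfl)
  map_add' x y := FixBase.inj (R := R) (Ω := Ω) (by
    rw [(hH.exists_counit (x + y)).choose_spec, map_add, (hH.exists_counit x).choose_spec,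
      (hH.exists_counit y).choose_spec]; rfl)
  commutes' r := FixBase.inj (R := R) (Ω := Ω) (by
    rw [(hH.exists_counit (algebraMap R H r)).choose_spec]; rfl)

theorem algebraMap_counitA (x : H) : algebraMap R Ω (hH.counitA x) = (x : V → Ω) 0 :=
  (hH.exists_counit x).choose_spec

theorem nsmul_mem (k : ℕ) : ∀ x ∈ H, (fun P : V => x (k • P)) ∈ H := by
  induction k with
  | zero =>
    intro x hx
    obtain ⟨r, hr⟩ := hH.exists_counit ⟨x, hx⟩
    have : (fun P : V => x (0 • P)) = algebraMap R (V → Ω) r := by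
      funext P
      rw [zero_smul]
      exact hr.symm
    rw [this]
    exact H.algebraMap_mem r
  | succ k ih =>
    intro x hx
    let d : (V × V → Ω) →ₗ[R] (V → Ω) := (pull fun P : V => (k • P, P)).toLinearMap
    have h1 : d (fun p : V × V => x (p.1 + p.2)) ∈ Submodule.map d (Submodule.span R
        {f : V × V → Ω | ∃ y ∈ H, ∃ z ∈ H, f = fun p => y p.1 * z p.2}) :=
      Submodule.mem_map_of_mem (hH.comul x hx)
    have h2 : Submodule.map d (Submodule.span R
        {f : V × V → Ω | ∃ y ∈ H, ∃ z ∈ H, f = fun p => y p.1 * z p.2}) ≤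
        Subalgebra.toSubmodule H := by
      rw [Submodule.map_le_iff_le_comap, Submodule.span_le]
      rintro f ⟨y, hy, z, hz, rfl⟩
      exact H.mul_mem (ih y hy) hz
    have h3 := h2 h1
    have h4 : (fun P : V => x ((k + 1) • P)) = d (fun p : V × V => x (p.1 + p.2)) := by
      funext P
      rw [succ_nsmul]
      rfl
    rw [h4]
    exact h3

theorem neg_mem (x : V → Ω) (hx : x ∈ H) : (fun P : V => x (-P)) ∈ H := by
  haveI := Fintype.ofFinite V
  have h1 : ∀ P : V, -P = (Fintype.card V - 1) • P := by
    intro P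
    have h2 : (Fintype.card V - 1 + 1) • P = 0 := by
      rw [Nat.sub_add_cancel Fintype.card_pos]
      exact card_nsmul_eq_zero
    rw [succ_nsmul] at h2
    exact (eq_neg_of_add_eq_zero_left h2).symm
  have h2 := hH.nsmul_mem (Fintype.card V - 1) x hx
  simpa only [h1] using h2

/-- the antipode -/
def antiA : H →ₐ[R] H :=
  AlgHom.codRestrict ((pull fun P : V => -P).comp H.val) H fun x => hH.neg_mem x x.2

theorem antiA_apply (x : H) (P : V) : (hH.antiA x : V → Ω) P = (x : V → Ω) (-P) := rfl

theorem coassocA : (Algebra.TensorProduct.assoc R R R H H H).toAlgHom.comp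
    ((Algebra.TensorProduct.map hH.comulA (.id R H)).comp hH.comulA) =
      (Algebra.TensorProduct.map (.id R H) hH.comulA).comp hH.comulA := by
  refine AlgHom.ext fun x => hH.ev3_injective (funext fun p => ?_)
  have h0 : ∀ (z : H ⊗[R] H) (w : H), hH.ev3 (Algebra.TensorProduct.assoc R R R H H H
      (z ⊗ₜ w)) p = hH.ev2 z (p.1, p.2.1) * (w : V → Ω) p.2.2 := by
    intro z w
    induction z using TensorProduct.induction_on with
    | zero => simp
    | tmul a b =>
      rw [Algebra.TensorProduct.assoc_tmul, ev3_tmul, ev2_tmul, ev2_tmul]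
      ring
    | add a b ha hb =>
      rw [TensorProduct.add_tmul, map_add, map_add, map_add, Pi.add_apply, Pi.add_apply, ha, hb,
        add_mul]
  have h1 : ∀ z : H ⊗[R] H, hH.ev3 (Algebra.TensorProduct.assoc R R R H H H
      (Algebra.TensorProduct.map hH.comulA (.id R H) z)) p = hH.ev2 z (p.1 + p.2.1, p.2.2) := by
    intro z
    induction z using TensorProduct.induction_on with
    | zero => simp
    | tmul a b =>
      rw [Algebra.TensorProduct.map_tmul, h0, ev2_comulA, ev2_tmul]
      rfl
    | add a b ha hb => rw [map_add, map_add, map_add, map_add, Pi.add_apply, Pi.add_apply, ha, hb]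
  have h2 : ∀ z : H ⊗[R] H, hH.ev3 (Algebra.TensorProduct.map (.id R H) hH.comulA z) p =
      hH.ev2 z (p.1, p.2.1 + p.2.2) := by
    intro z
    induction z using TensorProduct.induction_on with
    | zero => simp
    | tmul a b =>
      rw [Algebra.TensorProduct.map_tmul, ev3_tmul, ev2_comulA, ev2_tmul]
      rfl
    | add a b ha hb => rw [map_add, map_add, map_add, Pi.add_apply, Pi.add_apply, ha, hb]
  have h3 := hH.ev2_comulA x (p.1 + p.2.1, p.2.2)
  have h4 := hH.ev2_comulA x (p.1, p.2.1 + p.2.2)
  refine (h1 (hH.comulA x)).trans (h3.trans (Eq.trans ?_ (h4.symm.trans (h2 (hH.comulA x)).symm)))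
  rw [add_assoc]

theorem lid_counit (x : H) : Algebra.TensorProduct.lid R H
    (Algebra.TensorProduct.map hH.counitA (.id R H) (hH.comulA x)) = x := by
  apply Subtype.ext
  funext P
  have h1 : ∀ z : H ⊗[R] H, ((Algebra.TensorProduct.lid R H
      (Algebra.TensorProduct.map hH.counitA (.id R H) z) : H) : V → Ω) P = hH.ev2 z (0, P) := by
    intro z
    induction z using TensorProduct.induction_on with
    | zero => simp
    | tmul a b =>
      rw [Algebra.TensorProduct.map_tmul, Algebra.TensorProduct.lid_tmul, ev2_tmul]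
      change hH.counitA a • (b : V → Ω) P = _
      rw [Algebra.smul_def, algebraMap_counitA]
    | add a b ha hb =>
      rw [map_add, map_add, map_add, Pi.add_apply, ← ha, ← hb]
      rfl
  refine (h1 _).trans ?_
  rw [ev2_comulA, zero_add]

theorem rid_counit (x : H) : Algebra.TensorProduct.rid R R H
    (Algebra.TensorProduct.map (.id R H) hH.counitA (hH.comulA x)) = x := by
  apply Subtype.ext
  funext P
  have h1 : ∀ z : H ⊗[R] H, ((Algebra.TensorProduct.rid R R H
      (Algebra.TensorProduct.map (.id R H) hH.counitA z) : H) : V → Ω) P = hH.ev2 z (P, 0) := by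
    intro z
    induction z using TensorProduct.induction_on with
    | zero => simp
    | tmul a b =>
      rw [Algebra.TensorProduct.map_tmul, Algebra.TensorProduct.rid_tmul, ev2_tmul]
      change hH.counitA b • (a : V → Ω) P = _
      rw [Algebra.smul_def, algebraMap_counitA, mul_comm]
    | add a b ha hb =>
      rw [map_add, map_add, map_add, Pi.add_apply, ← ha, ← hb]
      rfl
  refine (h1 _).trans ?_
  rw [ev2_comulA, add_zero]

/-- the bialgebra structure -/
@[reducible] def bialg : Bialgebra R H :=
  Bialgebra.ofAlgHom hH.comulA hH.counitA hH.coassocA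
    (AlgHom.ext fun x => (AlgEquiv.eq_symm_apply _).2 (hH.lid_counit x))
    (AlgHom.ext fun x => (AlgEquiv.eq_symm_apply _).2 (hH.rid_counit x))

/-- the Hopf algebra structure -/
@[reducible] def hopf : HopfAlgebra R H :=
  { hH.bialg with
    antipode := hH.antiA.toLinearMap
    mul_antipode_rTensor_comul := by
      refine LinearMap.ext fun x => Subtype.ext (funext fun P => ?_)
      have h1 : ∀ z : H ⊗[R] H, ((LinearMap.mul' R H (hH.antiA.toLinearMap.rTensor H z) : H) :
          V → Ω) P = hH.ev2 z (-P, P) := by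
        intro z
        induction z using TensorProduct.induction_on with
        | zero => simp
        | tmul a b =>
          rw [LinearMap.rTensor_tmul, LinearMap.mul'_apply, ev2_tmul]
          rfl
        | add a b ha hb =>
          rw [map_add, map_add, map_add, Pi.add_apply, ← ha, ← hb]
          rfl
      have h2 := hH.ev2_comulA x (-P, P)
      rw [neg_add_cancel] at h2
      exact (h1 (hH.comulA x)).trans (h2.trans (hH.algebraMap_counitA x).symm)
    mul_antipode_lTensor_comul := by
      refine LinearMap.ext fun x => Subtype.ext (funext fun P => ?_)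
      have h1 : ∀ z : H ⊗[R] H, ((LinearMap.mul' R H (hH.antiA.toLinearMap.lTensor H z) : H) :
          V → Ω) P = hH.ev2 z (P, -P) := by
        intro z
        induction z using TensorProduct.induction_on with
        | zero => simp
        | tmul a b =>
          rw [LinearMap.lTensor_tmul, LinearMap.mul'_apply, ev2_tmul]
          rfl
        | add a b ha hb =>
          rw [map_add, map_add, map_add, Pi.add_apply, ← ha, ← hb]
          rfl
      have h2 := hH.ev2_comulA x (P, -P)
      rw [add_neg_cancel] at h2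
      exact (h1 (hH.comulA x)).trans (h2.trans (hH.algebraMap_counitA x).symm) }

end IsHopfFn

end Fermat.Agent.FFG
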