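import Fermat.Agent.FFG.Hopf2

/-!
# The points of the Hopf algebra of functions
-/

set_option autoImplicit false
set_option linter.unusedSectionVars false
set_option linter.style.haveILetI false

noncomputable section

open scoped TensorProduct

namespace Fermat.Agent.FFG

variable {R Ω : Type} [CommRing R] [IsDomain R] [Field Ω] [Algebra R Ω] [FixBase R Ω]
  [IsPrincipalIdealRing R]

section points

variable {V : Type} [Finite V] {act : (Ω ≃ₐ[R] Ω) → V → V} {H : Subalgebra R (V → Ω)}

/-- every homomorphism is the evaluation at a point -/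
theorem IsFn.exists_point (hH : IsFn act H) (φ : H →ₐ[R] Ω) :
    ∃ P, ∀ x : H, φ x = (x : V → Ω) P := by
  classical
  haveI := Fintype.ofFinite V
  obtain ⟨ι, _, b, hb⟩ := hH.oInj
  have hspan : ⊤ ≤ Submodule.span Ω (Set.range fun i => H.val.toLinearMap (b i)) := by
    rw [← hH.span_eq_top, Submodule.span_le]
    intro x hx
    have h1 : x = ∑ i, algebraMap R Ω (b.repr ⟨x, hx⟩ i) • H.val.toLinearMap (b i) := by
      have h2 := congrArg H.val.toLinearMap (b.sum_repr ⟨x, hx⟩)
      rw [map_sum] at h2
      refine Eq.trans h2.symm ?_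
      exact Finset.sum_congr rfl fun i _ => by rw [map_smul, algebraMap_smul]
    rw [h1]
    exact Submodule.sum_mem _ fun i _ => Submodule.smul_mem _ _ (Submodule.subset_span ⟨i, rfl⟩)
  let B := Module.Basis.mk hb hspan
  let Φ : (V → Ω) →ₗ[Ω] Ω := B.constr Ω (fun i => φ (b i))
  have hΦ : ∀ x : H, Φ (x : V → Ω) = φ x := by
    intro x
    have h1 : (x : V → Ω) = ∑ i, algebraMap R Ω (b.repr x i) • B i := by
      have h2 := congrArg H.val.toLinearMap (b.sum_repr x)
      rw [map_sum] at h2
      refine Eq.trans h2.symm ?_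
      exact Finset.sum_congr rfl fun i _ => by
        rw [map_smul, algebraMap_smul, Module.Basis.mk_apply]
    rw [h1, map_sum]
    conv_rhs => rw [← b.sum_repr x, map_sum]
    refine Finset.sum_congr rfl fun i _ => ?_
    rw [map_smul, Module.Basis.constr_basis, smul_eq_mul, map_smul, Algebra.smul_def]
  have hmul : ∀ f g : V → Ω, Φ (f * g) = Φ f * Φ g := by
    have h1 : ∀ f ∈ H, ∀ g : V → Ω, Φ (f * g) = Φ f * Φ g := by
      intro f hf g
      have hg : g ∈ Submodule.span Ω (H : Set (V → Ω)) := by
        rw [hH.span_eq_top]; exact Submodule.mem_top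
      induction hg using Submodule.span_induction with
      | mem g hg =>
        have h2 := hΦ ⟨f * g, H.mul_mem hf hg⟩
        have h3 := hΦ ⟨f, hf⟩
        have h4 := hΦ ⟨g, hg⟩
        rw [h2, h3, h4, ← map_mul]
        rfl
      | zero => simp
      | add x y _ _ hx hy => rw [mul_add, map_add, map_add, hx, hy, mul_add]
      | smul c x _ hx => rw [mul_smul_comm, map_smul, map_smul, hx, mul_smul_comm]
    intro f g
    have hf : f ∈ Submodule.span Ω (H : Set (V → Ω)) := by
      rw [hH.span_eq_top]; exact Submodule.mem_top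
    induction hf using Submodule.span_induction with
    | mem f hf => exact h1 f hf g
    | zero => simp
    | add x y _ _ hx hy => rw [add_mul, map_add, map_add, hx, hy, add_mul]
    | smul c x _ hx => rw [smul_mul_assoc, map_smul, map_smul, hx, smul_mul_assoc]
  have hone : Φ 1 = 1 := by
    have := hΦ 1
    rw [map_one] at this
    exact this
  obtain ⟨P, hP⟩ : ∃ P, Φ (Pi.single P 1) ≠ 0 := by
    by_contra hcon
    push Not at hcon
    have h1 : (1 : V → Ω) = ∑ P, Pi.single P 1 := by
      funext Q
      simp [Finset.sum_apply, Pi.single_apply]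
    rw [h1, map_sum, Finset.sum_eq_zero fun P _ => hcon P] at hone
    exact zero_ne_one hone
  refine ⟨P, fun x => ?_⟩
  have h1 := hmul (x : V → Ω) (Pi.single P 1)
  have h2 : (x : V → Ω) * Pi.single P 1 = (x : V → Ω) P • Pi.single P (1 : Ω) := by
    funext Q
    by_cases hQ : Q = P
    · subst hQ; simp
    · simp [Pi.single_eq_of_ne hQ]
  rw [h2, map_smul, smul_eq_mul, hΦ] at h1
  exact (mul_right_cancel₀ hP h1).symm

/-- evaluation at a point -/
def evP (H : Subalgebra R (V → Ω)) (P : V) : H →ₐ[R] Ω :=
  (Pi.evalAlgHom R (fun _ => Ω) P).comp H.val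

theorem evP_apply (P : V) (x : H) : evP H P x = (x : V → Ω) P := rfl

end points

variable {V : Type} [AddCommGroup V] [Finite V] {act : (Ω ≃ₐ[R] Ω) → V → V}
  {H : Subalgebra R (V → Ω)}

namespace IsHopfFn

variable (hH : IsHopfFn act H)

/-- the bijection of points -/
def pts (hH : IsHopfFn act H) : (H →ₐ[R] Ω) ≃ V where
  toFun φ := (hH.exists_point φ).choose
  invFun P := evP H P
  left_inv φ := AlgHom.ext fun x => ((hH.exists_point φ).choose_spec x).symm
  right_inv P := hH.sep _ _ fun x hx => ((hH.exists_point (evP H P)).choose_spec ⟨x, hx⟩).symm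

theorem pts_spec (φ : H →ₐ[R] Ω) (x : H) : φ x = (x : V → Ω) (hH.pts φ) :=
  (hH.exists_point φ).choose_spec x

theorem pts_eq {φ : H →ₐ[R] Ω} {P : V} (h : ∀ x : H, φ x = (x : V → Ω) P) : hH.pts φ = P :=
  hH.sep _ _ fun x hx => (hH.pts_spec φ ⟨x, hx⟩).symm.trans (h ⟨x, hx⟩)

end IsHopfFn

/-- **The finite flat group scheme attached to a comultiplicative ring of functions.** -/
theorem IsHopfFn.exists_hopf (hH : IsHopfFn act H) :
    ∃ (B : Type) (_ : CommRing B) (_ : HopfAlgebra R B), Module.Finite R B ∧ Module.Flat R B ∧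
      Coalgebra.IsCocomm R B ∧ ∃ e : WithConv (B →ₐ[R] Ω) ≃ V,
        (∀ f g, e (f * g) = e f + e g) ∧
        ∀ (σ : Ω ≃ₐ[R] Ω) (f g : WithConv (B →ₐ[R] Ω)), (∀ h, g h = σ (f h)) →
          e g = act σ (e f) := by
  letI := hH.hopf
  refine ⟨H, inferInstance, hH.hopf, hH.finite, ?_, ?_, ?_⟩
  · haveI := hH.free
    infer_instance
  · constructor
    refine LinearMap.ext fun x => hH.ev2_injective (funext fun p => ?_)
    have h1 : ∀ z : H ⊗[R] H, hH.ev2 ((TensorProduct.comm R H H) z) p = hH.ev2 z (p.2, p.1) := by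
      intro z
      induction z using TensorProduct.induction_on with
      | zero => simp
      | tmul a b => rw [TensorProduct.comm_tmul, hH.ev2_tmul, hH.ev2_tmul, mul_comm]
      | add a b ha hb => rw [map_add, map_add, map_add, Pi.add_apply, Pi.add_apply, ha, hb]
    have h2 := hH.ev2_comulA x p
    have h3 := hH.ev2_comulA x (p.2, p.1)
    rw [add_comm p.2 p.1] at h3
    exact (h1 (hH.comulA x)).trans (h3.trans h2.symm)
  · refine ⟨(WithConv.equiv (H →ₐ[R] Ω)).trans hH.pts, fun f g => ?_, fun σ f g h => ?_⟩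
    · apply hH.pts_eq
      intro x
      have h1 : ∀ z : H ⊗[R] H, Algebra.TensorProduct.lift (S := R) f.ofConv g.ofConv
          (fun _ _ => Commute.all _ _) z = hH.ev2 z (hH.pts f.ofConv, hH.pts g.ofConv) := by
        intro z
        induction z using TensorProduct.induction_on with
        | zero => simp
        | tmul a b =>
          rw [Algebra.TensorProduct.lift_tmul, hH.ev2_tmul, hH.pts_spec, hH.pts_spec]
        | add a b ha hb => rw [map_add, map_add, Pi.add_apply, ha, hb]
      have h2 := h1 (hH.comulA x)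
      rw [hH.ev2_comulA] at h2
      exact (AlgHom.convMul_apply f g x).trans h2
    · apply hH.pts_eq
      intro x
      have h1 : g.ofConv x = σ (f.ofConv x) := h x
      refine Eq.trans h1 ?_
      rw [hH.pts_spec f.ofConv x, ← hH.equiv _ x.2]
      rfl

end Fermat.Agent.FFG
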