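import Fermat.Agent.FFG.Laurent
import Fermat.Agent.FFG.Desc4
import Fermat.Agent.Cov.FHdef
import Fermat.Agent.Cov.Fibre
import Fermat.Agent.Spec.Level
import Fermat.Agent.RedMod.Genus
import Fermat.Agent.RedMod.Bar
import Fermat.Agent.MW.TorsFin
import Fermat.Agent.Kum.Action

/-!
# Finite flat models of finite Galois submodules of `J₀(N)`
-/

set_option autoImplicit false
set_option linter.unusedSectionVars false
set_option linter.style.haveILetI false

noncomputable section

namespace Fermat.Agent.FFG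

open AlgebraicCurve Fermat.Agent.RR Fermat.Agent.Curve Fermat.Agent.Cov Fermat.Agent.Flat
open ModularCurve Fermat.Agent.RedMod Fermat.Agent.ModPoly

local notation "Ω" => AlgebraicClosure ℚ

local notation "𝒢" => (AlgebraicClosure ℚ) ≃ₐ[ℚ] (AlgebraicClosure ℚ)

variable {A : ValuationSubring (AlgebraicClosure ℚ)} {p : ℕ} [Fact p.Prime] {N : ℕ} [NeZero N]

theorem exists_GPSP_FF {k : Type} [Field k] [IsAlgClosed k] [Algebra A k]
    (hk : Function.Surjective (algebraMap A k)) (hN : (N : k) ≠ 0)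
    {E : IntermediateField Ω (LaurentSeries Ω)} (hE : E = FF Ω N) [FunField Ω E]
    [FunField k (FF k N)] :
    ∃ G : GP A E (FF k N) (monos hN), SP G ∧ rrGenus k (FF k N) = rrGenus Ω E := by
  subst hE
  have hNK : (N : Ω) ≠ 0 := by exact_mod_cast NeZero.ne N
  let G : GP A (FF Ω N) (FF k N) (monos hN) :=
    { hk := hk
      jK := jq_mem_FF
      jk := jq_mem_FF
      yK := fun i => cst_mem_FF (monos_mem hN i)
      yk := fun i => cst_mem_FF (monos_mem hN i)
      indep := LIZ_monos hN
      fin := by rw [jF_eq]; exact finiteDimensional_E' hNK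
      rk := by rw [jF_eq, Fintype.card_fin]; exact finrank_E' hNK }
  refine ⟨G, ?_, ?_⟩
  · exact
      { sep := by rw [jF_eq]; exact isSeparable_E hNK
        fink := by rw [jF_eq]; exact finiteDimensional_E' hN
        sepk := by rw [jF_eq]; exact isSeparable_E hN
        rkk := by rw [jF_eq, Fintype.card_fin]; exact finrank_E' hN }
  · exact Spec.rrGenus_eq_level (A := A) exists_ιC.some hk hN

theorem exists_isHopfFn_J_aux {k : Type} [Field k] [IsAlgClosed k] [Algebra A k]
    (hk : Function.Surjective (algebraMap A k)) (hN : (N : k) ≠ 0)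
    (hA : A.LiesOverPrime p) {V : Type} [AddCommGroup V] [Finite V]
    (act : 𝒢 → V → V) (φ : V →+ JZero N)
    (hφ : Function.Injective φ) (hφeq : ∀ (σ : 𝒢) P, φ (act σ P) = σ • φ P) :
    ∃ H : Subalgebra (R0 A) (V → Ω), IsHopfFn (actI (A := A) act) H := by
  haveI := funField_FF (k := k) (M := N) hN
  haveI : FunField Ω (FF Ω N) :=
    funField_FF (k := Ω) (M := N) (by exact_mod_cast NeZero.ne N)
  haveI : FunField Ω (laurentBaseChange Ω (modularFunctionFieldFull N)) := by
    rw [X0Genus.baseChange_eq Ω N]; infer_instance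
  obtain ⟨G, S, hg⟩ := exists_GPSP_FF (A := A)
    (E := laurentBaseChange Ω (modularFunctionFieldFull N)) hk hN (X0Genus.baseChange_eq Ω N)
  exact exists_isHopfFn_laurent (modularFunctionFieldFull N) hA G S hg _ φ hφ
    (fun γ P => hφeq (rq γ) P)

/-- **Finite Galois stable subgroups of `J₀(N)` have finite flat models** over the strict
henselisation at `p ∤ N`. -/
theorem exists_isHopfFn_J (hN : ¬ p ∣ N)
    (hA : A.LiesOverPrime p) {V : Type} [AddCommGroup V] [Finite V]
    (act : 𝒢 → V → V) (φ : V →+ JZero N)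
    (hφ : Function.Injective φ) (hφeq : ∀ (σ : 𝒢) P, φ (act σ P) = σ • φ P) :
    ∃ H : Subalgebra (R0 A) (V → Ω), IsHopfFn (actI (A := A) act) H :=
  exists_isHopfFn_J_aux (k := IsLocalRing.ResidueField A) IsLocalRing.residue_surjective
    (natCast_residue_ne_zero hA hN) hA act φ hφ hφeq

/-- divisors with a multiple defined over a number field are defined over it -/
theorem exists_level_class {m : ℕ} [NeZero m] (x : JZero N) (hx : m • x = 0) :
    ∃ L : IntermediateField ℚ Ω, FiniteDimensional ℚ L ∧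
      ∀ σ : 𝒢, (∀ a ∈ L, σ a = a) → σ • x = x := by
  obtain ⟨ι⟩ := exists_ιC
  haveI : Nonempty (Ω →+* ℂ) := ⟨ι⟩
  obtain ⟨D, rfl⟩ := Pic0.mk_surjective x
  rw [Spec.nsmul_mk, Spec.pic0_mk_eq_zero] at hx
  obtain ⟨f, hf, hfD⟩ := Spec.isPrincipal_iff.1 hx
  have hfD' : m • (D : Divisor Ω (Kum.FK Ω N)) = divisor Ω f := hfD
  obtain ⟨L, hL, hLf⟩ := Kum.exists_level (K := Ω) f
  refine ⟨L, hL, fun σ hσ => ?_⟩
  have h1 : arithmeticGalois (modularFunctionFieldFull N) σ • f = f := hLf σ hσ
  rw [galois_smul_pic0_def, SemilinearAut.pic0_smul_mk]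
  congr 1
  apply Subtype.ext
  change arithmeticGalois (modularFunctionFieldFull N) σ • (D : Divisor Ω (Kum.FK Ω N)) = D
  ext v
  rw [SemilinearAut.divisor_smul_apply]
  apply mul_left_cancel₀ (a := (m : ℤ)) (by exact_mod_cast NeZero.ne m)
  have h2 : ∀ w : Place Ω (Kum.FK Ω N), (m : ℤ) * (D : Divisor Ω (Kum.FK Ω N)) w = w.ord f := by
    intro w
    have h3 := DFunLike.congr_fun hfD' w
    rw [divisor_apply, Finsupp.smul_apply, nsmul_eq_mul] at h3
    exact h3
  rw [h2, h2]
  have h4 := SemilinearAut.ord_smul (arithmeticGalois (modularFunctionFieldFull N) σ)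
    ((arithmeticGalois (modularFunctionFieldFull N) σ)⁻¹ • v) f
  rw [smul_inv_smul, h1] at h4
  exact h4.symm

/-- finite Galois modules inside `J₀(N)` -/
theorem galMod_J {V : Type} [AddCommGroup V] [Finite V] (m : ℕ) [NeZero m] (hV : ∀ P : V, m • P = 0)
    (act : 𝒢 → V → V) (φ : V →+ JZero N)
    (hφ : Function.Injective φ) (hφeq : ∀ (σ : 𝒢) P, φ (act σ P) = σ • φ P) : GalMod V act where
  one P := hφ (by rw [hφeq, one_smul])
  mul σ τ P := hφ (by rw [hφeq, hφeq, hφeq, mul_smul])
  add σ P Q := hφ (by rw [hφeq, map_add, map_add, hφeq, hφeq, smul_add])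
  lev := by
    classical
    haveI := Fintype.ofFinite V
    choose L hL hLx using fun P : V => exists_level_class (m := m) (φ P)
      (by rw [← map_nsmul, hV, map_zero])
    refine ⟨⨆ P, L P, ?_, fun σ hσ P => hφ ?_⟩
    · exact IntermediateField.finiteDimensional_iSup_of_finite
    · rw [hφeq]
      exact hLx P σ fun a ha => hσ a ((le_iSup L P) ha)

end Fermat.Agent.FFG
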