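import Fermat.Agent.FFG.Base
import Fermat.Agent.FFG.Disc
import Fermat.Agent.Cov.Fibre
import Fermat.Agent.Spec.Model
import Fermat.Agent.Cusp.Cusps
import Fermat.Prelude.Def_ModularCurve_ArithmeticGalois

/-!
# Finite flat models for function fields inside Laurent series
-/

set_option autoImplicit false
set_option linter.unusedSectionVars false
set_option linter.style.haveILetI false

noncomputable section

namespace Fermat.Agent.FFG

open AlgebraicCurve Fermat.Agent.RR Fermat.Agent.Curve Fermat.Agent.Red Fermat.Agent.Spec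
open Fermat.Agent.Flat Fermat.Agent.Places ModularCurve Fermat.Agent.RedMod Fermat.Agent.Cov
open Fermat.Agent.ModPoly Module

local notation "Ω" => AlgebraicClosure ℚ

attribute [local instance] Fermat.Agent.Spec.algI Fermat.Agent.Spec.isScalarTower_algI

variable {A : ValuationSubring (AlgebraicClosure ℚ)} (F₀ : IntermediateField ℚ (LaurentSeries ℚ))
  {k : Type} [Field k] [Algebra A k] (hk : Function.Surjective (algebraMap A k))

include hk in
theorem map_eq_zero_of_nonunit {a : A} (ha : (a : Ω) ∈ A.nonunits) : algebraMap A k a = 0 := by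
  by_contra h
  have h1 := isUnit_of_ne hk a h
  rw [ValuationSubring.mem_nonunits_iff_exists_mem_maximalIdeal] at ha
  obtain ⟨h2, h3⟩ := ha
  exact (IsLocalRing.mem_maximalIdeal _).1 h3 h1

include hk in
theorem mem_nonunits_of_map {a : A} (ha : algebraMap A k a = 0) : (a : Ω) ∈ A.nonunits := by
  rw [ValuationSubring.mem_nonunits_iff_exists_mem_maximalIdeal]
  refine ⟨a.2, (IsLocalRing.mem_maximalIdeal _).2 fun h => ?_⟩
  have h1 := (h.map (algebraMap A k)).ne_zero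
  exact h1 ha

include hk in
theorem res_aut' (γ : Ω ≃ₐ[R0 A] Ω) {a a' : A} (h : algebraMap A Ω a' = γ (algebraMap A Ω a)) :
    algebraMap A k a' = algebraMap A k a := by
  have h1 : γ a - a ∈ A.nonunits := (mem_inertia_iff A _).1 (rq_mem γ) a a.2
  have h2 : ((a' - a : A) : Ω) ∈ A.nonunits := by
    have h3 : (a' : Ω) = γ (a : Ω) := h
    push_cast
    rw [h3]; exact h1
  have h3 := map_eq_zero_of_nonunit hk h2
  rw [map_sub, sub_eq_zero] at h3
  exact h3

include hk in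
theorem exists_fixScal' {p : ℕ} [Fact p.Prime] (hA : A.LiesOverPrime p) (c : k) :
    ∃ a ∈ fixScal A, algebraMap A k a = c := by
  obtain ⟨a, rfl⟩ := hk c
  obtain ⟨y, hy, hya⟩ := exists_R0_sub_mem hA a.2
  refine ⟨⟨y, hy.1⟩, hy.2, ?_⟩
  have h3 := map_eq_zero_of_nonunit hk (a := (⟨y, hy.1⟩ : A) - a) hya
  rw [map_sub, sub_eq_zero] at h3
  exact h3

theorem coeff_smul_coe (c : Ω) (x : laurentBaseChange Ω F₀) (n : ℤ) :
    ((c • x : laurentBaseChange Ω F₀) : LaurentSeries Ω).coeff n =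
      c • (x : LaurentSeries Ω).coeff n := by
  rw [Algebra.smul_def]
  change (algebraMap Ω (LaurentSeries Ω) c * (x : LaurentSeries Ω)).coeff n = _
  rw [algebraMap_eq_C, HahnSeries.C_mul_eq_smul, HahnSeries.coeff_smul]

/-- the action of inertia by coefficientwise automorphisms -/
def rhoA (γ : Ω ≃ₐ[R0 A] Ω) : SemilinearAut Ω (laurentBaseChange Ω F₀) :=
  arithmeticGalois F₀ (rq γ)

theorem coe_rhoA (γ : Ω ≃ₐ[R0 A] Ω) (x : laurentBaseChange Ω F₀) :
    ((rhoA F₀ γ • x : laurentBaseChange Ω F₀) : LaurentSeries Ω) =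
      coeffMap ((rq γ : Ω ≃ₐ[ℚ] Ω) : Ω →+* Ω) (x : LaurentSeries Ω) := rfl

theorem rhoA_smul (γ : Ω ≃ₐ[R0 A] Ω) (a : Ω) (x : laurentBaseChange Ω F₀) :
    rhoA F₀ γ • (a • x) = γ a • rhoA F₀ γ • x := by
  rw [Algebra.smul_def, Algebra.smul_def, smul_mul', SemilinearAut.smul_algebraMap]
  rfl

theorem exists_autA (γ : Ω ≃ₐ[R0 A] Ω) : ∃ g : A →+* A,
    ∀ a : A, algebraMap A Ω (g a) = γ (algebraMap A Ω a) := by
  choose g hg using fun a : A => aut_A A γ a
  have hginj : ∀ {a b : A}, algebraMap A Ω a = algebraMap A Ω b → a = b := fun h =>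
    Subtype.val_injective h
  exact ⟨
    { toFun := g
      map_one' := hginj (by rw [hg, map_one, map_one])
      map_mul' := fun a b => hginj (by rw [hg, map_mul, map_mul, map_mul, hg, hg])
      map_zero' := hginj (by rw [hg, map_zero, map_zero])
      map_add' := fun a b => hginj (by rw [hg, map_add, map_add, map_add, hg, hg]) }, hg⟩

theorem inc_coeffMap (γ : Ω ≃ₐ[R0 A] Ω) (g : A →+* A)
    (hg : ∀ a : A, algebraMap A Ω (g a) = γ (algebraMap A Ω a)) (s : LaurentSeries A) :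
    incL A Ω (coeffMap g s) = coeffMap ((rq γ : Ω ≃ₐ[ℚ] Ω) : Ω →+* Ω) (incL A Ω s) := by
  ext n
  simp only [incL, coeffMap_coeff]
  exact hg _

include hk in
theorem red_coeffMap_g (γ : Ω ≃ₐ[R0 A] Ω) (g : A →+* A)
    (hg : ∀ a : A, algebraMap A Ω (g a) = γ (algebraMap A Ω a)) (s : LaurentSeries A) :
    redL A k (coeffMap g s) = redL A k s := by
  ext n
  simp only [redL, coeffMap_coeff]
  exact res_aut' hk γ (hg (s.coeff n))

theorem coeffMap_mem_WL (hk : Function.Surjective (algebraMap A k)) (γ : Ω ≃ₐ[R0 A] Ω)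
    {x : LaurentSeries Ω} (hx : x ∈ WL A Ω k) :
    coeffMap ((rq γ : Ω ≃ₐ[ℚ] Ω) : Ω →+* Ω) x ∈ WL A Ω k := by
  obtain ⟨u, v, hv, h⟩ := hx
  obtain ⟨g, hg⟩ := exists_autA (A := A) γ
  refine ⟨coeffMap g u, coeffMap g v, ?_, ?_⟩
  · rw [red_coeffMap_g hk γ g hg]; exact hv
  · rw [inc_coeffMap γ g hg, inc_coeffMap γ g hg, ← map_mul, h]

theorem πL_coeffMap' (hk : Function.Surjective (algebraMap A k)) (γ : Ω ≃ₐ[R0 A] Ω)
    (x : WL A Ω k) (h' : coeffMap ((rq γ : Ω ≃ₐ[ℚ] Ω) : Ω →+* Ω) (x : LaurentSeries Ω) ∈ WL A Ω k) :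
    πL A Ω k ⟨_, h'⟩ = πL A Ω k x := by
  obtain ⟨u, v, hv, h⟩ := x.2
  obtain ⟨g, hg⟩ := exists_autA (A := A) γ
  have h2 : incL A Ω (coeffMap g v) * coeffMap ((rq γ : Ω ≃ₐ[ℚ] Ω) : Ω →+* Ω) (x : LaurentSeries Ω) =
      incL A Ω (coeffMap g u) := by
    rw [inc_coeffMap γ g hg, inc_coeffMap γ g hg, ← map_mul, h]
  have hv' : redL A k (coeffMap g v) ≠ 0 := by rw [red_coeffMap_g hk γ g hg]; exact hv
  have e1 := πL_eq (A := A) (K := Ω) (k := k) ⟨_, h'⟩ hv' h2
  have e2 := πL_eq (A := A) (K := Ω) (k := k) x hv h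
  rw [e1, e2, red_coeffMap_g hk γ g hg, red_coeffMap_g hk γ g hg]

/-- automorphisms preserve the Gauss ring and act trivially on reductions -/
theorem red_coeffMap (hk : Function.Surjective (algebraMap A k)) (γ : Ω ≃ₐ[R0 A] Ω) {x : LaurentSeries Ω}
    (hx : x ∈ WL A Ω k) :
    ∃ h : coeffMap ((rq γ : Ω ≃ₐ[ℚ] Ω) : Ω →+* Ω) x ∈ WL A Ω k,
      πL A Ω k ⟨_, h⟩ = πL A Ω k ⟨x, hx⟩ :=
  ⟨coeffMap_mem_WL hk γ hx, πL_coeffMap' hk γ ⟨x, hx⟩ _⟩

theorem order_coeffMap' (γ : Ω ≃ₐ[R0 A] Ω) (x : LaurentSeries Ω) :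
    (coeffMap ((rq γ : Ω ≃ₐ[ℚ] Ω) : Ω →+* Ω) x).order = x.order := by
  rcases eq_or_ne x 0 with rfl | hx
  · rw [map_zero]
  · have h0 : ∀ i, (coeffMap ((rq γ : Ω ≃ₐ[ℚ] Ω) : Ω →+* Ω) x).coeff i = 0 ↔ x.coeff i = 0 := by
      intro i
      rw [coeffMap_coeff]
      exact map_eq_zero_iff _ (RingHom.injective _)
    have hx' : coeffMap ((rq γ : Ω ≃ₐ[ℚ] Ω) : Ω →+* Ω) x ≠ 0 := fun h => hx (by
      ext i
      have := congrArg (fun s => HahnSeries.coeff s i) h
      simp only [HahnSeries.coeff_zero] at this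
      exact (h0 i).1 this)
    apply le_antisymm
    · exact HahnSeries.order_le_of_coeff_ne_zero (fun h =>
        HahnSeries.coeff_order_eq_zero.not.2 hx ((h0 _).1 h))
    · exact HahnSeries.order_le_of_coeff_ne_zero (fun h =>
        HahnSeries.coeff_order_eq_zero.not.2 hx' ((h0 _).2 h))

section main

variable {p : ℕ} [Fact p.Prime] (hA : A.LiesOverPrime p)
  {E' : IntermediateField k (LaurentSeries k)}
  [FunField Ω (laurentBaseChange Ω F₀)] [FunField k E']
  [IsAlgClosed k]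
  {ι : Type*} [Fintype ι] {y : ι → LaurentSeries ℤ} (G : GP A (laurentBaseChange Ω F₀) E' y)

theorem order_jqModC_Om : (jqModC Ω).order = -1 := by
  rw [← Jc_one_one]; exact order_Jc 1 1

theorem place_ext {K F : Type*} [Field K] [IsAlgClosed K] [Field F] [Algebra K F] [FunField K F]
    {v w : Place K F} (h : ∀ x, v.ord x = w.ord x) : v = w := by
  apply Place.ext
  ext x
  constructor
  · intro hx
    apply Ge.mem
    rcases Ge.of_mem hx with h0 | h0
    · exact Or.inl h0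
    · exact Or.inr (by rw [← h]; exact h0)
  · intro hx
    apply Ge.mem
    rcases Ge.of_mem hx with h0 | h0
    · exact Or.inl h0
    · exact Or.inr (by rw [h]; exact h0)

variable (S : SP G) (hg : rrGenus k E' =
  rrGenus Ω (laurentBaseChange Ω F₀))

include hA S hg in
/-- **Finite flat models of finite groups of divisor classes, for fields of Laurent series.** -/
theorem exists_isHopfFn_laurent {V : Type} [AddCommGroup V] [Finite V]
    (act : (Ω ≃ₐ[R0 A] Ω) → V → V) (φ : V →+ Pic0 Ω (laurentBaseChange Ω F₀))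
    (hφ : Function.Injective φ) (hφeq : ∀ γ P, φ (act γ P) = rhoA F₀ γ • φ P) :
    ∃ H : Subalgebra (R0 A) (V → Ω), IsHopfFn act H := by
  classical
  haveI := isPrincipalIdealRing_R0 hA
  have Hf := fibreHypG S
  rw [hg] at Hf
  let M := Hf.M
  let 𝓓 : DivRed A Ω (laurentBaseChange Ω F₀) k E' M Hf.hk :=
    FibreHyp.divRed Hf
  obtain ⟨v, hv⟩ := Cusp.exists_place_of_order (laurentBaseChange Ω F₀).val
    ⟨⟨jqModC Ω, G.jK⟩, order_jqModC_Om⟩
  obtain ⟨w, hw⟩ := 𝓓.r_single v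
  have hred : ∀ (γ : Ω ≃ₐ[R0 A] Ω), ∀ x (hx : x ∈ M.W), ∃ h : rhoA F₀ γ • x ∈ M.W,
      M.π ⟨rhoA F₀ γ • x, h⟩ = M.π ⟨x, hx⟩ := by
    intro γ x hx
    obtain ⟨h, h'⟩ := red_coeffMap G.hk γ (x := (x : LaurentSeries Ω)) hx
    exact ⟨h, Subtype.ext h'⟩
  have hfix : ∀ γ : Ω ≃ₐ[R0 A] Ω, rhoA F₀ γ • v = v := by
    intro γ
    apply place_ext
    intro x
    have h1 := SemilinearAut.ord_smul (rhoA F₀ γ) v ((rhoA F₀ γ)⁻¹ • x)
    rw [smul_inv_smul] at h1
    rw [h1, hv, hv]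
    have h2 := order_coeffMap' γ (((rhoA F₀ γ)⁻¹ • x : laurentBaseChange Ω F₀) : LaurentSeries Ω)
    rw [← coe_rhoA, smul_inv_smul] at h2
    exact h2.symm
  have hLD : LiftData M (fun γ : Ω ≃ₐ[R0 A] Ω =>
      DistribSMul.toAddMonoidHom (laurentBaseChange Ω F₀) (rhoA F₀ γ)) (fixScal A) (p : A) := by
    have hfs : ∀ (γ : Ω ≃ₐ[R0 A] Ω) (a : A), a ∈ fixScal A → γ (algebraMap A Ω a) = algebraMap A Ω a :=
      fun γ a ha => fix_K0 A γ ha
    refine ⟨fun γ a ha x => ?_, exists_fixScal' G.hk hA, ?_, ?_, ?_, ?_⟩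
    · change rhoA F₀ γ • (a • x) = a • rhoA F₀ γ • x
      rw [← algebraMap_smul Ω a x, rhoA_smul, hfs γ a ha, algebraMap_smul]
    · change ((p : A) : Ω) ∈ K0 A
      push_cast
      exact natCast_mem (K0 A) p
    · intro h
      have := congrArg (fun z : A => (z : Ω)) h
      push_cast at this
      exact (Fact.out : p.Prime).ne_zero (by exact_mod_cast this)
    · intro x hx h0
      refine gauss_disc (gaussG G) Hf.hk Hf.hspan
        (fun γ : Ω ≃ₐ[R0 A] Ω => ((rq γ : Ω ≃ₐ[ℚ] Ω) : Ω →+* Ω))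
        (fun γ => (SemilinearAut.toRingAut (rhoA F₀ γ) : laurentBaseChange Ω F₀ →+* _))
        (fun γ a => ?_) (fun γ => ?_) (fun γ i => ?_) (p : A) (fun a ha hfa => ?_) x hx h0
      · exact SemilinearAut.smul_algebraMap (rhoA F₀ γ) a
      · apply Subtype.ext
        exact coeffMap_jqModC _
      · apply Subtype.ext
        exact coeffMap_cst _ _
      · have h1 : (a : Ω) ∈ K0 A := mem_K0_of_fix A hfa
        have h2 : (a : Ω) ∈ A.nonunits := mem_nonunits_of_map G.hk ha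
        obtain ⟨c, hc⟩ := R0_p_dvd hA (x := (⟨(a : Ω), a.2, h1⟩ : R0 A)) h2
        refine ⟨⟨(c : Ω), c.2.1⟩, Subtype.ext ?_⟩
        have h3 := congrArg (fun z : R0 A => (z : Ω)) hc
        push_cast at h3 ⊢
        exact h3
    · intro a ha
      exact dvd_pow_ell hA a ha
  have H : FixData (M := M) (rhoA (A := A) F₀) v w := by
    refine ⟨hred, hfix, ?_⟩
    obtain ⟨c, hc⟩ := 𝓓.rd_eq
    refine ⟨c, fun m hm y hy => ?_⟩
    have hrd := hc (Finsupp.single v m) (by rw [degree_single']; exact hm)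
    rw [r_single_n 𝓓 hw] at hrd
    rw [← hrd] at hy
    obtain ⟨f, hfL, hffix, hfi⟩ := exists_fixed_basis (X := ℤ) (K := Ω)
      (F := laurentBaseChange Ω F₀)
      (fun n =>
        { toFun := fun x => (x : LaurentSeries Ω).coeff n
          map_add' := fun x y => rfl
          map_smul' := fun c x => by
            change ((c • x : laurentBaseChange Ω F₀) : LaurentSeries Ω).coeff n = _
            exact coeff_smul_coe F₀ c x n })
      (fun x hx => by
        apply Subtype.ext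
        ext n
        exact hx n)
      (fun γ : Ω ≃ₐ[R0 A] Ω => ((rq γ : Ω ≃ₐ[ℚ] Ω) : Ω →+* Ω))
      (fun γ x => rhoA F₀ γ • x)
      (fun γ n x => by
        change ((rhoA F₀ γ • x : laurentBaseChange Ω F₀) : LaurentSeries Ω).coeff n = _
        rw [coe_rhoA, coeffMap_coeff]
        rfl)
      (riemannRochSpace (Finsupp.single v m)) (fun γ x hx => by
        have h1 := smul_mem_L (rhoA F₀ γ) hx
        rwa [SemilinearAut.smul_single, hfix γ] at h1)
    exact hLD.exists_lift Hf.hk f hfL hffix hfi hy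
  exact exists_isHopfFn_pic 𝓓 hw (rhoA_smul F₀) (aut_A A) (R0_to_A A) hφ hφeq H (isOver A)

end main

end Fermat.Agent.FFG
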