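import Fermat.Agent.FFG.Class
import Fermat.Agent.Cov.Good
import Fermat.Agent.Cov.GoodH

/-!
# The finite flat group schemes attached to `Hom_par(Γ_H(N), ℤ/m)`
-/

set_option autoImplicit false
set_option linter.unusedSectionVars false
set_option linter.style.haveILetI false

open UpperHalfPlane ModularForm Matrix.SpecialLinearGroup
open scoped MatrixGroups Manifold

noncomputable section

namespace Fermat.Agent.FFG

open AlgebraicCurve Fermat.Agent.RR Fermat.Agent.Curve Fermat.Agent.Cov Fermat.Agent.Flat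
open ModularCurve Fermat.Agent.KumG Fermat.Agent.RedMod

local notation "Ω" => AlgebraicClosure ℚ

variable {A : ValuationSubring (AlgebraicClosure ℚ)} {p : ℕ} [Fact p.Prime]
  {N m : ℕ} [NeZero N] [NeZero m] {H : Subgroup (ZMod N)ˣ}

theorem XLG_killed {Γ : Subgroup SL(2, ℤ)} [LvlG Γ] (x : XL Γ m) : m • x = 0 := by
  obtain ⟨φ, rfl⟩ := mkX_surjective x
  exact mkX_nsmul φ

instance finite_XLG {Γ : Subgroup SL(2, ℤ)} [LvlG Γ] : Finite (XL Γ m) := by
  have : Module.Finite ℤ (XL Γ m) := by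
    have : Function.Surjective (mkX : LZ Γ →+ XL Γ m).toIntLinearMap := mkX_surjective
    exact Module.Finite.of_surjective _ this
  have := Module.Finite.iff_addGroup_fg.1 this
  have hT : IsAddTorsion (XL Γ m) := fun x =>
    isOfFinAddOrder_iff_nsmul_eq_zero.2 ⟨m, NeZero.pos m, XLG_killed x⟩
  exact AddCommGroup.finite_of_fg_isAddTorsion _ hT

theorem exists_GPSP {k : Type} [Field k] [IsAlgClosed k] [Algebra A k]
    (hk : Function.Surjective (algebraMap A k)) (hN : (N : k) ≠ 0) (hN3 : 3 ≤ N) (hH : -1 ∈ H)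
    {E : IntermediateField Ω (LaurentSeries Ω)} (hE : E = FH Ω N H) [FunField Ω E]
    [FunField k (FH k N H)] :
    ∃ G : GP A E (FH k N H) (yF hN H), SP G ∧ rrGenus k (FH k N H) = rrGenus Ω E := by
  subst hE
  exact ⟨_, spH (A := A) (K := Ω) (k := k) (H := H) hk hN hN3 hH,
    rrGenus_eq_all (A := A) exists_ιC.some hk hN hN3 hH⟩

theorem exists_isHopfFn_XL_aux {k : Type} [Field k] [IsAlgClosed k] [Algebra A k]
    (hk : Function.Surjective (algebraMap A k)) (hN : (N : k) ≠ 0)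
    (hA : A.LiesOverPrime p) (hN3 : 3 ≤ N) (hH : -1 ∈ H)
    (ι : Ω →+* ℂ) :
    haveI := lvlG_GH N H hH
    haveI := Fermat.Agent.GamH.ratG_GH N H hH
    ∃ 𝓗 : Subalgebra (R0 A) (XL (GH N H) m → Ω),
      IsHopfFn (fun γ : Ω ≃ₐ[R0 A] Ω => rhoF ι m (rq γ)) 𝓗 := by
  haveI := lvlG_GH N H hH
  haveI := Fermat.Agent.GamH.ratG_GH N H hH
  haveI : Nonempty (Ω →+* ℂ) := ⟨ι⟩
  haveI := funField_FH (k := k) (H := H) hN hN3 hH
  obtain ⟨G, S, hg⟩ := exists_GPSP (E := FG (GH N H) Ω) hk hN hN3 hH (FG_eq_FH (H := H) ι hN3 hH)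
  exact exists_isHopfFn_laurent (FQG (GH N H)) hA G S hg _ (xToPic ι m) (xToPic_injective ι)
    (fun γ ξ => xToPic_smul ι (rq γ) ξ)

/-- **Flatness**: for `p ∤ N` the Galois module `Hom_par(Γ_H(N), ℤ/m)` comes, as a module over
the inertia group at `p`, from a finite flat group scheme over the valuation ring of the maximal
unramified extension. -/
theorem exists_isHopfFn_XL (hA : A.LiesOverPrime p) (hN : ¬ p ∣ N) (hN3 : 3 ≤ N) (hH : -1 ∈ H)
    (ι : Ω →+* ℂ) :
    haveI := lvlG_GH N H hH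
    haveI := Fermat.Agent.GamH.ratG_GH N H hH
    ∃ 𝓗 : Subalgebra (R0 A) (XL (GH N H) m → Ω),
      IsHopfFn (fun γ : Ω ≃ₐ[R0 A] Ω => rhoF ι m (rq γ)) 𝓗 :=
  exists_isHopfFn_XL_aux (k := IsLocalRing.ResidueField A) IsLocalRing.residue_surjective
    (natCast_residue_ne_zero hA hN) hA hN3 hH ι

end Fermat.Agent.FFG
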