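import Fermat.Agent.FFG.Main2

/-!
# Lifting elements of the special fibre to fixed elements
-/

set_option autoImplicit false
set_option linter.unusedSectionVars false
set_option linter.style.haveILetI false

noncomputable section

namespace Fermat.Agent.FFG

open Fermat.Agent.Red Module

section desc

variable {K F : Type*} [Field K] [AddCommGroup F] [Module K F]

/-- **Galois descent** for finite dimensional spaces of functions. -/
theorem exists_fixed_basis {X Γ : Type*} (ev : X → F →ₗ[K] K) (hev : ∀ f : F, (∀ x, ev x f = 0) → f = 0)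
    (γK : Γ → K →+* K) (γF : Γ → F → F) (h : ∀ γ x f, ev x (γF γ f) = γK γ (ev x f))
    (L : Submodule K F) [FiniteDimensional K L] (hL : ∀ γ, ∀ f ∈ L, γF γ f ∈ L) :
    ∃ f : Fin (finrank K L) → F, (∀ i, f i ∈ L) ∧ (∀ γ i, γF γ (f i) = f i) ∧
      LinearIndependent K f := by
  classical
  let b := Module.finBasis K L
  obtain ⟨g, hg⟩ := exists_minor (fun (x : X) (j : Fin (finrank K L)) => ev x (b j : F)) (by
    intro c hc
    have h1 : (∑ j, c j • (b j : F)) = 0 := by
      apply hev
      intro x
      rw [map_sum, ← hc x]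
      exact Finset.sum_congr rfl fun j _ => by rw [map_smul, smul_eq_mul, mul_comm]
    have h2 : ∑ j, c j • b j = 0 := by
      apply Subtype.ext
      push_cast
      exact h1
    funext j
    exact Fintype.linearIndependent_iff.1 b.linearIndependent c h2 j)
  let T : L →ₗ[K] (Fin (finrank K L) → K) := LinearMap.pi fun a => (ev (g a)).comp L.subtype
  have hT : Function.Injective T := by
    rw [← LinearMap.ker_eq_bot, LinearMap.ker_eq_bot']
    intro f hf
    have h1 : ∀ a, ∑ j, ev (g a) (b j : F) * b.repr f j = 0 := by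
      intro a
      have h2 := congrFun hf a
      change ev (g a) (f : F) = 0 at h2
      have h3 : (f : F) = ∑ j, b.repr f j • (b j : F) := by
        have := congrArg L.subtype (b.sum_repr f)
        rw [map_sum] at this
        exact this.symm
      rw [h3, map_sum] at h2
      rw [← h2]
      exact Finset.sum_congr rfl fun j _ => by rw [map_smul, smul_eq_mul, mul_comm]
    have h4 : (Matrix.of fun a b' => ev (g a) (b b' : F)).mulVec (fun j => b.repr f j) = 0 := by
      funext a
      exact h1 a
    have h5 := Matrix.eq_zero_of_mulVec_eq_zero hg h4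
    rw [← b.sum_repr f]
    exact Finset.sum_eq_zero fun j _ => by rw [congrFun h5 j]; simp
  have hTb : Function.Bijective T := ⟨hT, by
    rw [← LinearMap.range_eq_top]
    apply Submodule.eq_top_of_finrank_eq
    rw [LinearMap.finrank_range_of_inj hT, Module.finrank_fintype_fun_eq_card, Fintype.card_fin]⟩
  let e := LinearEquiv.ofBijective T hTb
  let bb : Basis (Fin (finrank K L)) K L := (Pi.basisFun K (Fin (finrank K L))).map e.symm
  have hbb : ∀ i a, ev (g a) (bb i : F) = if a = i then 1 else 0 := by
    intro i a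
    have h1 : bb i = e.symm (Pi.single i 1) := by
      rw [Basis.map_apply, Pi.basisFun_apply]
    have h2 : ev (g a) (bb i : F) = e (bb i) a := rfl
    rw [h2, h1, e.apply_symm_apply, Pi.single_apply]
  refine ⟨fun i => (bb i : L), fun i => Subtype.property _, fun γ i => ?_, ?_⟩
  · have h1 : (⟨γF γ (bb i : F), hL γ _ (Subtype.property _)⟩ : L) = bb i := by
      apply hT
      funext a
      change ev (g a) (γF γ (bb i : F)) = ev (g a) (bb i : F)
      rw [h, hbb]
      split_ifs <;> simp
    exact congrArg Subtype.val h1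
  · exact bb.linearIndependent.map' L.subtype (Submodule.ker_subtype _)

end desc

variable {A K F k R : Type*} [CommRing A] [IsDomain A] [ValuationRing A]
  [Field K] [Algebra A K] [IsFractionRing A K] [Field F] [Algebra K F] [Algebra A F]
  [IsScalarTower A K F] [Field k] [Algebra A k] [Field R] [Algebra k R] [Algebra A R]
  [IsScalarTower A k R] (M : RedModel A K F k R) (hk : Function.Surjective (algebraMap A k))

/-- Data for lifting to elements fixed by a set of automorphisms. -/
structure LiftData {Γ : Type*} (ρ : Γ → F →+ F) (S0 : Set A) (ϖ : A) : Prop where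
  smul : ∀ γ, ∀ a ∈ S0, ∀ x, ρ γ (a • x) = a • ρ γ x
  res : ∀ c : k, ∃ a ∈ S0, algebraMap A k a = c
  ϖ_mem : ϖ ∈ S0
  ϖ_ne : ϖ ≠ 0
  disc : ∀ x : M.W, (∀ γ, ρ γ (x : F) = x) → M.π x = 0 → ∃ y : M.W, x = ϖ • y
  rank : ∀ a : A, a ≠ 0 → ∃ n : ℕ, a ∣ ϖ ^ n

variable {M} {Γ : Type*} {ρ : Γ → F →+ F} {S0 : Set A} {ϖ : A} (H : LiftData M ρ S0 ϖ)

include H hk in
theorem LiftData.exists_indep {L : Submodule K F} [FiniteDimensional K L] {d : ℕ}
    (ε : Basis (Fin d) A (M.lat L)) (n : ℕ) : ∀ (f : Fin d → M.lat L),
      (∀ γ i, ρ γ (f i : F) = f i) →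
      (Matrix.of fun i j => ε.repr (f i) j).det ∣ ϖ ^ n →
      ∃ f' : Fin d → M.lat L, (∀ γ i, ρ γ (f' i : F) = f' i) ∧
        LinearIndependent k fun i => M.redLin L (f' i) := by
  classical
  have hred : ∀ x : M.lat L, M.redLin L x = ∑ j, algebraMap A k (ε.repr x j) • M.redLin L (ε j) := by
    intro x
    conv_lhs => rw [← ε.sum_repr x]
    rw [map_sum]
    exact Finset.sum_congr rfl fun j _ => by rw [map_smul, algebraMap_smul]
  have hli := M.linearIndependent_red hk ε
  induction n with
  | zero =>
    intro f hf hdet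
    refine ⟨f, hf, ?_⟩
    rw [Fintype.linearIndependent_iff]
    intro c hc
    have h1 : ∑ j, (∑ i, c i * algebraMap A k (ε.repr (f i) j)) • M.redLin L (ε j) = 0 := by
      rw [← hc]
      simp only [hred (f _), Finset.smul_sum, smul_smul, Finset.sum_smul]
      rw [Finset.sum_comm]
    have h2 := Fintype.linearIndependent_iff.1 hli _ h1
    have h3 : Matrix.vecMul c ((Matrix.of fun i j => ε.repr (f i) j).map (algebraMap A k)) = 0 := by
      funext j
      exact h2 j
    have h4 : ((Matrix.of fun i j => ε.repr (f i) j).map (algebraMap A k)).det ≠ 0 := by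
      rw [pow_zero] at hdet
      have h5 : IsUnit (Matrix.of fun i j => ε.repr (f i) j).det := isUnit_of_dvd_one hdet
      have h6 := (h5.map (algebraMap A k)).ne_zero
      rwa [RingHom.map_det] at h6
    have h5 := Matrix.eq_zero_of_vecMul_eq_zero h4 h3
    exact fun i => congrFun h5 i
  | succ n ih =>
    intro f hf hdet
    by_cases hind : LinearIndependent k fun i => M.redLin L (f i)
    · exact ⟨f, hf, hind⟩
    · rw [Fintype.linearIndependent_iff] at hind
      push Not at hind
      obtain ⟨c, hc, i0, hi0⟩ := hind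
      choose a haS ha using fun i => H.res (c i)
      let g : M.lat L := ∑ i, a i • f i
      have hgF : (g : F) = ∑ i, a i • (f i : F) := by
        change ((∑ i, a i • f i : M.lat L) : F) = _
        push_cast; rfl
      have hg0 : M.π ⟨(g : F), g.2.1⟩ = 0 := by
        change M.redLin L g = 0
        rw [map_sum, ← hc]
        exact Finset.sum_congr rfl fun i _ => by rw [map_smul, ← ha i, algebraMap_smul]
      have hgfix : ∀ γ, ρ γ (g : F) = g := by
        intro γ
        rw [hgF, map_sum]
        exact Finset.sum_congr rfl fun i _ => by rw [H.smul γ _ (haS i), hf]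
      obtain ⟨y, hy⟩ := H.disc ⟨(g : F), g.2.1⟩ hgfix hg0
      have hyF : (g : F) = ϖ • (y : F) := congrArg Subtype.val hy
      have hyL : (y : F) ∈ L := by
        have h1 : (g : F) ∈ L := g.2.2
        rw [hyF] at h1
        exact (RedModel.smul_mem_iff H.ϖ_ne).1 h1
      have hyfix : ∀ γ, ρ γ (y : F) = y := by
        intro γ
        have h1 := hgfix γ
        rw [hyF, H.smul γ _ H.ϖ_mem] at h1
        have h2 : ϖ • (ρ γ (y : F) - y) = 0 := by rw [smul_sub, h1, sub_self]
        rcases RedModel.smul_eq_zero_F (K := K) h2 with h3 | h3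
        · exact absurd h3 H.ϖ_ne
        · exact sub_eq_zero.1 h3
      let y' : M.lat L := ⟨(y : F), y.2, hyL⟩
      have hgy : g = ϖ • y' := Subtype.ext hyF
      refine ih (Function.update f i0 y') (fun γ i => ?_) ?_
      · by_cases hi : i = i0
        · subst hi
          rw [Function.update_self]
          exact hyfix γ
        · rw [Function.update_of_ne hi]
          exact hf γ i
      · have h1 : (Matrix.of fun i j => ε.repr (Function.update f i0 y' i) j) =
            (Matrix.of fun i j => ε.repr (f i) j).updateRow i0 (fun j => ε.repr y' j) := by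
          ext i j
          by_cases hi : i = i0
          · subst hi
            simp [Matrix.updateRow_self]
          · simp [Matrix.updateRow_ne hi, Function.update_of_ne hi]
        have h2 : ϖ * (Matrix.of fun i j => ε.repr (Function.update f i0 y' i) j).det =
            a i0 * (Matrix.of fun i j => ε.repr (f i) j).det := by
          have h4 := Matrix.det_updateRow_sum (Matrix.of fun i j => ε.repr (f i) j) i0 a
          rw [smul_eq_mul] at h4
          rw [h1, ← Matrix.det_updateRow_smul, ← h4]
          congr 2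
          funext j
          have h3 := congrArg (fun z => ε.repr z j) hgy
          simp only [map_smul, Finsupp.smul_apply, smul_eq_mul] at h3
          rw [Pi.smul_apply, smul_eq_mul, ← h3]
          change ε.repr (∑ i, a i • f i) j = _
          rw [map_sum, Finsupp.finsetSum_apply, Finset.sum_apply]
          exact Finset.sum_congr rfl fun i _ => by
            rw [map_smul, Finsupp.smul_apply, Pi.smul_apply]; rfl
        obtain ⟨s, hs⟩ := hdet
        have hau : IsUnit (a i0) := isUnit_of_ne hk _ (by rw [ha]; exact hi0)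
        obtain ⟨u, hu⟩ := hau
        refine ⟨s * (↑u⁻¹ : A), ?_⟩
        apply mul_left_cancel₀ H.ϖ_ne
        rw [← mul_assoc, h2, ← hu, ← pow_succ', hs]
        have h3 : (u : A) * (↑u⁻¹ : A) = 1 := Units.mul_inv u
        calc _ = ((Matrix.of fun i j => ε.repr (f i) j).det * s) * ((u : A) * (↑u⁻¹ : A)) := by
              rw [h3, mul_one]
          _ = _ := by ring

include H hk in
/-- **Every element of the reduction of a Galois stable space lifts to a fixed element.** -/
theorem LiftData.exists_lift {L : Submodule K F} [FiniteDimensional K L]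
    (f : Fin (finrank K L) → F) (hfL : ∀ i, f i ∈ L) (hf : ∀ γ i, ρ γ (f i) = f i)
    (hfi : LinearIndependent K f) {y : R} (hy : y ∈ M.rd hk L) :
    ∃ x : M.W, (x : F) ∈ L ∧ (∀ γ, ρ γ (x : F) = x) ∧ M.π x = y := by
  classical
  have hfr := M.finrank_lat L
  let ε : Basis (Fin (finrank K L)) A (M.lat L) := Module.finBasisOfFinrankEq A (M.lat L) hfr
  -- scale
  have hsc : ∀ i, ∃ n : ℕ, ϖ ^ n • f i ∈ M.W := by
    intro i
    obtain ⟨a, ha, hW⟩ := M.scale (f i)
    obtain ⟨n, b, hb⟩ := H.rank a ha
    refine ⟨n, ?_⟩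
    rw [hb, mul_comm, mul_smul]
    exact M.W.smul_mem hW b
  choose n hn using hsc
  have hpow : ∀ (m : ℕ) γ (x : F), ρ γ (ϖ ^ m • x) = ϖ ^ m • ρ γ x := by
    intro m
    induction m with
    | zero => intro γ x; simp
    | succ m ih => intro γ x; rw [pow_succ', mul_smul, H.smul γ _ H.ϖ_mem, ih, mul_smul]
  let f0 : Fin (finrank K L) → M.lat L := fun i => ⟨ϖ ^ n i • f i, hn i,
    (RedModel.smul_mem_iff (pow_ne_zero _ H.ϖ_ne)).2 (hfL i)⟩
  have hf0 : ∀ γ i, ρ γ (f0 i : F) = f0 i := fun γ i => by
    change ρ γ (ϖ ^ n i • f i) = ϖ ^ n i • f i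
    rw [hpow, hf]
  have hdet : (Matrix.of fun i j => ε.repr (f0 i) j).det ≠ 0 := by
    intro h0
    have h1 : ((Matrix.of fun i j => ε.repr (f0 i) j).map (algebraMap A K)).det = 0 := by
      rw [← RingHom.mapMatrix_apply, ← RingHom.map_det, h0, map_zero]
    obtain ⟨c, hc0, hc⟩ := Matrix.exists_vecMul_eq_zero_iff.2 h1
    apply hc0
    have h2 : ∑ i, (c i * algebraMap A K (ϖ ^ n i)) • f i = 0 := by
      have h3 : ∀ i, (f0 i : F) = ∑ j, algebraMap A K (ε.repr (f0 i) j) • (ε j : F) := by
        intro i
        have h4 := congrArg (M.lat L).subtype (ε.sum_repr (f0 i))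
        rw [map_sum] at h4
        refine h4.symm.trans (Finset.sum_congr rfl fun j _ => ?_)
        rw [algebraMap_smul]; rfl
      have h5 : ∀ i, (c i * algebraMap A K (ϖ ^ n i)) • f i = c i • (f0 i : F) := by
        intro i
        rw [mul_smul, algebraMap_smul]
      simp only [h5, h3, Finset.smul_sum, smul_smul]
      rw [Finset.sum_comm]
      refine Finset.sum_eq_zero fun j _ => ?_
      rw [← Finset.sum_smul]
      have h6 := congrFun hc j
      have h7 : ∑ i, c i * algebraMap A K (ε.repr (f0 i) j) = 0 := h6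
      rw [h7, zero_smul]
    have h3 := Fintype.linearIndependent_iff.1 hfi _ h2
    funext i
    have h4 := h3 i
    rcases mul_eq_zero.1 h4 with h5 | h5
    · exact h5
    · exfalso
      rw [IsFractionRing.to_map_eq_zero_iff (K := K)] at h5
      exact pow_ne_zero _ H.ϖ_ne h5
  obtain ⟨N, hN⟩ := H.rank _ hdet
  obtain ⟨f', hf'fix, hf'ind⟩ := H.exists_indep hk ε N f0 hf0 hN
  have hmem : ∀ i, M.redLin L (f' i) ∈ M.rd hk L := fun i => ⟨f' i, (f' i).2, rfl⟩
  let g : Fin (finrank K L) → M.rd hk L := fun i => ⟨M.redLin L (f' i), hmem i⟩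
  have hg : LinearIndependent k g := by
    apply LinearIndependent.of_comp (M.rd hk L).subtype
    exact hf'ind
  have hspan : Submodule.span k (Set.range g) = ⊤ := by
    apply hg.span_eq_top_of_card_eq_finrank'
    rw [Fintype.card_fin, M.finrank_rd hk]
  obtain ⟨c, hc⟩ := (Submodule.mem_span_range_iff_exists_fun k).1
    (show (⟨y, hy⟩ : M.rd hk L) ∈ Submodule.span k (Set.range g) by rw [hspan]; trivial)
  choose a haS ha using fun i => H.res (c i)
  let x : M.lat L := ∑ i, a i • f' i
  have hxF : (x : F) = ∑ i, a i • (f' i : F) := by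
    change ((∑ i, a i • f' i : M.lat L) : F) = _
    push_cast; rfl
  refine ⟨⟨x, x.2.1⟩, x.2.2, fun γ => ?_, ?_⟩
  · change ρ γ (x : F) = x
    rw [hxF, map_sum]
    exact Finset.sum_congr rfl fun i _ => by rw [H.smul γ _ (haS i), hf'fix]
  · change M.redLin L x = y
    have h1 := congrArg Subtype.val hc
    rw [AddSubmonoidClass.coe_finsetSum] at h1
    have h2 : y = _ := h1.symm
    rw [h2, map_sum]
    refine Finset.sum_congr rfl fun i _ => ?_
    rw [map_smul, ← ha i, ← algebraMap_smul k]
    rfl

end Fermat.Agent.FFG
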