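import Fermat.Agent.FFG.Hopf3

/-!
# Hopf algebras from translation invariant lattices of functions
-/

set_option autoImplicit false
set_option linter.unusedSectionVars false
set_option linter.style.haveILetI false

noncomputable section

open Polynomial

namespace Fermat.Agent.FFG

variable {R Ω : Type} [CommRing R] [IsDomain R] [Field Ω] [Algebra R Ω] [FixBase R Ω]

/-- a ring of integral elements above `R` -/
structure IsOver (R : Type) {Ω : Type} [CommRing R] [Field Ω] [Algebra R Ω] (𝒪 : Subring Ω) :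
    Prop where
  fix : ∀ x ∈ 𝒪, (∀ σ : Ω ≃ₐ[R] Ω, σ x = x) → ∃ r : R, algebraMap R Ω r = x

section int

variable {V : Type} [Finite V] {act : (Ω ≃ₐ[R] Ω) → V → V}

theorem isIntegral_of_equiv {𝒪 : Subring Ω} (h𝒪 : IsOver R 𝒪)
    (hbij : ∀ σ, Function.Bijective (act σ)) {f : V → Ω} (hf : ∀ P, f P ∈ 𝒪)
    (heq : ∀ σ P, f (act σ P) = σ (f P)) (P : V) : IsIntegral R (f P) := by
  classical
  haveI := Fintype.ofFinite V
  let Q : Polynomial Ω := ∏ T : V, (X - C (f T))
  have hmon : Q.Monic := monic_prod_of_monic _ _ fun T _ => monic_X_sub_C _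
  have hcoef : ∀ n, Q.coeff n ∈ 𝒪 := by
    have h1 : Q ∈ Polynomial.lifts (𝒪.subtype) := by
      refine prod_mem fun T _ => ?_
      rw [sub_eq_add_neg, ← C_neg]
      exact add_mem (X_mem_lifts _) (C'_mem_lifts ⟨⟨-f T, neg_mem (hf T)⟩, rfl⟩)
    intro n
    obtain ⟨q, hq⟩ := (Polynomial.mem_lifts _).1 h1
    rw [← hq, coeff_map]
    exact (q.coeff n).2
  have hfix : ∀ n, ∀ σ : Ω ≃ₐ[R] Ω, σ (Q.coeff n) = Q.coeff n := by
    intro n σ
    have h1 : Q.map (σ : Ω →+* Ω) = Q := by
      rw [Polynomial.map_prod]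
      have h2 : ∀ T : V, (X - C (f T)).map (σ : Ω →+* Ω) = X - C (f (act σ T)) := fun T => by
        rw [Polynomial.map_sub, map_X, map_C, heq]
        rfl
      simp only [h2]
      exact (Equiv.ofBijective (act σ) (hbij σ)).prod_comp (fun T => X - C (f T))
    have h3 := congrArg (fun q => coeff q n) h1
    simp only [coeff_map] at h3
    exact h3
  have hlift : Q ∈ Polynomial.lifts (algebraMap R Ω) := by
    rw [Polynomial.lifts_iff_coeff_lifts]
    intro n
    obtain ⟨r, hr⟩ := h𝒪.fix _ (hcoef n) (hfix n)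
    exact ⟨r, hr⟩
  obtain ⟨q, hq, -, hqm⟩ := Polynomial.lifts_and_degree_eq_and_monic hlift hmon
  refine ⟨q, hqm, ?_⟩
  rw [← eval_map, hq, eval_prod]
  exact Finset.prod_eq_zero (Finset.mem_univ P) (by simp)

end int

variable {V : Type} [AddCommGroup V] [Finite V] {act : (Ω ≃ₐ[R] Ω) → V → V}

/-- products of functions -/
def prodSet (H : Set (V → Ω)) : Set (V × V → Ω) :=
  {f | ∃ y ∈ H, ∃ z ∈ H, f = fun p => y p.1 * z p.2}

/-- the functions with a comultiplication -/
def comulSub (H : Subalgebra R (V → Ω)) : Subalgebra R (V → Ω) where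
  carrier := {x | (fun p : V × V => x (p.1 + p.2)) ∈ Submodule.span R (prodSet (H : Set (V → Ω)))}
  mul_mem' := by
    intro a b (ha : (fun p : V × V => a (p.1 + p.2)) ∈ Submodule.span R _)
      (hb : (fun p : V × V => b (p.1 + p.2)) ∈ Submodule.span R _)
    have h1 := Submodule.mul_mem_mul ha hb
    rw [Submodule.span_mul_span] at h1
    have h2 : (fun p : V × V => (a * b) (p.1 + p.2)) =
        (fun p : V × V => a (p.1 + p.2)) * fun p : V × V => b (p.1 + p.2) := rfl
    change (fun p : V × V => (a * b) (p.1 + p.2)) ∈ Submodule.span R (prodSet (H : Set (V → Ω)))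
    rw [h2]
    refine Submodule.span_mono ?_ h1
    rintro _ ⟨f, ⟨y, hy, z, hz, rfl⟩, g, ⟨y', hy', z', hz', rfl⟩, rfl⟩
    refine ⟨y * y', H.mul_mem hy hy', z * z', H.mul_mem hz hz', ?_⟩
    funext p
    simp only [Pi.mul_apply]
    ring
  add_mem' := by
    intro a b (ha : (fun p : V × V => a (p.1 + p.2)) ∈ Submodule.span R _)
      (hb : (fun p : V × V => b (p.1 + p.2)) ∈ Submodule.span R _)
    exact Submodule.add_mem _ ha hb
  algebraMap_mem' r := Submodule.subset_span
    ⟨algebraMap R _ r, H.algebraMap_mem r, 1, H.one_mem, by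
      funext p
      change algebraMap R Ω r = algebraMap R Ω r * 1
      rw [mul_one]⟩

/-- **Translation invariant lattices give Hopf algebras.** -/
theorem exists_isHopfFn [IsPrincipalIdealRing R] {𝒪 : Subring Ω} (h𝒪 : IsOver R 𝒪)
    (hadd : ∀ σ P Q, act σ (P + Q) = act σ P + act σ Q)
    {ι : Type} [Fintype ι] (h : ι → V → Ω)
    (heq : ∀ i σ P, h i (act σ P) = σ (h i P)) (hind : LinearIndependent Ω h)
    (hsep : ∀ P Q, (∀ i, h i P = h i Q) → P = Q)
    (htr : ∀ (T : V) (j : ι), ∃ a : ι → Ω, (∀ i, a i ∈ 𝒪) ∧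
      ∀ P, h j (P + T) = ∑ i, a i * h i P) :
    ∃ H : Subalgebra R (V → Ω), IsHopfFn act H := by
  classical
  choose a ha ha' using htr
  have hinj : ∀ σ, Function.Injective (act σ) := fun σ P Q hPQ => hsep P Q fun i =>
    σ.injective (by rw [← heq, ← heq, hPQ])
  have hsurj : ∀ σ, Function.Surjective (act σ) := fun σ =>
    Finite.injective_iff_surjective.1 (hinj σ)
  have huniq : ∀ c d : ι → Ω, (∀ P, ∑ i, c i * h i P = ∑ i, d i * h i P) → c = d := by
    intro c d hcd
    have h1 : ∑ i, (c i - d i) • h i = 0 := by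
      funext P
      simp only [Finset.sum_apply, Pi.smul_apply, smul_eq_mul, sub_mul, Finset.sum_sub_distrib,
        Pi.zero_apply]
      rw [hcd P, sub_self]
    funext i
    exact sub_eq_zero.1 (Fintype.linearIndependent_iff.1 hind _ h1 i)
  -- the matrix coefficients
  let m : ι × ι → V → Ω := fun q T => a T q.2 q.1
  have hm : ∀ T j P, h j (P + T) = ∑ i, m (i, j) T * h i P := ha'
  have hmeq : ∀ q σ T, m q (act σ T) = σ (m q T) := by
    rintro ⟨i, j⟩ σ T
    have h1 := huniq (fun i => m (i, j) (act σ T)) (fun i => σ (m (i, j) T)) (fun P => by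
      obtain ⟨S, rfl⟩ := hsurj σ P
      rw [← hm, ← hadd, heq, hm, map_sum]
      exact Finset.sum_congr rfl fun i _ => by rw [map_mul, heq])
    exact congrFun h1 i
  have hmadd : ∀ i j S T, m (i, j) (S + T) = ∑ k, m (i, k) S * m (k, j) T := by
    intro i j S T
    have h1 := huniq (fun i => m (i, j) (S + T)) (fun i => ∑ k, m (i, k) S * m (k, j) T)
      (fun P => by
        rw [← hm, ← add_assoc, hm T j (P + S)]
        simp only [hm S _ P, Finset.mul_sum, Finset.sum_mul]
        rw [Finset.sum_comm]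
        exact Finset.sum_congr rfl fun i _ => Finset.sum_congr rfl fun k _ => by ring)
    exact congrFun h1 i
  let H : Subalgebra R (V → Ω) := Algebra.adjoin R (Set.range m)
  have hz : ∀ σ, act σ 0 = 0 := fun σ => by
    have := hadd σ 0 0
    rw [add_zero] at this
    exact left_eq_add.1 this
  refine ⟨H, ⟨⟨?_, ?_, ?_⟩, hz, ?_⟩⟩
  · intro x hx P
    induction hx using Algebra.adjoin_induction with
    | mem x hx =>
      obtain ⟨q, rfl⟩ := hx
      exact isIntegral_of_equiv h𝒪 (fun σ => ⟨hinj σ, hsurj σ⟩) (fun T => ha T q.2 q.1) (hmeq q) P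
    | algebraMap r => exact isIntegral_algebraMap
    | add x y _ _ hx hy => exact hx.add hy
    | mul x y _ _ hx hy => exact hx.mul hy
  · intro x hx σ P
    induction hx using Algebra.adjoin_induction with
    | mem x hx =>
      obtain ⟨q, rfl⟩ := hx
      exact hmeq q σ P
    | algebraMap r => exact (σ.commutes r).symm
    | add x y _ _ hx hy => rw [Pi.add_apply, Pi.add_apply, map_add, hx, hy]
    | mul x y _ _ hx hy => rw [Pi.mul_apply, Pi.mul_apply, map_mul, hx, hy]
  · intro P Q hPQ
    refine hsep P Q fun j => ?_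
    have h1 := hm P j 0
    have h2 := hm Q j 0
    rw [zero_add] at h1 h2
    rw [h1, h2]
    refine Finset.sum_congr rfl fun i _ => ?_
    rw [hPQ (m (i, j)) (Algebra.subset_adjoin ⟨(i, j), rfl⟩)]
  · have h1 : H ≤ comulSub H := by
      refine Algebra.adjoin_le ?_
      rintro _ ⟨⟨i, j⟩, rfl⟩
      have h2 : (fun p : V × V => m (i, j) (p.1 + p.2)) =
          ∑ k, fun p : V × V => m (i, k) p.1 * m (k, j) p.2 := by
        funext p
        rw [hmadd, Finset.sum_apply]
      change (fun p : V × V => m (i, j) (p.1 + p.2)) ∈ Submodule.span R (prodSet (H : Set (V → Ω)))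
      rw [h2]
      refine Submodule.sum_mem _ fun k _ => Submodule.subset_span ?_
      exact ⟨_, Algebra.subset_adjoin ⟨(i, k), rfl⟩, _, Algebra.subset_adjoin ⟨(k, j), rfl⟩, rfl⟩
    exact h1

end Fermat.Agent.FFG
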