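import Fermat.Agent.FFG.Exist
import Fermat.Agent.FFG.Rep

/-!
# Finite subgroups of the divisor class group are finite flat group schemes
-/

set_option autoImplicit false
set_option linter.unusedSectionVars false
set_option linter.style.haveILetI false

noncomputable section

namespace Fermat.Agent.FFG

open AlgebraicCurve Fermat.Agent.RR Fermat.Agent.Curve Fermat.Agent.Red Fermat.Agent.Spec Module

section gen

variable {A K F k R : Type*} [CommRing A] [IsDomain A] [ValuationRing A]
  [Field K] [Algebra A K] [IsFractionRing A K] [Field F] [Algebra K F] [Algebra A F]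
  [IsScalarTower A K F] [Field k] [Algebra A k] [Field R] [Algebra k R] [Algebra A R]
  [IsScalarTower A k R]
  [IsAlgClosed K] [IsAlgClosed k] [FunField K F] [FunField k R]
  {M : RedModel A K F k R} {hk : Function.Surjective (algebraMap A k)}
  (𝓓 : DivRed A K F k R M hk) {v : Place K F} {w : Place k R}
  (hv : 𝓓.r (Finsupp.single v 1) = Finsupp.single w 1)
  {Γ V : Type*} [AddCommGroup V] [Finite V] {ρ : Γ → SemilinearAut K F} {act : Γ → V → V}
  {φ : V →+ Pic0 K F} (X : Fam 𝓓 v w ρ act φ)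

include hv in
/-- translations preserve the coordinate ring -/
theorem Fam.trans_mem {h : V → A} (hh : h ∈ coordRing v X.E X.ws) (T : V) :
    (fun P => h (P + T)) ∈ coordRing v X.E X.ws := by
  have hrefl : ∀ (T : V) {h : V → A}, h ∈ coordRing v X.E X.ws →
      (fun P => h (T - P)) ∈ coordRing v X.E X.ws := by
    intro T h hh
    obtain ⟨Z, m, hZ, hZw, hdisj, hu⟩ := X.refl T
    choose u hu0 hu using hu
    exact reflect 𝓓 hv X.comp X.Ew X.ell_le (fun P => T - P) Z m hZ hZw hdisj u hu0 hu hh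
  have h1 := hrefl 0 (hrefl T hh)
  have h2 : (fun P => h (P + T)) = fun P => h (T - (0 - P)) := by
    funext P
    congr 1
    abel
  rw [h2]
  exact h1

include hv in
/-- the coordinate ring separates points -/
theorem Fam.sep (hφ : Function.Injective φ) {P Q : V}
    (h : ∀ h ∈ coordRing v X.E X.ws, h P = h Q) : P = Q := by
  classical
  have hEv : ∀ P, X.E P v = 0 := fun P => apply_eq_zero_of_r 𝓓 hv (X.comp P).nonneg (X.Ew P)
  have hE : X.E P = X.E Q := by
    by_contra hne
    have hlt : ¬ X.E Q ≤ X.E P := fun hle => hne (eq_of_le_of_degree hle (by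
      rw [(X.comp P).deg, (X.comp Q).deg])).symm
    have : ∃ p, ¬ X.E Q p ≤ X.E P p := by
      by_contra hcon
      push Not at hcon
      exact hlt hcon
    obtain ⟨p, hp⟩ := this
    have hpv : p ≠ v := by
      rintro rfl
      rw [hEv, hEv] at hp
      exact hp le_rfl
    obtain ⟨c, hc⟩ := exists_tight K F
    obtain ⟨n, hn⟩ : ∃ n : ℤ, c + Divisor.degree (X.E P) ≤ n := ⟨_, le_rfl⟩
    obtain ⟨y, hy, hy0, hyp⟩ := hc (Finsupp.single v n - X.E P) (by
      rw [map_sub, degree_single']; omega) {p}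
    have hyp' := hyp p (Finset.mem_singleton_self p)
    rw [Finsupp.sub_apply, Finsupp.single_eq_of_ne hpv] at hyp'
    obtain ⟨a, ha, haW, -⟩ := exists_scaled M hk hy0
    let b : M.W := ⟨a • y, haW⟩
    have hbP : (b : F) ∈ II v (X.E P) := Submodule.smul_mem _ a (L_le_II n hy)
    have hb0 : (b : F) ∈ II v 0 := II_mono (X.comp P).nonneg hbP
    choose c' hc' using fun P => (X.comp P).exists_coord hv hb0
    have h1 : c' P = 0 := by
      refine (X.comp P).unique' hv (hc' P) ?_
      simpa using hbP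
    have h2 : c' Q = 0 := by
      funext j
      have h3 := h _ (coord_mem hb0 hc' j)
      change c' P j = c' Q j at h3
      rw [← h3, h1]
    have h3 := hc' Q
    rw [h2] at h3
    simp only [Pi.zero_apply, zero_smul, Finset.sum_const_zero, ZeroMemClass.coe_zero,
      sub_zero] at h3
    have h4 := (h3 p hpv).le_ord (smul_ne_zero ha hy0)
    have h5 : p.ord (a • y) = p.ord y := by
      rw [← divisor_apply (K := K), divisor_smul ha, divisor_apply]
    change X.E Q p ≤ p.ord (a • y) at h4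
    rw [h5, hyp'] at h4
    omega
  obtain ⟨D, hD, hD'⟩ := X.cls P
  obtain ⟨D2, hD2, hD2'⟩ := X.cls Q
  apply hφ
  rw [← hD, ← hD2, ← sub_eq_zero]
  have h1 : Pic0.mk D - Pic0.mk D2 = Pic0.mk (D - D2) := rfl
  rw [h1, pic0_mk_eq_zero, AddSubgroup.coe_sub]
  rw [hE] at hD'
  have h2 := sub_mem hD2' hD'
  have h3 : X.E Q - X.C - (D2 : Divisor K F) - (X.E Q - X.C - (D : Divisor K F)) =
      (D : Divisor K F) - D2 := by abel
  rw [h3] at h2
  exact h2

/-- fixed integral functions regular outside `v` -/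
def fixSet (M : RedModel A K F k R) (v : Place K F) (ρ : Γ → SemilinearAut K F) : Set F :=
  {x | x ∈ M.W ∧ x ∈ II v 0 ∧ ∀ γ, ρ γ • x = x}

variable {𝓓} (H : FixData (M := M) ρ v w)

include 𝓓 hk hv H in
/-- integral functions are combinations of fixed ones -/
theorem mem_span_fixSet {b : M.W} (hb : (b : F) ∈ II v 0) :
    (b : F) ∈ Submodule.span A (fixSet M v ρ) := by
  classical
  obtain ⟨m, hm⟩ := exists_mem_L_of_II hb
  obtain ⟨c, hc⟩ := 𝓓.rd_eq
  obtain ⟨cl, hcl⟩ := H.lift
  obtain ⟨n, hn1, hn2, hn3⟩ : ∃ n : ℤ, (m : ℤ) ≤ n ∧ c ≤ n ∧ cl ≤ n :=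
    ⟨max m (max c cl), le_max_left _ _, (le_max_left _ _).trans (le_max_right _ _),
      (le_max_right _ _).trans (le_max_right _ _)⟩
  have hbL := hm n hn1
  rw [sub_zero] at hbL
  have hrd := hc (Finsupp.single v n) (by rw [degree_single']; exact hn2)
  rw [r_single_n 𝓓 hv] at hrd
  let L := riemannRochSpace (Finsupp.single v n : Divisor K F)
  let N : Submodule A F := Submodule.span A (fixSet M v ρ) ⊓ M.lat L
  have hfg : (M.lat L).FG := M.fg L inferInstance
  have hle : M.lat L ≤ N ⊔ IsLocalRing.maximalIdeal A • M.lat L := by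
    intro y hy
    have h1 : M.π ⟨y, hy.1⟩ ∈ riemannRochSpace (Finsupp.single w n : Divisor k R) := by
      rw [← hrd]; exact ⟨y, hy, rfl⟩
    obtain ⟨x, hxL, hxf, hxy⟩ := hcl n hn3 _ h1
    have hxN : (x : F) ∈ N := ⟨Submodule.subset_span ⟨x.2, L_single_le_II _ hxL, hxf⟩, x.2, hxL⟩
    have h2 : y - x ∈ M.lat L := sub_mem hy ⟨x.2, hxL⟩
    have h3 : M.π ⟨y - x, h2.1⟩ = 0 := by
      have : (⟨y - x, h2.1⟩ : M.W) = ⟨y, hy.1⟩ - x := rfl
      rw [this, map_sub, hxy, sub_self]
    obtain ⟨a, ha, z, hz, hyz⟩ := M.exists_of_red_eq_zero h2 h3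
    have h4 : y = x + a • z := by rw [← hyz]; abel
    rw [h4]
    refine Submodule.add_mem_sup hxN (Submodule.smul_mem_smul ?_ hz)
    rw [IsLocalRing.mem_maximalIdeal, mem_nonunits_iff]
    intro hu
    have := hu.map (algebraMap A k)
    rw [ha] at this
    exact not_isUnit_zero this
  have h5 := Submodule.le_of_le_smul_of_le_jacobson_bot hfg (IsLocalRing.maximalIdeal_le_jacobson _)
    hle
  exact (h5 ⟨b.2, hbL⟩).1

end gen

end Fermat.Agent.FFG
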