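import Fermat.Agent.FFG.Main

/-!
# Finite subgroups of the divisor class group are finite flat group schemes, II
-/

set_option autoImplicit false
set_option linter.unusedSectionVars false
set_option linter.style.haveILetI false

noncomputable section

namespace Fermat.Agent.FFG

open AlgebraicCurve Fermat.Agent.RR Fermat.Agent.Curve Fermat.Agent.Red Fermat.Agent.Spec Module

variable {R0 Ω : Type} [CommRing R0] [IsDomain R0] [Field Ω] [Algebra R0 Ω] [FixBase R0 Ω]
  [IsPrincipalIdealRing R0]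
variable {A k : Type} {F R : Type*} [CommRing A] [IsDomain A] [ValuationRing A]
  [Algebra A Ω] [IsFractionRing A Ω] [Field F] [Algebra Ω F] [Algebra A F]
  [IsScalarTower A Ω F] [Field k] [Algebra A k] [Field R] [Algebra k R] [Algebra A R]
  [IsScalarTower A k R]
  [IsAlgClosed Ω] [IsAlgClosed k] [FunField Ω F] [FunField k R]
  {M : RedModel A Ω F k R} {hk : Function.Surjective (algebraMap A k)}
  (𝓓 : DivRed A Ω F k R M hk) {v : Place Ω F} {w : Place k R}
  (hv : 𝓓.r (Finsupp.single v 1) = Finsupp.single w 1)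
  {V : Type} [AddCommGroup V] [Finite V] {ρ : (Ω ≃ₐ[R0] Ω) → SemilinearAut Ω F}
  {act : (Ω ≃ₐ[R0] Ω) → V → V}
  {φ : V →+ Pic0 Ω F} (X : Fam 𝓓 v w ρ act φ)
  (H : FixData (M := M) ρ v w)
  (hρ : ∀ γ (a : Ω) (x : F), ρ γ • (a • x) = γ a • ρ γ • x)
  (hA : ∀ (γ : Ω ≃ₐ[R0] Ω) (a : A), ∃ a' : A, algebraMap A Ω a' = γ (algebraMap A Ω a))
  (hR0 : ∀ r : R0, ∃ a : A, algebraMap A Ω a = algebraMap R0 Ω r)

/-- a function with values in `A`, seen in `Ω` -/
def toΩ (Ω : Type) {A V : Type} [CommRing A] [Field Ω] [Algebra A Ω] : (V → A) →ₐ[A] (V → Ω) :=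
  (Algebra.ofId A Ω).compLeft V

theorem toΩ_apply (h : V → A) (P : V) : toΩ Ω h P = algebraMap A Ω (h P) := rfl

/-- coordinates of fixed functions -/
def fixCoord : Set (V → Ω) :=
  {f | ∃ b : M.W, (b : F) ∈ II v 0 ∧ (∀ γ, ρ γ • (b : F) = b) ∧ ∃ c : V → Fin X.n → A,
    (∀ P, (b : F) - ((∑ j, c P j • X.ws j : M.W) : F) ∈ II v (X.E P)) ∧
    ∃ j, f = toΩ Ω fun P => c P j}

/-- the ring of rational coordinates -/
def NN : Subalgebra R0 (V → Ω) := Algebra.adjoin R0 (fixCoord 𝓓 X)

include hv H hρ hA in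
theorem fixCoord_equiv {f : V → Ω} (hf : f ∈ fixCoord 𝓓 X) (γ : Ω ≃ₐ[R0] Ω) (P : V) :
    f (act γ P) = γ (f P) := by
  obtain ⟨b, hb, hbf, c, hc, j, rfl⟩ := hf
  choose c' hc' using fun i => hA γ (c P i)
  have h1 : (b : F) - ((∑ j, c' j • X.ws j : M.W) : F) ∈ II v (X.E (act γ P)) := by
    have h2 : (b : F) - ((∑ j, c' j • X.ws j : M.W) : F) =
        ρ γ • ((b : F) - ((∑ j, c P j • X.ws j : M.W) : F)) := by
      rw [smul_sub, hbf, coe_sum_smul, coe_sum_smul, Finset.smul_sum]
      congr 1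
      refine Finset.sum_congr rfl fun j _ => ?_
      rw [hρ, X.smul_ws, hc']
    rw [h2]
    intro p hp
    have h3 := hc P ((ρ γ)⁻¹ • p) (by
      intro h
      apply hp
      rw [inv_smul_eq_iff, H.fix] at h
      exact h)
    rcases h3 with h3 | h3
    · left
      rw [h3, smul_zero]
    · right
      have h4 := SemilinearAut.ord_smul (ρ γ) ((ρ γ)⁻¹ • p)
        ((b : F) - ((∑ j, c P j • X.ws j : M.W) : F))
      rw [smul_inv_smul] at h4
      rw [h4, ← X.smul_E, SemilinearAut.divisor_smul_apply]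
      exact h3
  have h2 := (X.comp (act γ P)).unique' hv (hc (act γ P)) h1
  change algebraMap A Ω (c (act γ P) j) = γ (algebraMap A Ω (c P j))
  rw [h2, hc']

theorem fixCoord_mem {f : V → Ω} (hf : f ∈ fixCoord 𝓓 X) :
    ∃ h ∈ coordRing v X.E X.ws, f = toΩ Ω h := by
  obtain ⟨b, hb, hbf, c, hc, j, rfl⟩ := hf
  exact ⟨_, coord_mem hb hc j, rfl⟩

include hR0 in
theorem NN_mem {f : V → Ω} (hf : f ∈ NN 𝓓 X) :
    ∃ h ∈ coordRing v X.E X.ws, f = toΩ Ω h := by
  induction hf using Algebra.adjoin_induction with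
  | mem x hx => exact fixCoord_mem 𝓓 X hx
  | algebraMap r =>
    obtain ⟨a, ha⟩ := hR0 r
    refine ⟨algebraMap A (V → A) a, Subalgebra.algebraMap_mem _ a, ?_⟩
    funext P
    exact ha.symm
  | add x y _ _ hx hy =>
    obtain ⟨h, hh, rfl⟩ := hx
    obtain ⟨h', hh', rfl⟩ := hy
    exact ⟨h + h', add_mem hh hh', (map_add _ _ _).symm⟩
  | mul x y _ _ hx hy =>
    obtain ⟨h, hh, rfl⟩ := hx
    obtain ⟨h', hh', rfl⟩ := hy
    exact ⟨h * h', mul_mem hh hh', (map_mul _ _ _).symm⟩

include hv H in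
/-- every coordinate function is a combination of rational ones -/
theorem coordRing_span {h : V → A} (hh : h ∈ coordRing v X.E X.ws) :
    toΩ Ω h ∈ Submodule.span A (NN 𝓓 X : Set (V → Ω)) := by
  have hspan : Subalgebra.toSubmodule (Algebra.adjoin A (NN 𝓓 X : Set (V → Ω))) =
      Submodule.span A (NN 𝓓 X : Set (V → Ω)) := by
    rw [Algebra.adjoin_eq_span]
    congr 1
    exact congrArg _ (Submonoid.closure_eq (NN 𝓓 X).toSubsemiring.toSubmonoid)
  rw [← hspan]
  change toΩ Ω h ∈ Algebra.adjoin A (NN 𝓓 X : Set (V → Ω))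
  have hle : coordRing v X.E X.ws ≤ (Algebra.adjoin A (NN 𝓓 X : Set (V → Ω))).comap (toΩ Ω) := by
    refine Algebra.adjoin_le ?_
    rintro h ⟨b, hb, c, hc, j, rfl⟩
    -- linear in `b`
    suffices hmain : ∀ x ∈ Submodule.span A (fixSet M v ρ), x ∈ M.W ∧ x ∈ II v 0 ∧
        ∃ c : V → Fin X.n → A, (∀ P, x - ((∑ j, c P j • X.ws j : M.W) : F) ∈ II v (X.E P)) ∧
          ∀ j, toΩ Ω (fun P => c P j) ∈ Algebra.adjoin A (NN 𝓓 X : Set (V → Ω)) by
      obtain ⟨-, -, c', hc', hj⟩ := hmain _ (mem_span_fixSet (𝓓 := 𝓓) hv H hb)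
      have : c = c' := funext fun P => (X.comp P).unique' hv (hc P) (hc' P)
      subst this
      exact hj j
    intro x hx
    induction hx using Submodule.span_induction with
    | mem x hx =>
      obtain ⟨hW, hI, hf⟩ := hx
      refine ⟨hW, hI, ?_⟩
      choose c hc using fun P => (X.comp P).exists_coord hv (b := ⟨x, hW⟩) hI
      exact ⟨c, hc, fun j => Algebra.subset_adjoin (Algebra.subset_adjoin
        ⟨⟨x, hW⟩, hI, hf, c, hc, j, rfl⟩)⟩
    | zero =>
      refine ⟨zero_mem _, zero_mem _, 0, fun P => ?_, fun j => ?_⟩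
      · simp
      · have : toΩ Ω (fun P : V => (0 : V → Fin X.n → A) P j) = 0 := by
          funext P
          exact map_zero (algebraMap A Ω)
        rw [this]
        exact zero_mem _
    | add x y _ _ hx hy =>
      obtain ⟨hW, hI, c, hc, hj⟩ := hx
      obtain ⟨hW', hI', c', hc', hj'⟩ := hy
      refine ⟨add_mem hW hW', add_mem hI hI', c + c', fun P => ?_, fun j => ?_⟩
      · have : x + y - ((∑ j, (c + c') P j • X.ws j : M.W) : F) =
            (x - ((∑ j, c P j • X.ws j : M.W) : F)) +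
            (y - ((∑ j, c' P j • X.ws j : M.W) : F)) := by
          have h1 : (∑ j, (c + c') P j • X.ws j : M.W) =
              (∑ j, c P j • X.ws j) + ∑ j, c' P j • X.ws j := by
            rw [← Finset.sum_add_distrib]
            simp only [Pi.add_apply, add_smul]
          rw [h1, Subalgebra.coe_add]
          ring
        rw [this]
        exact add_mem (hc P) (hc' P)
      · have : toΩ Ω (fun P => (c + c') P j) = toΩ Ω (fun P => c P j) + toΩ Ω (fun P => c' P j) := by
          rw [← map_add]; rfl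
        rw [this]
        exact add_mem (hj j) (hj' j)
    | smul a x _ hx =>
      obtain ⟨hW, hI, c, hc, hj⟩ := hx
      refine ⟨Subalgebra.smul_mem _ hW a, ?_, fun P j => a * c P j, fun P => ?_, fun j => ?_⟩
      · rw [← algebraMap_smul Ω a x]; exact Submodule.smul_mem _ _ hI
      · have : a • x - ((∑ j, (a * c P j) • X.ws j : M.W) : F) =
            algebraMap A Ω a • (x - ((∑ j, c P j • X.ws j : M.W) : F)) := by
          rw [smul_sub, algebraMap_smul, ← coe_smul_W, Finset.smul_sum]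
          simp only [smul_smul]
        rw [this]
        exact Submodule.smul_mem _ _ (hc P)
      · have : toΩ Ω (fun P => a * c P j) = a • toΩ Ω (fun P => c P j) := by
          rw [← map_smul]; rfl
        rw [this]
        exact Subalgebra.smul_mem _ (hj j) a
  exact hle hh

variable (hφ : Function.Injective φ) (hφeq : ∀ γ P, φ (act γ P) = ρ γ • φ P)

include hv X H hρ hA hR0 hφ hφeq in
/-- **Finite Galois stable groups of divisor classes are finite flat group schemes.** -/
theorem exists_isHopfFn_of_fam (h𝒪 : IsOver R0 (algebraMap A Ω).range) :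
    ∃ H : Subalgebra R0 (V → Ω), IsHopfFn act H := by
  classical
  have hadd : ∀ σ P Q, act σ (P + Q) = act σ P + act σ Q := fun σ P Q => hφ (by
    rw [hφeq, map_add, map_add, hφeq, hφeq, smul_add])
  have hinj : ∀ σ, Function.Injective (act σ) := fun σ P Q hPQ => hφ (by
    have h1 := hφeq σ P
    rw [hPQ, hφeq] at h1
    have h2 := congrArg (fun x => (ρ σ)⁻¹ • x) h1
    simp only [inv_smul_smul] at h2
    exact h2.symm)
  have hbij : ∀ σ, Function.Bijective (act σ) := fun σ =>
    ⟨hinj σ, Finite.injective_iff_surjective.1 (hinj σ)⟩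
  have hequiv : ∀ x ∈ NN 𝓓 X, ∀ σ P, x (act σ P) = σ (x P) := by
    intro x hx σ P
    induction hx using Algebra.adjoin_induction with
    | mem x hx => exact fixCoord_equiv 𝓓 hv X H hρ hA hx σ P
    | algebraMap r => exact (σ.commutes r).symm
    | add x y _ _ hx hy => rw [Pi.add_apply, Pi.add_apply, map_add, hx, hy]
    | mul x y _ _ hx hy => rw [Pi.mul_apply, Pi.mul_apply, map_mul, hx, hy]
  have hsep : ∀ P Q : V, (∀ x ∈ NN 𝓓 X, x P = x Q) → P = Q := by
    intro P Q hPQ
    refine X.sep 𝓓 hv hφ (P := P) (Q := Q) fun h hh => ?_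
    have h1 := coordRing_span 𝓓 hv X H hh
    have h2 : ∀ f ∈ Submodule.span A (NN 𝓓 X : Set (V → Ω)), f P = f Q := by
      intro f hf
      induction hf using Submodule.span_induction with
      | mem x hx => exact hPQ x hx
      | zero => rfl
      | add x y _ _ hx hy => rw [Pi.add_apply, Pi.add_apply, hx, hy]
      | smul a x _ hx => rw [Pi.smul_apply, Pi.smul_apply, hx]
    have h3 := h2 _ h1
    exact IsFractionRing.injective A Ω h3
  have hfn : IsFn act (NN 𝓓 X) := by
    refine ⟨fun x hx P => ?_, hequiv, hsep⟩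
    refine isIntegral_of_equiv h𝒪 hbij (f := x) (fun P => ?_) (hequiv x hx) P
    obtain ⟨h, -, rfl⟩ := NN_mem 𝓓 X hR0 hx
    exact ⟨h P, rfl⟩
  obtain ⟨ι, _, b, hb⟩ := hfn.oInj
  have hspanb : ∀ f ∈ Submodule.span A (NN 𝓓 X : Set (V → Ω)),
      ∃ a : ι → Ω, (∀ i, a i ∈ (algebraMap A Ω).range) ∧ ∀ P, f P = ∑ i, a i * (b i : V → Ω) P := by
    intro f hf
    induction hf using Submodule.span_induction with
    | mem x hx =>
      refine ⟨fun i => algebraMap R0 Ω (b.repr ⟨x, hx⟩ i), fun i => ?_, fun P => ?_⟩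
      · obtain ⟨a, ha⟩ := hR0 (b.repr ⟨x, hx⟩ i)
        exact ⟨a, ha⟩
      · have h1 := congrArg (fun y : NN 𝓓 X => (y : V → Ω) P) (b.sum_repr ⟨x, hx⟩)
        simp only [AddSubmonoidClass.coe_finsetSum, Finset.sum_apply,
          Algebra.smul_def] at h1
        exact h1.symm
    | zero => exact ⟨0, fun i => zero_mem _, fun P => by simp⟩
    | add x y _ _ hx hy =>
      obtain ⟨a, ha, ha'⟩ := hx
      obtain ⟨a', hb, hb'⟩ := hy
      refine ⟨a + a', fun i => add_mem (ha i) (hb i), fun P => ?_⟩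
      rw [Pi.add_apply, ha', hb', ← Finset.sum_add_distrib]
      exact Finset.sum_congr rfl fun i _ => by rw [Pi.add_apply, add_mul]
    | smul r x _ hx =>
      obtain ⟨a, ha, ha'⟩ := hx
      refine ⟨fun i => algebraMap A Ω r * a i, fun i => mul_mem ⟨r, rfl⟩ (ha i), fun P => ?_⟩
      rw [Pi.smul_apply, ha', Algebra.smul_def, Finset.mul_sum]
      exact Finset.sum_congr rfl fun i _ => by rw [mul_assoc]
  refine exists_isHopfFn h𝒪 hadd (fun i => (b i : V → Ω)) (fun i σ P => hequiv _ (b i).2 σ P) hb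
    ?_ ?_
  · intro P Q hPQ
    refine hsep P Q fun x hx => ?_
    obtain ⟨a, -, ha⟩ := hspanb x (Submodule.subset_span hx)
    rw [ha, ha]
    exact Finset.sum_congr rfl fun i _ => by rw [hPQ i]
  · intro T j
    obtain ⟨h, hh, hj⟩ := NN_mem 𝓓 X hR0 (b j).2
    have h1 := coordRing_span 𝓓 hv X H (X.trans_mem 𝓓 hv hh T)
    obtain ⟨a, ha, ha'⟩ := hspanb _ h1
    refine ⟨a, ha, fun P => ?_⟩
    rw [← ha' P, hj]
    rfl

include hv hρ hA hR0 hφ hφeq in
/-- **Main theorem**: finite Galois stable groups of divisor classes on a curve with good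
reduction come from finite flat group schemes. -/
theorem exists_isHopfFn_pic (H : FixData (M := M) ρ v w)
    (h𝒪 : IsOver R0 (algebraMap A Ω).range) :
    ∃ H : Subalgebra R0 (V → Ω), IsHopfFn act H := by
  obtain ⟨X⟩ := exists_fam 𝓓 hv H act φ hφeq
  exact exists_isHopfFn_of_fam 𝓓 hv X H hρ hA hR0 hφ hφeq h𝒪

end Fermat.Agent.FFG
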