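import Fermat.Agent.FFG.Coord

/-!
# The function attached to a pair of residual divisors
-/

set_option autoImplicit false
set_option linter.unusedSectionVars false
set_option linter.style.haveILetI false

noncomputable section

namespace Fermat.Agent.FFG

open AlgebraicCurve Fermat.Agent.RR Fermat.Agent.Curve Fermat.Agent.Red Fermat.Agent.Spec Module

variable {A K F k R : Type*} [CommRing A] [IsDomain A] [ValuationRing A]
  [Field K] [Algebra A K] [IsFractionRing A K] [Field F] [Algebra K F] [Algebra A F]
  [IsScalarTower A K F] [Field k] [Algebra A k] [Field R] [Algebra k R] [Algebra A R]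
  [IsScalarTower A k R]
  [IsAlgClosed K] [IsAlgClosed k] [FunField K F] [FunField k R]
  {M : RedModel A K F k R} {hk : Function.Surjective (algebraMap A k)}
  (𝓓 : DivRed A K F k R M hk) {v : Place K F} {w : Place k R}
  (hv : 𝓓.r (Finsupp.single v 1) = Finsupp.single w 1)

namespace Comp

variable {ι : Type*} [Fintype ι] {E : Divisor K F} {ws : ι → M.W} {𝓓} (hc : Comp 𝓓 v w E ws)

include hc hv in
theorem unique0 {c : ι → A} (h : ((∑ j, c j • ws j : M.W) : F) ∈ II v E) : c = 0 := by
  rw [coe_sum_smul] at h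
  have h1 := hc.unique hv h
  funext j
  exact IsFractionRing.injective A K ((congrFun h1 j).trans (map_zero _).symm)

end Comp

include 𝓓 hv hk in
/-- reduction of a combination with vanishing coordinates -/
theorem red_comb {ι τ : Type*} [Fintype ι] [Fintype τ] {E : Divisor K F} {ws : ι → M.W}
    (e : τ → M.W) (c : τ → ι → A)
    (h : ∀ i, (e i : F) - ((∑ j, c i j • ws j : M.W) : F) ∈ II v E) (t : τ → k)
    (ht : ∀ j, ∑ i, algebraMap A k (c i j) * t i = 0) :
    ∑ i, t i • M.π (e i) ∈ II w (𝓓.r E) := by
  classical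
  choose t' ht' using fun i => hk (t i)
  have h1 : ((∑ i, t' i • (e i - ∑ j, c i j • ws j) : M.W) : F) ∈ II v E := by
    rw [coe_sum_smul]
    refine Submodule.sum_mem _ fun i _ => Submodule.smul_mem _ _ ?_
    rw [Subalgebra.coe_sub]
    exact h i
  have h2 := π_mem_II 𝓓 hv h1
  rw [π_sum_smul] at h2
  have h3 : ∑ i, algebraMap A k (t' i) • M.π (e i - ∑ j, c i j • ws j) =
      ∑ i, t i • M.π (e i) - ∑ j, (∑ i, algebraMap A k (c i j) * t i) • M.π (ws j) := by
    simp only [map_sub, smul_sub, Finset.sum_sub_distrib, ht', π_sum_smul, Finset.smul_sum,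
      smul_smul, Finset.sum_smul]
    congr 1
    rw [Finset.sum_comm]
    refine Finset.sum_congr rfl fun j _ => Finset.sum_congr rfl fun i _ => ?_
    rw [mul_comm]
  rw [h3] at h2
  simp only [ht, zero_smul, Finset.sum_const_zero, sub_zero] at h2
  exact h2

section

variable {V : Type*} [Finite V] {ι : Type*} [Fintype ι] {E : V → Divisor K F} {ws : ι → M.W}
  (hcomp : ∀ P, Comp 𝓓 v w (E P) ws) (hEw : ∀ P, 𝓓.r (E P) w = 0)
  (hell : ∀ P, ell (𝓓.r (E P)) ≤ 1)
  (s : V → V) (Z : Divisor K F) (n : ℤ) (hZ : 0 ≤ Z) (hZw : 𝓓.r Z w = 0)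
  (hdisj : ∀ P u, 𝓓.r Z u = 0 ∨ 𝓓.r (E P) u = 0)

include hEw hZw hdisj in
/-- functions vanishing along the reductions of `Z` and of `E P` -/
theorem mem_L_disj {P : V} {m : ℤ} {x : R}
    (h1 : x ∈ riemannRochSpace (Finsupp.single w m - 𝓓.r Z))
    (h2 : x ∈ II w (𝓓.r (E P))) :
    x ∈ riemannRochSpace (Finsupp.single w m - 𝓓.r Z - 𝓓.r (E P)) := by
  rw [mem_L] at h1 ⊢
  intro p
  have h3 := h1 p
  rw [Finsupp.sub_apply] at h3
  rw [Finsupp.sub_apply, Finsupp.sub_apply]
  by_cases hp : p = w
  · subst hp
    rw [hEw P]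
    exact h3.mono (by omega)
  · rcases hdisj P p with h4 | h4
    · have h5 := h2 p hp
      rw [h4, Finsupp.single_eq_of_ne hp]
      exact h5.mono (by omega)
    · rw [h4]
      exact h3.mono (by omega)

include hv hcomp hEw hell hZ hZw hdisj in
/-- **The functions with divisor `E P + E (s P) + Z - n v` have coefficients in the coordinate
ring.** -/
theorem exists_u (u : V → F) (hu0 : ∀ P, u P ≠ 0)
    (hu : ∀ P, divisor K (u P) = E P + E (s P) + Z - Finsupp.single v n) :
    ∃ u' : V → F, u' ∈ famSpan M (coordRing v E ws)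
        (riemannRochSpace (Finsupp.single v n - Z)) ∧
      ∀ P, ∃ y : M.W, (y : F) = u' P ∧ M.π y ≠ 0 ∧
        divisor K (u' P) = E P + E (s P) + Z - Finsupp.single v n := by
  classical
  haveI : Infinite k := IsAlgClosed.instInfinite
  let L := riemannRochSpace (Finsupp.single v n - Z)
  let ε := Module.Free.chooseBasis A (M.lat L)
  let e : Module.Free.ChooseBasisIndex A (M.lat L) → M.W := fun i => ⟨(ε i : F), (ε i).2.1⟩
  -- scale
  choose a ha hy hy' using fun P => exists_scaled M hk (hu0 P)
  have hdiv : ∀ (P : V) (c : K), c ≠ 0 →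
      divisor K (c • u P) = E P + E (s P) + Z - Finsupp.single v n := fun P c hc => by
    rw [divisor_smul hc, hu]
  have hmem : ∀ (P : V) (c : K), c ≠ 0 → c • u P ∈ L := by
    intro P c hc
    rw [mem_L_of_divisor (smul_ne_zero hc (hu0 P)), hdiv P c hc]
    have h1 : (Finsupp.single v n - Z + (E P + E (s P) + Z - Finsupp.single v n)) =
        E P + E (s P) := by abel
    rw [h1]
    exact add_nonneg (hcomp P).nonneg (hcomp (s P)).nonneg
  let Y : V → M.lat L := fun P => ⟨a P • u P, hy P, hmem P _ (ha P)⟩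
  have hYne : ∀ P, (fun i => algebraMap A k (ε.repr (Y P) i)) ≠ 0 := by
    intro P h0
    apply hy' P
    have h1 : M.redLin L (Y P) = ∑ i, algebraMap A k (ε.repr (Y P) i) • M.redLin L (ε i) := by
      conv_lhs => rw [← ε.sum_repr (Y P)]
      rw [map_sum]
      refine Finset.sum_congr rfl fun i _ => ?_
      rw [map_smul, algebraMap_smul]
    have h2 : M.π ⟨a P • u P, hy P⟩ = M.redLin L (Y P) := rfl
    rw [h2, h1]
    refine Finset.sum_eq_zero fun i _ => ?_
    have := congrFun h0 i
    simp only [Pi.zero_apply] at this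
    rw [this, zero_smul]
  -- a normalising functional
  obtain ⟨l, hl⟩ : ∃ l : Module.Free.ChooseBasisIndex A (M.lat L) → k,
      ∀ P, ∑ i, l i * algebraMap A k (ε.repr (Y P) i) ≠ 0 := by
    let φ : V → ((Module.Free.ChooseBasisIndex A (M.lat L) → k) →ₗ[k] k) := fun P =>
      { toFun := fun l => ∑ i, l i * algebraMap A k (ε.repr (Y P) i)
        map_add' := fun x y => by simp [add_mul, Finset.sum_add_distrib]
        map_smul' := fun c x => by simp [Finset.mul_sum, mul_assoc] }
    have hφ : ∀ P, LinearMap.ker (φ P) ≠ ⊤ := by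
      intro P h
      apply hYne P
      funext i
      have h1 : (Pi.single i 1 : _ → k) ∈ LinearMap.ker (φ P) := by rw [h]; trivial
      rw [LinearMap.mem_ker] at h1
      change ∑ j, (Pi.single i 1 : _ → k) j * algebraMap A k (ε.repr (Y P) j) = 0 at h1
      rw [Finset.sum_eq_single i] at h1
      · rw [Pi.single_eq_same, one_mul] at h1
        exact h1
      · intro j _ hj
        rw [Pi.single_eq_of_ne hj, zero_mul]
      · intro h2; exact absurd (Finset.mem_univ _) h2
    obtain ⟨l, hl⟩ := Submodule.exists_forall_notMem_of_forall_ne_top _ hφ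
    exact ⟨l, hl⟩
  choose lA hlA using fun i => hk (l i)
  have hnu : ∀ P, IsUnit (∑ i, lA i * ε.repr (Y P) i) := fun P =>
    isUnit_of_ne hk _ (by rw [map_sum]; simpa only [map_mul, hlA] using hl P)
  choose nu hnu using hnu
  let a' : Module.Free.ChooseBasisIndex A (M.lat L) → V → A :=
    fun i P => (↑(nu P)⁻¹ : A) * ε.repr (Y P) i
  let y' : V → M.W := fun P => ∑ i, a' i P • e i
  have hy'F : ∀ P, (y' P : F) = (algebraMap A K (↑(nu P)⁻¹ : A) * a P) • u P := by
    intro P
    have h1 := congrArg (M.lat L).subtype (ε.sum_repr (Y P))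
    rw [map_sum] at h1
    have h2 : a P • u P = ∑ i, algebraMap A K (ε.repr (Y P) i) • (ε i : F) := by
      refine h1.symm.trans (Finset.sum_congr rfl fun i _ => ?_)
      rw [algebraMap_smul]; rfl
    rw [mul_smul, h2, coe_sum_smul, Finset.smul_sum]
    refine Finset.sum_congr rfl fun i _ => ?_
    rw [smul_smul, ← map_mul]
  have hcne : ∀ P, algebraMap A K (↑(nu P)⁻¹ : A) * a P ≠ 0 := fun P =>
    mul_ne_zero (by
      rw [Ne, IsFractionRing.to_map_eq_zero_iff (K := K)]
      exact Units.ne_zero _) (ha P)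
  have hdivy : ∀ P, divisor K (y' P : F) = E P + E (s P) + Z - Finsupp.single v n := fun P => by
    rw [hy'F, hdiv P _ (hcne P)]
  have hπne : ∀ P, M.π (y' P) ≠ 0 := by
    intro P h0
    have h1 : y' P = (↑(nu P)⁻¹ : A) • (⟨a P • u P, hy P⟩ : M.W) := by
      apply Subtype.ext
      rw [coe_smul_W, hy'F, mul_smul]
    rw [h1, map_smul, ← algebraMap_smul k, smul_eq_zero] at h0
    rcases h0 with h0 | h0
    · have h2 : IsUnit (algebraMap A k (↑(nu P)⁻¹ : A)) :=
        (Units.isUnit _).map (algebraMap A k)
      exact h2.ne_zero h0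
    · exact hy' P h0
  have he0 : ∀ i, (e i : F) ∈ II v 0 := fun i =>
    II_mono hZ (L_le_II n (ε i).2.2)
  choose cE hcE using fun i P => (hcomp P).exists_coord hv (he0 i)
  have hcEm : ∀ i j, (fun P => cE i P j) ∈ coordRing v E ws := fun i j =>
    coord_mem (he0 i) (fun P => hcE i P) j
  have hli := M.linearIndependent_red hk ε
  have hmemH : ∀ i, a' i ∈ coordRing v E ws := by
    refine mem_of_linear hk (isUnit_of_ne hk) (coordRing v E ws)
      (fun (o : Option ι) i => o.elim (fun _ => lA i) (fun j P => cE i P j)) ?_ a'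
      (fun o => o.elim (fun _ => 1) (fun _ _ => 0)) ?_ ?_ ?_
    · rintro (_ | j) i
      · exact (coordRing v E ws).algebraMap_mem (lA i)
      · exact hcEm i j
    · rintro (_ | j)
      · exact one_mem _
      · exact zero_mem _
    · rintro (_ | j) P
      · change ∑ i, lA i * ((↑(nu P)⁻¹ : A) * ε.repr (Y P) i) = 1
        have : ∑ i, lA i * ((↑(nu P)⁻¹ : A) * ε.repr (Y P) i) =
            (↑(nu P)⁻¹ : A) * ∑ i, lA i * ε.repr (Y P) i := by
          rw [Finset.mul_sum]
          exact Finset.sum_congr rfl fun i _ => by ring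
        rw [this, ← hnu P, Units.inv_mul]
      · change ∑ i, cE i P j * a' i P = 0
        have h1 : ((∑ j, (∑ i, cE i P j * a' i P) • ws j : M.W) : F) ∈ II v (E P) := by
          have h2 : (∑ j, (∑ i, cE i P j * a' i P) • ws j : M.W) =
              y' P - ∑ i, a' i P • (e i - ∑ j, cE i P j • ws j) := by
            simp only [y', smul_sub, Finset.sum_sub_distrib, sub_sub_cancel, Finset.smul_sum,
              smul_smul, Finset.sum_smul]
            rw [Finset.sum_comm]
            exact Finset.sum_congr rfl fun j _ => Finset.sum_congr rfl fun i _ => by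
              rw [mul_comm]
          rw [h2, Subalgebra.coe_sub]
          refine Submodule.sub_mem _ ?_ ?_
          · have h3 : (y' P : F) ≠ 0 := by
              rw [hy'F]; exact smul_ne_zero (hcne P) (hu0 P)
            intro p hp
            refine Ge.of_le ?_
            rw [← divisor_apply (K := K), hdivy P, Finsupp.sub_apply,
              Finsupp.single_eq_of_ne hp, Finsupp.add_apply, Finsupp.add_apply, sub_zero]
            have h4 := (hcomp (s P)).nonneg p
            have h5 := hZ p
            simp only [Finsupp.coe_zero, Pi.zero_apply] at h4 h5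
            omega
          · rw [coe_sum_smul]
            refine Submodule.sum_mem _ fun i _ => Submodule.smul_mem _ _ ?_
            rw [Subalgebra.coe_sub]
            exact hcE i P
        have h4 := (hcomp P).unique0 hv h1
        exact congrFun h4 j
    · intro P t ht
      have h1 : ∑ i, t i • M.π (e i) ∈ II w (𝓓.r (E P)) :=
        red_comb 𝓓 hv e (fun i => cE i P) (fun i => hcE i P) t (fun j => ht (some j))
      have h2 : ∑ i, t i • M.π (e i) ∈ riemannRochSpace (Finsupp.single w n - 𝓓.r Z) := by
        refine Submodule.sum_mem _ fun i _ => Submodule.smul_mem _ _ ?_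
        have h3 := 𝓓.π_mem (ε i).2.1 (ε i).2.2
        rw [map_sub, r_single_n 𝓓 hv] at h3
        exact h3
      have h3 := mem_L_disj 𝓓 hEw Z hZw hdisj h2 h1
      have h4 : divisor k (M.π (y' P)) = 𝓓.r (E P) + 𝓓.r (E (s P)) + 𝓓.r Z -
          Finsupp.single w n := by
        rw [← 𝓓.r_divisor (y' P).2 (hπne P), hdivy P, map_sub, map_add, map_add,
          r_single_n 𝓓 hv]
      have h5 : Finsupp.single w n - 𝓓.r Z - 𝓓.r (E P) =
          𝓓.r (E (s P)) - divisor k (M.π (y' P)) := by
        rw [h4]; abel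
      rw [h5] at h3
      have h6 : M.π (y' P) ∈ riemannRochSpace (𝓓.r (E (s P)) - divisor k (M.π (y' P))) := by
        have h7 := (mul_mem_L_iff (hπne P) (𝓓.r (E (s P))) 1).2
          (DivRed.one_mem_L.2 (𝓓.r_nonneg (hcomp (s P)).nonneg))
        rwa [mul_one] at h7
      obtain ⟨c, hc⟩ : ∃ c : k, c • M.π (y' P) = ∑ i, t i • M.π (e i) := by
        have h7 : ell (𝓓.r (E (s P)) - divisor k (M.π (y' P))) ≤ 1 := by
          rw [ell_sub_divisor (hπne P)]; exact hell (s P)
        let y0 : riemannRochSpace (𝓓.r (E (s P)) - divisor k (M.π (y' P))) := ⟨_, h6⟩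
        have hy0 : y0 ≠ 0 := fun h => hπne P (congrArg Subtype.val h)
        have h8 : finrank k (riemannRochSpace (𝓓.r (E (s P)) - divisor k (M.π (y' P)))) = 1 := by
          have h9 : 0 < finrank k
              (riemannRochSpace (𝓓.r (E (s P)) - divisor k (M.π (y' P)))) :=
            Module.finrank_pos_iff_exists_ne_zero.2 ⟨y0, hy0⟩
          rw [ell] at h7
          omega
        obtain ⟨c, hc⟩ := (finrank_eq_one_iff_of_nonzero' y0 hy0).1 h8 ⟨_, h3⟩
        exact ⟨c, congrArg Subtype.val hc⟩
      have h7 : ∑ i, (t i - c * algebraMap A k (a' i P)) • M.redLin L (ε i) = 0 := by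
        simp only [sub_smul, Finset.sum_sub_distrib, mul_smul, ← Finset.smul_sum]
        rw [sub_eq_zero]
        refine hc.symm.trans ?_
        congr 1
        exact π_sum_smul _ _
      have h8 : ∀ i, t i = c * algebraMap A k (a' i P) := fun i =>
        sub_eq_zero.1 (Fintype.linearIndependent_iff.1 hli _ h7 i)
      have h9 := ht none
      have h10 : ∑ i, algebraMap A k (lA i) * algebraMap A k (a' i P) = 1 := by
        rw [← map_one (algebraMap A k), ← Units.inv_mul (nu P), hnu P, Finset.mul_sum, map_sum]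
        refine Finset.sum_congr rfl fun i _ => ?_
        rw [← map_mul]
        congr 1
        simp only [a']
        ring
      have h11 : c = 0 := by
        have h12 : ∑ i, algebraMap A k (lA i) * t i = 0 := h9
        rw [← mul_one c, ← h10, Finset.mul_sum, ← h12]
        refine Finset.sum_congr rfl fun i _ => ?_
        rw [h8]; ring
      funext i
      rw [h8, h11, zero_mul]; rfl
  refine ⟨fun P => y' P, ?_, fun P => ⟨y' P, rfl, hπne P, hdivy P⟩⟩
  have h1 : (fun P => (y' P : F)) = fun P => ∑ i, algebraMap A K (a' i P) • (ε i : F) := by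
    funext P
    exact coe_sum_smul _ _
  rw [h1]
  exact fam_of_repr (fun i => (ε i).2) hmemH

end

end Fermat.Agent.FFG
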