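import Fermat.Agent.FFG.ReflA

/-!
# Functions vanishing along a moving divisor
-/

set_option autoImplicit false
set_option linter.unusedSectionVars false
set_option linter.style.haveILetI false

noncomputable section

namespace Fermat.Agent.FFG

open AlgebraicCurve Fermat.Agent.RR Fermat.Agent.Curve Fermat.Agent.Red Fermat.Agent.Spec Module

variable {A K F k R : Type*} [CommRing A] [IsDomain A] [ValuationRing A]
  [Field K] [Algebra A K] [IsFractionRing A K] [Field F] [Algebra K F] [Algebra A F]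
  [IsScalarTower A K F] [Field k] [Algebra A k] [Field R] [Algebra k R] [Algebra A R]
  [IsScalarTower A k R]
  [IsAlgClosed K] [IsAlgClosed k] [FunField K F] [FunField k R]
  {M : RedModel A K F k R} {hk : Function.Surjective (algebraMap A k)}
  (𝓓 : DivRed A K F k R M hk) {v : Place K F} {w : Place k R}
  (hv : 𝓓.r (Finsupp.single v 1) = Finsupp.single w 1)

theorem Ge_of_mul {K F : Type*} [Field K] [IsAlgClosed K] [Field F] [Algebra K F] [FunField K F]
    {p : Place K F} {x y : F} {m n : ℤ} (hx : x ≠ 0) (hxn : p.ord x ≤ n) (h : Ge p (n + m) (x * y)) :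
    Ge p m y := by
  rcases eq_or_ne y 0 with rfl | hy
  · exact Ge.zero _ _
  · refine Ge.of_le ?_
    have h1 := h.le_ord (mul_ne_zero hx hy)
    rw [p.ord_mul hx hy] at h1
    omega

variable {𝓓} in
include hv in
/-- multiplying by a function which is a unit along `E` -/
theorem Comp.mul {ι : Type*} [Fintype ι] {E : Divisor K F} {ws : ι → M.W}
    (hc : Comp 𝓓 v w E ws) {h : M.W} (hh : (h : F) ∈ II v 0) (h0 : M.π h ≠ 0)
    (h1 : ∀ p, p ≠ w → 𝓓.r E p ≠ 0 → p.ord (M.π h) = 0) :
    Comp 𝓓 v w E (fun j => h * ws j) where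
  nonneg := hc.nonneg
  deg := hc.deg
  reg j := by
    have := mul_mem_II hh (hc.reg j)
    rw [add_zero] at this
    exact this
  ind c hI := by
    refine hc.ind c ?_
    have h2 : ∑ j, c j • M.π (h * ws j) = M.π h * ∑ j, c j • M.π (ws j) := by
      rw [Finset.mul_sum]
      exact Finset.sum_congr rfl fun j _ => by rw [map_mul, mul_smul_comm]
    rw [h2] at hI
    have hr0 : ∀ j, M.π (ws j) ∈ II w 0 := fun j => by
      have := π_mem_II 𝓓 hv (hc.reg j)
      rwa [map_zero] at this
    intro p hp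
    by_cases hE : 𝓓.r E p = 0
    · rw [hE]
      exact (Submodule.sum_mem (II w 0) fun j _ => Submodule.smul_mem _ (c j) (hr0 j)) p hp
    · have h3 := hI p hp
      refine Ge_of_mul (n := 0) h0 (h1 p hp hE).le ?_
      rwa [zero_add]

section

variable {V : Type*} [Finite V] [Nonempty V] {ι : Type*} [Fintype ι] {E : V → Divisor K F} {ws : ι → M.W}
  (hcomp : ∀ P, Comp 𝓓 v w (E P) ws) (hEw : ∀ P, 𝓓.r (E P) w = 0)
  (Z : Divisor K F) (hZ : 0 ≤ Z) (hZw : 𝓓.r Z w = 0)
  (hdisj : ∀ P u, 𝓓.r Z u = 0 ∨ 𝓓.r (E P) u = 0)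

include hv hcomp hEw hZ hZw hdisj in
/-- **A family of functions vanishing along `Z + E P`, exactly after reduction.** -/
theorem exists_y (S : Finset (Place k R)) (hS : ∀ p ∈ S, p ≠ w)
    (hS' : ∀ P p, 𝓓.r (E P) p ≠ 0 → p ∈ S) :
    ∃ (N : ℤ) (y : V → F), y ∈ famSpan M (coordRing v E ws)
        (riemannRochSpace (Finsupp.single v N - Z)) ∧
      ∀ P, y P ∈ II v (E P) ∧ ∃ y' : M.W, (y' : F) = y P ∧
        ∀ p ∈ S, M.π y' ≠ 0 ∧ p.ord (M.π y') ≤ 𝓓.r Z p + 𝓓.r (E P) p := by
  classical
  haveI : Infinite k := IsAlgClosed.instInfinite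
  -- the unit
  obtain ⟨c1, hc1⟩ := 𝓓.exists_lift_tight
  obtain ⟨nh, hnh⟩ : ∃ nh : ℤ, nh = c1 + Divisor.degree Z := ⟨_, rfl⟩
  obtain ⟨h, hW, hL, h0, hord⟩ := hc1 (Finsupp.single v nh - Z) (by
    rw [map_sub, degree_single']; omega) S
  let H : M.W := ⟨h, hW⟩
  have hH0 : (H : F) ∈ II v 0 := II_mono hZ (L_le_II nh hL)
  have hHord : ∀ P p, p ≠ w → 𝓓.r (E P) p ≠ 0 → p.ord (M.π H) = 0 := by
    intro P p hp hE
    have h1 := hord p (hS' P p hE)
    rw [map_sub, r_single_n 𝓓 hv, Finsupp.sub_apply, Finsupp.single_eq_of_ne hp] at h1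
    have h2 := (hdisj P p).resolve_right hE
    rw [h2] at h1
    simpa using h1
  have hcomp' : ∀ P, Comp 𝓓 v w (E P) (fun j => H * ws j) := fun P =>
    (hcomp P).mul hv hH0 h0 (hHord P)
  -- pole orders of `ws`
  obtain ⟨P0⟩ := (inferInstance : Nonempty V)
  obtain ⟨m, hm⟩ : ∃ m : ℤ, ∀ j, (ws j : F) ∈ riemannRochSpace (Finsupp.single v m) := by
    choose m1 h1 using fun j => exists_mem_L_of_II ((hcomp P0).reg j)
    refine ⟨∑ j, (m1 j : ℤ), fun j => ?_⟩
    have := h1 j (∑ j, (m1 j : ℤ)) (Finset.single_le_sum (f := fun j => (m1 j : ℤ))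
      (fun j _ => Int.natCast_nonneg _) (Finset.mem_univ j))
    rwa [sub_zero] at this
  -- the large pole order
  obtain ⟨c2, hc2⟩ := 𝓓.rd_eq
  obtain ⟨c3, hc3⟩ := exists_tight k R
  obtain ⟨N, hN1, hN2, hN3⟩ : ∃ N : ℤ, nh + m ≤ N ∧ c2 + Divisor.degree Z ≤ N ∧
      c3 + Divisor.degree Z + Fintype.card ι ≤ N :=
    ⟨max (nh + m) (max (c2 + Divisor.degree Z) (c3 + Divisor.degree Z + Fintype.card ι)),
      le_max_left _ _, (le_max_left _ _).trans (le_max_right _ _),
      (le_max_right _ _).trans (le_max_right _ _)⟩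
  have hHw : ∀ j, ((H * ws j : M.W) : F) ∈ riemannRochSpace (Finsupp.single v N - Z) := by
    intro j
    have h1 := L_mul_mem hL (hm j)
    refine L_mono ?_ h1
    have h2 : (Finsupp.single v N : Divisor K F) - Z -
        (Finsupp.single v nh - Z + Finsupp.single v m) = Finsupp.single v (N - (nh + m)) := by
      rw [Finsupp.single_sub, Finsupp.single_add]; abel
    rw [← sub_nonneg, h2]
    exact Finsupp.single_nonneg.2 (by omega)
  have hHwk : ∀ j, M.π (H * ws j) ∈ riemannRochSpace (Finsupp.single w N - 𝓓.r Z) := by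
    intro j
    have h1 := 𝓓.π_mem (H * ws j).2 (hHw j)
    rwa [map_sub, r_single_n 𝓓 hv] at h1
  -- the bad subspaces
  let Lk := riemannRochSpace (Finsupp.single w N - 𝓓.r Z)
  let bad : V × S → Submodule k R := fun q =>
    riemannRochSpace (Finsupp.single w N - 𝓓.r Z - 𝓓.r (E q.1) - Finsupp.single (q.2 : Place k R) 1) ⊔
      Submodule.span k (Set.range fun j => M.π (H * ws j))
  have hdeg : ∀ P, Divisor.degree (Finsupp.single w N - 𝓓.r Z - 𝓓.r (E P)) =
      N - Divisor.degree Z - Fintype.card ι := by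
    intro P
    rw [map_sub, map_sub, degree_single', 𝓓.degree_r, 𝓓.degree_r, (hcomp P).deg]
  have hbad : ∀ q, (bad q).comap Lk.subtype ≠ ⊤ := by
    rintro ⟨P, p, hp⟩ htop
    obtain ⟨z, hz, hz0, hzp⟩ := hc3 (Finsupp.single w N - 𝓓.r Z - 𝓓.r (E P)) (by
      rw [hdeg P]; omega) {p}
    have hzL : z ∈ Lk := L_mono (sub_le_self _ (𝓓.r_nonneg (hcomp P).nonneg)) hz
    have h1 : (⟨z, hzL⟩ : Lk) ∈ (bad ⟨P, p, hp⟩).comap Lk.subtype := by rw [htop]; trivial
    rw [Submodule.mem_comap] at h1
    obtain ⟨z', hz', x, hx, hzx⟩ := Submodule.mem_sup.1 h1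
    obtain ⟨t, rfl⟩ := (Submodule.mem_span_range_iff_exists_fun k).1 hx
    have hz'' : z' ∈ riemannRochSpace (Finsupp.single w N - 𝓓.r Z - 𝓓.r (E P)) :=
      L_mono (sub_le_self _ (single_le_of_nonneg p)) hz'
    have h2 : ∑ j, t j • M.π (H * ws j) ∈
        riemannRochSpace (Finsupp.single w N - 𝓓.r Z - 𝓓.r (E P)) := by
      have h3 : ∑ j, t j • M.π (H * ws j) = z - z' := by
        change z' + _ = z at hzx
        rw [← hzx]; abel
      rw [h3]
      exact Submodule.sub_mem _ hz hz''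
    have h4 : ∑ j, t j • M.π (H * ws j) ∈ II w (𝓓.r (E P)) := by
      have h5 : Finsupp.single w N - 𝓓.r Z - 𝓓.r (E P) =
          Finsupp.single w N - (𝓓.r Z + 𝓓.r (E P)) := by abel
      rw [h5] at h2
      exact II_mono (le_add_of_nonneg_left (𝓓.r_nonneg hZ)) (L_le_II N h2)
    have h5 := (hcomp' P).ind t h4
    have h6 : z = z' := by
      change z' + _ = z at hzx
      rw [← hzx, h5]
      simp
    have h7 := (mem_L.1 hz' p)
    rw [← h6] at h7
    have h8 := h7.le_ord hz0
    rw [hzp p (Finset.mem_singleton_self p), Finsupp.sub_apply _ (Finsupp.single p 1),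
      Finsupp.single_eq_same] at h8
    dsimp only at h8
    omega
  obtain ⟨b0, hb0⟩ := Submodule.exists_forall_notMem_of_forall_ne_top _ hbad
  obtain ⟨b, hbL, hb⟩ : ∃ b : M.W, (b : F) ∈ riemannRochSpace (Finsupp.single v N - Z) ∧
      M.π b = b0 := by
    have h1 := b0.2
    have h2 := hc2 (Finsupp.single v N - Z) (by rw [map_sub, degree_single']; omega)
    rw [map_sub, r_single_n 𝓓 hv] at h2
    change (b0 : R) ∈ riemannRochSpace (Finsupp.single w N - 𝓓.r Z) at h1
    rw [← h2] at h1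
    obtain ⟨x, hx, hxb⟩ := h1
    exact ⟨⟨x, hx.1⟩, hx.2, hxb⟩
  have hb00 : (b : F) ∈ II v 0 := II_mono hZ (L_le_II N hbL)
  choose d hd using fun P => (hcomp' P).exists_coord hv hb00
  let y' : V → M.W := fun P => b - ∑ j, d P j • (H * ws j)
  refine ⟨N, fun P => y' P, ?_, fun P => ⟨?_, y' P, rfl, fun p hp => ?_⟩⟩
  · -- coefficients
    have hmemd : ∀ j, (fun P => d P j) ∈ coordRing v E ws := by
      choose cH hcH using fun i P => (hcomp P).exists_coord hv ((hcomp' P0).reg i)
      choose cb hcb using fun P => (hcomp P).exists_coord hv hb00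
      refine mem_of_linear hk (isUnit_of_ne hk) (coordRing v E ws)
        (fun (j : ι) (i : ι) P => cH i P j) (fun j i => coord_mem ((hcomp' P0).reg i)
          (fun P => hcH i P) j) (fun j P => d P j) (fun j P => cb P j)
        (fun j => coord_mem hb00 hcb j) ?_ ?_
      · intro j P
        have h1 : (b : F) - ((∑ j, (∑ i, cH i P j * d P i) • ws j : M.W) : F) ∈ II v (E P) := by
          have h2 : (b : F) - ((∑ j, (∑ i, cH i P j * d P i) • ws j : M.W) : F) =
              ((b : F) - ((∑ j, d P j • (H * ws j) : M.W) : F)) +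
              ((∑ i, d P i • ((H * ws i) - ∑ j, cH i P j • ws j) : M.W) : F) := by
            rw [sub_add_eq_add_sub, ← Subalgebra.coe_add, ← Subalgebra.coe_sub,
              ← Subalgebra.coe_sub]
            congr 1
            simp only [smul_sub, Finset.sum_sub_distrib, Finset.smul_sum, smul_smul,
              Finset.sum_smul]
            rw [Finset.sum_comm]
            have h3 : ∑ i, ∑ j, (cH i P j * d P i) • ws j = ∑ i, ∑ j, (d P i * cH i P j) • ws j :=
              Finset.sum_congr rfl fun i _ => Finset.sum_congr rfl fun j _ => by rw [mul_comm]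
            rw [h3]
            abel
          rw [h2]
          refine Submodule.add_mem _ (hd P) ?_
          rw [coe_sum_smul]
          refine Submodule.sum_mem _ fun i _ => Submodule.smul_mem _ _ ?_
          rw [Subalgebra.coe_sub]
          exact hcH i P
        exact congrFun ((hcomp P).unique' hv h1 (hcb P)) j
      · intro P t ht
        have h1 := red_comb 𝓓 hv (fun i => H * ws i) (fun i => cH i P) (fun i => hcH i P) t ht
        exact (hcomp' P).ind t h1
    have h1 : (fun P => (y' P : F)) = (fun _ => (b : F)) - fun P =>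
        ∑ j, algebraMap A K (d P j) • ((H * ws j : M.W) : F) := by
      funext P
      change ((b - ∑ j, d P j • (H * ws j) : M.W) : F) = _
      rw [Subalgebra.coe_sub, coe_sum_smul]
      rfl
    rw [h1]
    refine sub_mem (const_mem_fam ⟨b.2, hbL⟩) ?_
    exact fam_of_repr (U := riemannRochSpace (Finsupp.single v N - Z))
      (X := fun j P => d P j) (fun j => ⟨(H * ws j).2, hHw j⟩) hmemd
  · exact hd P
  · have h1 : M.π (y' P) ∈ riemannRochSpace (Finsupp.single w N - 𝓓.r Z) := by
      have h2 : ((y' P : M.W) : F) ∈ riemannRochSpace (Finsupp.single v N - Z) := by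
        change ((b - ∑ j, d P j • (H * ws j) : M.W) : F) ∈ _
        rw [Subalgebra.coe_sub, coe_sum_smul]
        exact Submodule.sub_mem _ hbL (Submodule.sum_mem _ fun j _ =>
          Submodule.smul_mem _ _ (hHw j))
      have h3 := 𝓓.π_mem (y' P).2 h2
      rwa [map_sub, r_single_n 𝓓 hv] at h3
    have h2 : M.π (y' P) ∈ II w (𝓓.r (E P)) := π_mem_II 𝓓 hv (hd P)
    have h3 := mem_L_disj 𝓓 hEw Z hZw hdisj h1 h2
    have h4 : M.π (y' P) ∉ riemannRochSpace (Finsupp.single w N - 𝓓.r Z - 𝓓.r (E P) -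
        Finsupp.single p 1) := by
      intro h5
      apply hb0 (P, ⟨p, hp⟩)
      rw [Submodule.mem_comap]
      refine Submodule.mem_sup.2 ⟨M.π (y' P), h5, M.π (∑ j, d P j • (H * ws j)), ?_, ?_⟩
      · rw [π_sum_smul]
        exact Submodule.sum_mem _ fun j _ => Submodule.smul_mem _ _
          (Submodule.subset_span ⟨j, rfl⟩)
      · rw [← map_add, sub_add_cancel]
        exact hb
    have h5 : M.π (y' P) ≠ 0 := fun h => h4 (by rw [h]; exact zero_mem _)
    refine ⟨h5, ?_⟩
    rw [ord_eq_of_notMem h3 h4, Finsupp.sub_apply, Finsupp.sub_apply,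
      Finsupp.single_eq_of_ne (hS p hp)]
    omega

end

end Fermat.Agent.FFG
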