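import Fermat.Agent.FFG.ReflB

/-!
# Reflections preserve the coordinate ring
-/

set_option autoImplicit false
set_option linter.unusedSectionVars false
set_option linter.style.haveILetI false

noncomputable section

namespace Fermat.Agent.FFG

open AlgebraicCurve Fermat.Agent.RR Fermat.Agent.Curve Fermat.Agent.Red Fermat.Agent.Spec Module

variable {A K F k R : Type*} [CommRing A] [IsDomain A] [ValuationRing A]
  [Field K] [Algebra A K] [IsFractionRing A K] [Field F] [Algebra K F] [Algebra A F]
  [IsScalarTower A K F] [Field k] [Algebra A k] [Field R] [Algebra k R] [Algebra A R]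
  [IsScalarTower A k R]
  [IsAlgClosed K] [IsAlgClosed k] [FunField K F] [FunField k R]
  {M : RedModel A K F k R} {hk : Function.Surjective (algebraMap A k)}
  (𝓓 : DivRed A K F k R M hk) {v : Place K F} {w : Place k R}
  (hv : 𝓓.r (Finsupp.single v 1) = Finsupp.single w 1)

theorem L_single_le_II {K F : Type*} [Field K] [IsAlgClosed K] [Field F] [Algebra K F]
    [FunField K F] {v : Place K F} (m : ℤ) :
    riemannRochSpace (Finsupp.single v m : Divisor K F) ≤ II v 0 := by
  have := L_le_II (v := v) (E := (0 : Divisor K F)) m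
  rwa [sub_zero] at this

include hv in
theorem apply_eq_zero_of_r {D : Divisor K F} (hD : 0 ≤ D) (h : 𝓓.r D w = 0) : D v = 0 := by
  classical
  have h1 : Finsupp.single v (D v) ≤ D := by
    intro p
    rw [Finsupp.single_apply]
    split_ifs with hp
    · subst hp; exact le_rfl
    · exact hD p
  have h2 := 𝓓.r_mono h1 w
  rw [r_single_n 𝓓 hv, Finsupp.single_eq_same, h] at h2
  have h3 := hD v
  simp only [Finsupp.coe_zero, Pi.zero_apply] at h3
  omega

section

variable {V : Type*} [Finite V] [Nonempty V] {ι : Type*} [Fintype ι] {E : V → Divisor K F}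
  {ws : ι → M.W}
  (hcomp : ∀ P, Comp 𝓓 v w (E P) ws) (hEw : ∀ P, 𝓓.r (E P) w = 0)
  (hell : ∀ P, ell (𝓓.r (E P)) ≤ 1)
  (s : V → V) (Z : Divisor K F) (n : ℤ) (hZ : 0 ≤ Z) (hZw : 𝓓.r Z w = 0)
  (hdisj : ∀ P u, 𝓓.r Z u = 0 ∨ 𝓓.r (E P) u = 0)

include hv hcomp hEw hell hZ hZw hdisj in
theorem reflect_coord (u : V → F) (hu0 : ∀ P, u P ≠ 0)
    (hu : ∀ P, divisor K (u P) = E P + E (s P) + Z - Finsupp.single v n)
    {β : M.W} (hβ : (β : F) ∈ II v 0) {c : V → ι → A}
    (hc : ∀ P, (β : F) - ((∑ j, c P j • ws j : M.W) : F) ∈ II v (E P)) (j : ι) :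
    (fun P => c (s P) j) ∈ coordRing v E ws := by
  classical
  haveI : Infinite k := IsAlgClosed.instInfinite
  haveI := Fintype.ofFinite V
  obtain ⟨u', hu'fam, hu'⟩ := exists_u 𝓓 hv hcomp hEw hell s Z n hZ hZw hdisj u hu0 hu
  choose U hUF hUπ hUdiv using hu'
  let S : Finset (Place k R) := Finset.univ.biUnion fun P => (𝓓.r (E P)).support
  have hS : ∀ p ∈ S, p ≠ w := by
    rintro p hp rfl
    obtain ⟨P, -, hP⟩ := Finset.mem_biUnion.1 hp
    exact (Finsupp.mem_support_iff.1 hP) (hEw P)
  have hS' : ∀ P p, 𝓓.r (E P) p ≠ 0 → p ∈ S := fun P p h =>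
    Finset.mem_biUnion.2 ⟨P, Finset.mem_univ _, Finsupp.mem_support_iff.2 h⟩
  obtain ⟨N, y, hyfam, hy⟩ := exists_y 𝓓 hv hcomp hEw Z hZ hZw hdisj S hS hS'
  choose hyI Y hYF hYord using hy
  have hEv : ∀ P, E P v = 0 := fun P => apply_eq_zero_of_r 𝓓 hv (hcomp P).nonneg (hEw P)
  have hZv : Z v = 0 := apply_eq_zero_of_r 𝓓 hv hZ hZw
  -- uniform pole order
  obtain ⟨P0⟩ := (inferInstance : Nonempty V)
  obtain ⟨m, hmβ, hm⟩ : ∃ m : ℤ, (β : F) ∈ riemannRochSpace (Finsupp.single v m) ∧
      ∀ j, (ws j : F) ∈ riemannRochSpace (Finsupp.single v m) := by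
    obtain ⟨m0, h0⟩ := exists_mem_L_of_II hβ
    choose m1 h1 using fun j => exists_mem_L_of_II ((hcomp P0).reg j)
    have hs : (0 : ℤ) ≤ ∑ j, (m1 j : ℤ) := Finset.sum_nonneg fun j _ => Int.natCast_nonneg _
    refine ⟨m0 + ∑ j, (m1 j : ℤ), ?_, fun j => ?_⟩
    · have := h0 (m0 + ∑ j, (m1 j : ℤ)) (by omega)
      rwa [sub_zero] at this
    · have := h1 j (m0 + ∑ j, (m1 j : ℤ)) (by
        have : (m1 j : ℤ) ≤ ∑ j, (m1 j : ℤ) :=
          Finset.single_le_sum (f := fun j => (m1 j : ℤ)) (fun j _ => Int.natCast_nonneg _)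
            (Finset.mem_univ j)
        omega)
      rwa [sub_zero] at this
  have hyL : ∀ P, y P ∈ riemannRochSpace (Finsupp.single v N - Z) := by
    intro P
    obtain ⟨X, -, hX⟩ := fam_repr (Module.Free.chooseBasis A
      (M.lat (riemannRochSpace (Finsupp.single v N - Z)))) hyfam
    rw [hX P]
    exact Submodule.sum_mem _ fun a _ => Submodule.smul_mem _ _
      ((Module.Free.chooseBasis A (M.lat (riemannRochSpace (Finsupp.single v N - Z)))) a).2.2
  have hyZ : ∀ P, y P ∈ II v (Z + E P) := by
    intro P p hp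
    rw [Finsupp.add_apply]
    -- `Z` and `E P` are disjoint
    have h1 : Ge p (Z p) (y P) := L_le_II N (hyL P) p hp
    have h2 : Ge p (E P p) (y P) := hyI P p hp
    by_cases h3 : Z p = 0
    · rw [h3, zero_add]; exact h2
    · by_cases h4 : E P p = 0
      · rw [h4, add_zero]; exact h1
      · exfalso
        obtain ⟨q, hq⟩ := 𝓓.r_single p
        have h5 : ∀ D : Divisor K F, 0 ≤ D → D p ≠ 0 → 𝓓.r D q ≠ 0 := by
          intro D hD hDp h6
          exact hDp (apply_eq_zero_of_r 𝓓 hq hD h6)
        rcases hdisj P q with h6 | h6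
        · exact h5 Z hZ h3 h6
        · exact h5 (E P) (hcomp P).nonneg h4 h6
  -- the quotient
  let θ : V → M.W := fun P => β - ∑ j, c (s P) j • ws j
  have hθ : ∀ P, (θ P : F) ∈ II v (E (s P)) := fun P => hc (s P)
  have hθL : ∀ P, (θ P : F) ∈ riemannRochSpace (Finsupp.single v m) := by
    intro P
    change ((β - ∑ j, c (s P) j • ws j : M.W) : F) ∈ _
    rw [Subalgebra.coe_sub, coe_sum_smul]
    exact Submodule.sub_mem _ hmβ (Submodule.sum_mem _ fun j _ => Submodule.smul_mem _ _ (hm j))
  have hUunit : ∀ P, ∃ U' : M.W, U P * U' = 1 := by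
    intro P
    obtain ⟨x, hx⟩ := M.isUnit_of (U P) (hUπ P).isUnit
    exact ⟨↑x⁻¹, by rw [← hx, Units.mul_inv]⟩
  choose U' hUU' using hUunit
  let q : V → M.W := fun P => U' P * (θ P * Y P)
  have hq : ∀ P, U P * q P = θ P * Y P := fun P => by
    rw [← mul_assoc, hUU', one_mul]
  have hqL : ∀ P, (q P : F) ∈ riemannRochSpace (Finsupp.single v (m + N - n)) := by
    intro P
    have hU0 : (U P : F) ≠ 0 := by
      intro h0
      apply hUπ P
      have : U P = 0 := Subtype.ext h0
      rw [this, map_zero]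
    rw [← mul_mem_L_iff hU0, ← Subalgebra.coe_mul, hq P, hUF P, hUdiv P]
    have h1 : Finsupp.single v (m + N - n) - (E P + E (s P) + Z - Finsupp.single v n) =
        Finsupp.single v (m + N) - (E (s P) + (Z + E P)) := by
      rw [Finsupp.single_sub]; abel
    rw [h1, Subalgebra.coe_mul, hYF P]
    refine mem_L_of_mem_II (mul_mem_II (hθ P) (hyZ P)) ?_
    have h2 := (mem_L.1 (hθL P) v).mul (mem_L.1 (hyL P) v)
    rw [Finsupp.sub_apply, Finsupp.single_eq_same, Finsupp.single_eq_same, hZv] at h2
    rw [Finsupp.add_apply, Finsupp.add_apply, hEv, hEv, hZv]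
    exact h2.mono (by omega)
  -- linear system
  let f := Module.Free.chooseBasis A
    (M.lat (riemannRochSpace (Finsupp.single v (m + N - n) : Divisor K F)))
  let τ := Module.Free.ChooseBasisIndex A
    (M.lat (riemannRochSpace (Finsupp.single v (m + N - n) : Divisor K F)))
  let fW : τ → M.W := fun l => ⟨(f l : F), (f l).2.1⟩
  let q' : V → M.lat (riemannRochSpace (Finsupp.single v (m + N - n) : Divisor K F)) :=
    fun P => ⟨(q P : F), (q P).2, hqL P⟩
  have hqf : ∀ P, q P = ∑ l, f.repr (q' P) l • fW l := by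
    intro P
    apply Subtype.ext
    have h1 := congrArg Subtype.val (f.sum_repr (q' P))
    rw [coe_sum_smul]
    refine h1.symm.trans ?_
    rw [AddSubmonoidClass.coe_finsetSum]
    refine Finset.sum_congr rfl fun l _ => ?_
    rw [algebraMap_smul]; rfl
  let L := riemannRochSpace (Finsupp.single v (m + N) : Divisor K F)
  have hmulN : ∀ e : M.W, (e : F) ∈ riemannRochSpace (Finsupp.single v m : Divisor K F) →
      ∀ x ∈ riemannRochSpace (Finsupp.single v N - Z), (e : F) * x ∈ L := by
    intro e he x hx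
    refine L_mono ?_ (L_mul_mem he hx)
    rw [Finsupp.single_add]
    have : (Finsupp.single v m : Divisor K F) + (Finsupp.single v N - Z) =
        Finsupp.single v m + Finsupp.single v N - Z := by abel
    rw [this]
    exact sub_le_self _ hZ
  have hmuln : ∀ l, ∀ x ∈ riemannRochSpace (Finsupp.single v n - Z), (fW l : F) * x ∈ L := by
    intro l x hx
    refine L_mono ?_ (L_mul_mem (f l).2.2 hx)
    have : (Finsupp.single v (m + N - n) : Divisor K F) + (Finsupp.single v n - Z) =
        Finsupp.single v (m + N) - Z := by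
      rw [Finsupp.single_sub]; abel
    rw [this]
    exact sub_le_self _ hZ
  have key := mem_of_linear_F (U := L) (M := M) (𝓗 := coordRing v E ws) hk
    (κ := ι ⊕ τ)
    (fun o => o.elim (fun j P => (ws j : F) * y P) (fun l P => (fW l : F) * u' P)) (by
      rintro (j | l)
      · exact fam_mul hyfam (ws j) (hmulN (ws j) (hm j))
      · exact fam_mul hu'fam (fW l) (hmuln l))
    (z := fun P => (β : F) * y P) (fam_mul hyfam β (hmulN β hmβ))
    (fun o => o.elim (fun j P => c (s P) j) (fun l P => f.repr (q' P) l)) (by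
      intro P
      rw [Fintype.sum_sum_type]
      have h1 : ∑ j, algebraMap A K (c (s P) j) • ((ws j : F) * y P) =
          (((∑ j, c (s P) j • ws j) * Y P : M.W) : F) := by
        rw [Subalgebra.coe_mul, coe_sum_smul, Finset.sum_mul, hYF]
        exact Finset.sum_congr rfl fun j _ => by rw [smul_mul_assoc]
      have h2 : ∑ l, algebraMap A K (f.repr (q' P) l) • ((fW l : F) * u' P) =
          ((q P * U P : M.W) : F) := by
        rw [hqf P, Subalgebra.coe_mul, coe_sum_smul, Finset.sum_mul, hUF]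
        exact Finset.sum_congr rfl fun j _ => by rw [smul_mul_assoc]
      have h3 : (β : F) * y P = ((β * Y P : M.W) : F) := by
        rw [Subalgebra.coe_mul, hYF]
      change ∑ j, algebraMap A K (c (s P) j) • ((ws j : F) * y P) +
        ∑ l, algebraMap A K (f.repr (q' P) l) • ((fW l : F) * u' P) = (β : F) * y P
      rw [h1, h2, h3, mul_comm (q P), hq P, ← Subalgebra.coe_add]
      congr 1
      change _ + (β - ∑ j, c (s P) j • ws j) * Y P = _
      ring) (by
      intro P x hx t ht
      have hx1 : ∀ j, x (Sum.inl j) = ws j * Y P := fun j => by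
        apply Subtype.ext
        rw [hx, Subalgebra.coe_mul, hYF]; rfl
      have hx2 : ∀ l, x (Sum.inr l) = fW l * U P := fun l => by
        apply Subtype.ext
        rw [hx, Subalgebra.coe_mul, hUF]; rfl
      rw [Fintype.sum_sum_type] at ht
      simp only [hx1, hx2, map_mul] at ht
      have ht' : (∑ j, t (Sum.inl j) • M.π (ws j)) * M.π (Y P) +
          (∑ l, t (Sum.inr l) • M.π (fW l)) * M.π (U P) = 0 := by
        rw [Finset.sum_mul, Finset.sum_mul, ← ht]
        congr 1 <;> exact Finset.sum_congr rfl fun _ _ => smul_mul_assoc _ _ _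
      have hφ : ∑ l, t (Sum.inr l) • M.π (fW l) ∈ II w 0 := by
        refine Submodule.sum_mem _ fun l _ => Submodule.smul_mem _ _ ?_
        have h1 : ((fW l : M.W) : F) ∈ II v 0 := by
          exact L_single_le_II _ (f l).2.2
        have h3 := π_mem_II 𝓓 hv h1
        rwa [map_zero] at h3
      have hθ0 : ∑ j, t (Sum.inl j) • M.π (ws j) ∈ II w 0 := by
        refine Submodule.sum_mem _ fun j _ => Submodule.smul_mem _ _ ?_
        have h3 := π_mem_II 𝓓 hv ((hcomp P).reg j)
        rwa [map_zero] at h3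
      have hUd : divisor k (M.π (U P)) = 𝓓.r (E P) + 𝓓.r (E (s P)) + 𝓓.r Z -
          Finsupp.single w n := by
        rw [← 𝓓.r_divisor (U P).2 (hUπ P), hUF P, hUdiv P, map_sub, map_add, map_add,
          r_single_n 𝓓 hv]
      have hθI : ∑ j, t (Sum.inl j) • M.π (ws j) ∈ II w (𝓓.r (E (s P))) := by
        intro p hp
        by_cases h0 : 𝓓.r (E (s P)) p = 0
        · rw [h0]; exact hθ0 p hp
        · obtain ⟨hY0, hYo⟩ := hYord P p (hS' _ p h0)
          refine Ge_of_mul (x := M.π (Y P)) hY0 hYo ?_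
          rw [mul_comm, eq_neg_of_add_eq_zero_left ht']
          have h4 : Ge p (𝓓.r Z p + 𝓓.r (E P) p + 𝓓.r (E (s P)) p) (M.π (U P)) := by
            refine Ge.of_le ?_
            rw [← divisor_apply (K := k), hUd, Finsupp.sub_apply, Finsupp.single_eq_of_ne hp,
              Finsupp.add_apply, Finsupp.add_apply]
            omega
          have h5 := ((hφ p hp).mul h4).neg
          simpa using h5
      have h6 := (hcomp (s P)).ind _ hθI
      have h7 : ∑ l, t (Sum.inr l) • M.π (fW l) = 0 := by
        rw [show (∑ j, t (Sum.inl j) • M.π (ws j)) = 0 from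
          Finset.sum_eq_zero fun j _ => by
            rw [show t (Sum.inl j) = 0 from congrFun h6 j, zero_smul], zero_mul, zero_add] at ht'
        exact (mul_eq_zero.1 ht').resolve_right (hUπ P)
      have h8 := Fintype.linearIndependent_iff.1 (M.linearIndependent_red hk f)
        (fun l => t (Sum.inr l)) h7
      funext o
      rcases o with j | l
      · exact congrFun h6 j
      · exact h8 l)
  exact key (Sum.inl j)

include hv hcomp hEw hell hZ hZw hdisj in
/-- **Reflections preserve the coordinate ring.** -/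
theorem reflect (u : V → F) (hu0 : ∀ P, u P ≠ 0)
    (hu : ∀ P, divisor K (u P) = E P + E (s P) + Z - Finsupp.single v n)
    {h : V → A} (hh : h ∈ coordRing v E ws) : (fun P => h (s P)) ∈ coordRing v E ws := by
  induction hh using Algebra.adjoin_induction with
  | mem x hx =>
    obtain ⟨b, hb, c, hc, j, rfl⟩ := hx
    exact reflect_coord 𝓓 hv hcomp hEw hell s Z n hZ hZw hdisj u hu0 hu hb hc j
  | algebraMap r => exact (coordRing v E ws).algebraMap_mem r
  | add x y _ _ hx hy => exact add_mem hx hy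
  | mul x y _ _ hx hy => exact mul_mem hx hy

end

end Fermat.Agent.FFG
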