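import Mathlib

/-!
# Rings of functions on a finite set with values in a local ring: Cramer's rule
-/

set_option autoImplicit false
set_option linter.unusedSectionVars false
set_option linter.style.haveILetI false

namespace Fermat.Agent.FFG

open Polynomial

variable {A k V : Type*} [CommRing A] [Field k] [Algebra A k] [Finite V]

/-- a function all of whose values are units is invertible in every algebra containing it -/
theorem inv_mem (𝓗 : Subalgebra A (V → A)) {s : V → A} (hs : s ∈ 𝓗) (hu : ∀ P, IsUnit (s P)) :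
    ∃ t ∈ 𝓗, s * t = 1 := by
  classical
  cases nonempty_fintype V
  let χ : A[X] := ∏ P, (X - C (s P))
  have h0 : aeval s χ = 0 := by
    funext Q
    have h1 : (aeval s χ) Q = aeval (s Q) χ := by
      have := (Polynomial.aeval_algHom_apply (Pi.evalAlgHom A (fun _ : V => A) Q) s χ).symm
      exact this
    rw [h1, Pi.zero_apply]
    change aeval (s Q) (∏ P, (X - C (s P))) = 0
    rw [map_prod]
    refine Finset.prod_eq_zero (Finset.mem_univ Q) ?_
    simp
  have h1 : s * aeval s χ.divX + algebraMap A (V → A) (χ.coeff 0) = 0 := by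
    have h2 := congrArg (aeval s) (Polynomial.divX_mul_X_add χ)
    rw [map_add, map_mul, aeval_X, aeval_C, h0] at h2
    rw [mul_comm]; exact h2
  have h3 : IsUnit (χ.coeff 0) := by
    have : χ.coeff 0 = ∏ P, (-(s P)) := by
      rw [coeff_zero_eq_eval_zero]
      change eval 0 (∏ P, (X - C (s P))) = _
      rw [eval_prod]
      simp
    rw [this]
    exact IsUnit.prod_univ_iff.2 fun P => (hu P).neg
  obtain ⟨u, hu'⟩ := h3
  refine ⟨(-(↑u⁻¹ : A)) • aeval s χ.divX, Subalgebra.smul_mem _ ?_ _, ?_⟩
  · exact Algebra.adjoin_le (Set.singleton_subset_iff.2 hs) (aeval_mem_adjoin_singleton A s)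
  · rw [mul_smul_comm, eq_neg_of_add_eq_zero_left h1, ← hu', smul_neg, neg_smul, neg_neg]
    funext Q
    change (↑u⁻¹ : A) * (algebraMap A (V → A) (u : A)) Q = 1
    rw [show (algebraMap A (V → A) (u : A)) Q = (u : A) from rfl, Units.inv_mul]

/-- a matrix with trivial kernel has an invertible maximal minor -/
theorem exists_minor {ι κ : Type*} [Fintype κ] [DecidableEq κ] (Φ : ι → κ → k)
    (h : ∀ c : κ → k, (∀ i, ∑ j, Φ i j * c j = 0) → c = 0) :
    ∃ f : κ → ι, (Matrix.of fun a b => Φ (f a) b).det ≠ 0 := by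
  classical
  obtain ⟨κ', a, ha, hspan, hli⟩ := exists_linearIndependent' k Φ
  have htop : Submodule.span k (Set.range Φ) = ⊤ := by
    by_contra hne
    obtain ⟨φ, hφ, hφ'⟩ := Submodule.exists_le_ker_of_lt_top _ (lt_top_iff_ne_top.2 hne)
    apply hφ
    let c : κ → k := fun j => φ (Pi.single j 1)
    have hφc : ∀ v : κ → k, φ v = ∑ j, v j * c j := by
      intro v
      conv_lhs => rw [← Finset.univ_sum_single v]
      rw [map_sum]
      refine Finset.sum_congr rfl fun j _ => ?_
      have : Pi.single j (v j) = v j • (Pi.single j (1 : k) : κ → k) := by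
        rw [← Pi.single_smul]; simp
      rw [this, map_smul]; rfl
    have hc : c = 0 := h c fun i => by
      rw [← hφc]
      exact hφ' (Submodule.subset_span ⟨i, rfl⟩)
    refine LinearMap.ext fun v => ?_
    rw [hφc, hc]; simp
  rw [htop] at hspan
  let b : Module.Basis κ' k (κ → k) := Module.Basis.mk hli (by rw [hspan])
  haveI : Finite κ' := Module.Finite.finite_basis b
  cases nonempty_fintype κ'
  have hcard : Fintype.card κ = Fintype.card κ' := by
    rw [← Module.finrank_eq_card_basis b, Module.finrank_fintype_fun_eq_card]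
  let e : κ ≃ κ' := Fintype.equivOfCardEq hcard
  refine ⟨fun i => a (e i), ?_⟩
  have hli' : LinearIndependent k (fun i => Φ (a (e i))) := hli.comp e e.injective
  have := Matrix.linearIndependent_rows_iff_isUnit (A := (Matrix.of fun i b => Φ (a (e i)) b)) |>.1 hli'
  exact ((Matrix.isUnit_iff_isUnit_det _).1 this).ne_zero

/-- an `A`-combination of functions which is everywhere a unit -/
theorem exists_unit_comb [Infinite k] (hk : Function.Surjective (algebraMap A k))
    (hu : ∀ a : A, algebraMap A k a ≠ 0 → IsUnit a) (s : V → V → A)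
    (hs : ∀ P, algebraMap A k (s P P) ≠ 0) [Fintype V] :
    ∃ l : V → A, ∀ Q, IsUnit (∑ P, l P * s P Q) := by
  classical
  let φ : V → ((V → k) →ₗ[k] k) := fun Q =>
    { toFun := fun l => ∑ P, l P * algebraMap A k (s P Q)
      map_add' := fun x y => by simp [add_mul, Finset.sum_add_distrib]
      map_smul' := fun c x => by simp [Finset.mul_sum, mul_assoc] }
  have hφ : ∀ Q, LinearMap.ker (φ Q) ≠ ⊤ := by
    intro Q h
    have h1 : (Pi.single Q 1 : V → k) ∈ LinearMap.ker (φ Q) := by rw [h]; trivial
    rw [LinearMap.mem_ker] at h1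
    change ∑ P, (Pi.single Q 1 : V → k) P * algebraMap A k (s P Q) = 0 at h1
    rw [Finset.sum_eq_single Q] at h1
    · rw [Pi.single_eq_same, one_mul] at h1
      exact hs Q h1
    · intro P _ hP
      rw [Pi.single_eq_of_ne hP, zero_mul]
    · intro h2; exact absurd (Finset.mem_univ _) h2
  obtain ⟨l, hl⟩ := Submodule.exists_forall_notMem_of_forall_ne_top _ hφ
  choose m hm using fun P => hk (l P)
  refine ⟨m, fun Q => hu _ ?_⟩
  rw [map_sum]
  have : ∑ P, algebraMap A k (m P * s P Q) = φ Q l := by
    change _ = ∑ P, l P * algebraMap A k (s P Q)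
    refine Finset.sum_congr rfl fun P _ => ?_
    rw [map_mul, hm]
  rw [this]
  exact hl Q

/-- **Cramer's rule for rings of functions.** -/
theorem mem_of_linear [Infinite k] (hk : Function.Surjective (algebraMap A k))
    (hu : ∀ a : A, algebraMap A k a ≠ 0 → IsUnit a) (𝓗 : Subalgebra A (V → A))
    {ι κ : Type*} [Fintype κ] (Φ : ι → κ → V → A) (hΦ : ∀ i j, Φ i j ∈ 𝓗)
    (x : κ → V → A) (β : ι → V → A) (hβ : ∀ i, β i ∈ 𝓗)
    (h : ∀ i P, ∑ j, Φ i j P * x j P = β i P)
    (hind : ∀ P, ∀ c : κ → k, (∀ i, ∑ j, algebraMap A k (Φ i j P) * c j = 0) → c = 0) :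
    ∀ j, x j ∈ 𝓗 := by
  classical
  cases nonempty_fintype V
  choose f hf using fun P => exists_minor (fun i j => algebraMap A k (Φ i j P)) (hind P)
  -- the minors
  let Mt : V → Matrix κ κ 𝓗 := fun P => Matrix.of fun a b => ⟨Φ (f P a) b, hΦ _ _⟩
  let s : V → 𝓗 := fun P => (Mt P).det
  have hs : ∀ P, algebraMap A k ((s P : V → A) P) ≠ 0 := by
    intro P
    have h1 : algebraMap A k ((s P : V → A) P) =
        (Matrix.of fun a b => algebraMap A k (Φ (f P a) b P)).det := by
      let e : 𝓗 →+* k := ((algebraMap A k).comp (Pi.evalRingHom (fun _ : V => A) P)).comp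
        𝓗.val.toRingHom
      change e (Mt P).det = _
      rw [RingHom.map_det]
      rfl
    rw [h1]
    exact hf P
  have hsx : ∀ P j, (s P : V → A) * x j ∈ 𝓗 := by
    intro P j
    have h1 : ((s P : V → A) * x j) =
        ∑ a, ((Mt P).adjugate j a : V → A) * β (f P a) := by
      have h2 : ∀ a, β (f P a) = ∑ b, (Mt P a b : V → A) * x b := by
        intro a
        funext Q
        rw [← h (f P a) Q, Finset.sum_apply]
        rfl
      simp only [h2, Finset.mul_sum]
      rw [Finset.sum_comm]
      have h3 : ∀ b, ∑ a, ((Mt P).adjugate j a : V → A) * ((Mt P a b : V → A) * x b) =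
          (if j = b then (s P : V → A) else 0) * x b := by
        intro b
        have h4 := congrFun (congrFun (Matrix.adjugate_mul (Mt P)) j) b
        rw [Matrix.mul_apply, Matrix.smul_apply, Matrix.one_apply] at h4
        have h5 := congrArg (Subtype.val : 𝓗 → (V → A)) h4
        have h6 : ((∑ a, (Mt P).adjugate j a * Mt P a b : 𝓗) : V → A) =
            ∑ a, ((Mt P).adjugate j a : V → A) * (Mt P a b : V → A) := by
          push_cast; rfl
        rw [h6] at h5
        simp only [← mul_assoc]
        rw [← Finset.sum_mul, h5]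
        congr 1
        split_ifs <;> simp [s]
      simp only [h3]
      rw [Finset.sum_eq_single j]
      · rw [if_pos rfl]
      · intro b _ hb
        rw [if_neg (Ne.symm hb), zero_mul]
      · intro h7; exact absurd (Finset.mem_univ _) h7
    rw [h1]
    exact sum_mem fun a _ => mul_mem (Subtype.mem _) (hβ _)
  obtain ⟨l, hl⟩ := exists_unit_comb hk hu (fun P Q => (s P : V → A) Q) hs
  let S : V → A := ∑ P, l P • (s P : V → A)
  have hS : S ∈ 𝓗 := sum_mem fun P _ => Subalgebra.smul_mem _ (Subtype.mem _) _
  have hSu : ∀ Q, IsUnit (S Q) := by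
    intro Q
    have := hl Q
    rw [show S Q = ∑ P, l P * (s P : V → A) Q by
      simp [S, Finset.sum_apply]]
    exact this
  obtain ⟨t, ht, hSt⟩ := inv_mem 𝓗 hS hSu
  intro j
  have h8 : x j = t * (S * x j) := by
    rw [← mul_assoc, mul_comm t, hSt, one_mul]
  rw [h8]
  refine mul_mem ht ?_
  have h9 : S * x j = ∑ P, l P • ((s P : V → A) * x j) := by
    rw [Finset.sum_mul]
    simp
  rw [h9]
  exact sum_mem fun P _ => Subalgebra.smul_mem _ (hsx P j) _

end Fermat.Agent.FFG
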